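/-
S48 (Deligne–Serre), block DS: exact Lean targets of the independent blocks (PLAN v1, #h2-34,
amended by #2148 (density vocabulary, Rankin statement) and #2149 (no total splitting:
arbitrary finite residue fields)). Only definitions here; every block proves its target verbatim.
v2 (#h2-37): the lifting target is `LiftStmt` = "for every prime `ℓ` there is a reduction datum
`RedData ℓ`" (an algebraically closed field `k` of characteristic `ℓ`, ONE ring homomorphism
`red : ℤ̄ →+* k`, and the lifting property for finite groups of order prime to `ℓ` inside `GL₂(k)`),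
so that the assembly never chooses a place; `ModLStmt` is stated for an arbitrary such `(k, φ)`.
-/
import Mathlib
import Fermat.Prelude.Def_GaloisRep_Residual
import Fermat.Prelude.Def_Deformations_MatrixRepresentation
import Fermat.Agent.S48lib.Iface.Density

set_option autoImplicit false

open CongruenceSubgroup
open scoped MatrixGroups

namespace Fermat.Agent.S48lib.DS

/-- The absolute Galois group of `ℚ` in the Prelude's model. -/
abbrev GQ : Type := AlgebraicClosure ℚ ≃ₐ[ℚ] AlgebraicClosure ℚ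

/-! ### Hecke relations (the hypotheses of the frozen statement, for a coefficient function) -/

/-- `a 1 = 1` and the formal `T_p`-relations of weight one and character `ε`, `p ∤ N`. -/
def HeckeRel (N : ℕ) (ε : DirichletCharacter ℂ N) (a : ℕ → ℂ) : Prop :=
  a 1 = 1 ∧ ∀ p : ℕ, p.Prime → ¬ p ∣ N → ∀ n : ℕ,
    a (p * n) + ε (p : ZMod N) * (if p ∣ n then a (n / p) else 0) = a p * a n

/-- A weight-one cusp form on `Γ₁(N)` realising the relations. -/
def IsW1Eigen (N : ℕ) (ε : DirichletCharacter ℂ N) (g : CuspForm (Gamma1 N) 1) : Prop :=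
  HeckeRel N ε (fun n => ModularFormClass.qCoeff g n)

/-! ### Galois-side vocabulary -/

/-- `φ` is unramified at `p`: trivial on every inertia group over `p`. -/
def UnramAt {M : Type} [MulOneClass M] (φ : GQ →* M) (p : ℕ) : Prop :=
  ∀ A : ValuationSubring (AlgebraicClosure ℚ), A.LiesOverPrime p →
    ∀ σ ∈ A.inertiaSubgroupIn ℚ, φ σ = 1

/-- the primes `p ∉ S` all of whose Frobenius elements are sent into `C`. -/
def frobSet {M : Type} [MulOneClass M] (φ : GQ →* M) (S : Finset ℕ) (C : Set M) : Set ℕ :=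
  {p | p.Prime ∧ p ∉ S ∧ ∀ A : ValuationSubring (AlgebraicClosure ℚ), A.LiesOverPrime p →
    ∀ σ : GQ, A.IsFrobeniusAt σ p → φ σ ∈ C}

/-- **(I5) Chebotarev, lower-density form** — target of block `S48lib/Cheb`. -/
def ChebotarevStmt : Prop :=
  ∀ (G : Type) [Group G] [Finite G] (φ : GQ →* G), GaloisFactorsThroughFiniteLevel φ →
    Function.Surjective φ → ∀ S : Finset ℕ, (∀ p : ℕ, p.Prime → p ∉ S → UnramAt φ p) →
    ∀ C : Set G, (∀ g h : G, h ∈ C → g * h * g⁻¹ ∈ C) →
      LowerDensityGE (frobSet φ S C) ((Nat.card C : ℝ) / (Nat.card G : ℝ))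

/-- **(I3) Rankin's bound, elementary form** — target of block `S48lib/Rankin`
(helper4's `Rankin.sum_primes_le`, #2148). -/
def RankinStmt : Prop :=
  ∀ (N : ℕ) [NeZero N] (ε : DirichletCharacter ℂ N) (g : CuspForm (Gamma1 N) 1),
    IsW1Eigen N ε g →
    ∃ C : ℝ, ∀ s : ℝ, 1 < s → s ≤ 2 →
      Summable (fun p : Nat.Primes => if (p : ℕ) ∣ N then 0 else
        ‖ModularFormClass.qCoeff g p‖ ^ 2 * ((p : ℕ) : ℝ) ^ (-s)) ∧
      ∑' p : Nat.Primes, (if (p : ℕ) ∣ N then 0 else
        ‖ModularFormClass.qCoeff g p‖ ^ 2 * ((p : ℕ) : ℝ) ^ (-s))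
        ≤ Real.log (1 / (s - 1)) + C

/-- semisimplicity of a two-dimensional matrix representation, concretely:
every stable line has a stable complementary line. -/
def Semisimple2 {Γ k : Type} [Group Γ] [Field k] (r : Γ →* GL (Fin 2) k) : Prop :=
  ∀ v : Fin 2 → k, v ≠ 0 → (∀ g : Γ, ∃ c : k, (r g : Matrix (Fin 2) (Fin 2) k).mulVec v = c • v) →
    ∃ w : Fin 2 → k, (∀ g : Γ, ∃ c : k, (r g : Matrix (Fin 2) (Fin 2) k).mulVec w = c • w) ∧
      ∀ a b : k, a • v + b • w = 0 → a = 0 ∧ b = 0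

/-- **(I2) algebraic package** for `(N, ε, a)` — target of blocks `S48lib/W1` + `S48lib/Conj`:
a number field `K` with an embedding into `ℂ`, containing the values of `ε` and the `a_p`
(`p ∤ N`) as algebraic INTEGERS, and the conjugate weight-one forms (v3, #lead-153: the
conjugate form may live on `Γ₁(N')` for a multiple `N'` of `N`, e.g. `4N`, with the relations
for `p ∤ N'` only; Rankin/Dens do not care about finitely many primes). -/
structure AlgPackage (N : ℕ) (ε : DirichletCharacter ℂ N) (a : ℕ → ℂ) where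
  K : Type
  [field : Field K]
  [nf : NumberField K]
  ι : K →+* ℂ
  εK : DirichletCharacter (NumberField.RingOfIntegers K) N
  hε : ∀ x : ZMod N, ε x = ι (εK x : K)
  α : ℕ → NumberField.RingOfIntegers K
  hα : ∀ p : ℕ, p.Prime → ¬ p ∣ N → a p = ι (α p : K)
  conj : ∀ σ : K →+* ℂ, ∃ (N' : ℕ) (_ : NeZero N') (hNN' : N ∣ N') (g : CuspForm (Gamma1 N') 1),
    IsW1Eigen N' (DirichletCharacter.changeLevel hNN'
      (εK.ringHomComp (σ.comp (algebraMap (NumberField.RingOfIntegers K) K)))) g ∧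
      ∀ p : ℕ, p.Prime → ¬ p ∣ N' → ModularFormClass.qCoeff g p = σ (α p : K)

attribute [instance] AlgPackage.field AlgPackage.nf

/-- **(I1+I2)** — target of blocks `S48lib/W1` + `S48lib/Conj`. -/
def AlgStmt : Prop :=
  ∀ (N : ℕ) [NeZero N] (ε : DirichletCharacter ℂ N) (f : CuspForm (Gamma1 N) 1),
    IsW1Eigen N ε f → Nonempty (AlgPackage N ε (fun n => ModularFormClass.qCoeff f n))

/-- **(I4) density of the exceptional primes** — target of block `S48lib/Dens`
(from `RankinStmt` applied to all the conjugate forms of the package). -/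
def DensStmt (N : ℕ) {ε : DirichletCharacter ℂ N} {a : ℕ → ℂ} (P : AlgPackage N ε a) : Prop :=
  ∀ η : ℝ, 0 < η → ∃ Y : Finset (NumberField.RingOfIntegers P.K),
    UpperDensityLE {p : ℕ | p.Prime ∧ ¬ p ∣ N ∧ P.α p ∉ Y} η

/-- `ℤ̄`, the ring of algebraic integers inside `ℂ`. -/
abbrev Zbar : Type := integralClosure ℤ ℂ

/-- **(I6′) the mod-`ℓ` representations** consumed by the assembly: for every prime `ℓ ∤ N`,
`ℓ ≥ 5`, every algebraically closed field `k` of characteristic `ℓ` and every `φ : ℤ̄ →+* k` there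
is a semisimple `r : G_ℚ → GL₂(k)` of finite level, unramified outside `Nℓ`, with
`tr r(Frob_p) = φ(a_p)`, `det r(Frob_p) = φ(ε(p))` (whenever `a_p`, `ε(p)` are written as
elements of `ℤ̄`). Produced by the port (`W2Gal`) + the Eisenstein congruence + the lifting
lemma (block `S48lib/DS`, file `DS/ModL.lean`). -/
def ModLStmt (N : ℕ) (ε : DirichletCharacter ℂ N) (a : ℕ → ℂ) : Prop :=
  ∀ (ℓ : ℕ) [Fact ℓ.Prime], ¬ ℓ ∣ N → 5 ≤ ℓ →
    ∀ (k : Type) [Field k] [IsAlgClosed k] [CharP k ℓ] (φ : Zbar →+* k),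
    ∃ r : GQ →* GL (Fin 2) k,
      GaloisFactorsThroughFiniteLevel r ∧ Semisimple2 r ∧
      ∀ p : ℕ, p.Prime → ¬ p ∣ N * ℓ → UnramAt r p ∧
        ∀ A : ValuationSubring (AlgebraicClosure ℚ), A.LiesOverPrime p →
          ∀ σ : GQ, A.IsFrobeniusAt σ p →
            ∀ t d : Zbar, (t : ℂ) = a p → (d : ℂ) = ε (p : ZMod N) →
              ((r σ : GL (Fin 2) k) : Matrix (Fin 2) (Fin 2) k).trace = φ t ∧
              ((r σ : GL (Fin 2) k) : Matrix (Fin 2) (Fin 2) k).det = φ d

/-- **(I7) bounded image** — target of block `S48lib/Grp` (no total splitting, no Dickson: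
coset counting for `ℓ ∣ |G|` (#2149 (2a)), pole counting on `ℙ¹` for `ℓ ∤ |G|`):
a finite semisimple subgroup of `GL₂(k)`, `k` algebraically closed (v3: the only case the
assembly uses, `k = RedData.k`), `char k = ℓ > A(m)`, three quarters of whose
elements have at most `m` distinct (trace, determinant) pairs, has order `≤ A(m)`. -/
def BoundedImageStmt : Prop :=
  ∀ m : ℕ, ∃ A : ℕ, ∀ (ℓ : ℕ) [Fact ℓ.Prime], A < ℓ →
    ∀ (k : Type) [Field k] [IsAlgClosed k] [CharP k ℓ] (G : Subgroup (GL (Fin 2) k)) [Finite G],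
      Semisimple2 G.subtype →
    ∀ H : Set (GL (Fin 2) k), H ⊆ (G : Set (GL (Fin 2) k)) →
      3 * Nat.card G ≤ 4 * H.ncard →
      ((fun g : GL (Fin 2) k =>
        ((g : Matrix (Fin 2) (Fin 2) k).trace, (g : Matrix (Fin 2) (Fin 2) k).det)) '' H).ncard ≤ m →
      Nat.card G ≤ A

/-- **(I8) reduction datum at `ℓ`**: an algebraically closed field `k` of characteristic `ℓ`,
a ring homomorphism `red : ℤ̄ →+* k` ("reduction modulo a fixed place of `ℤ̄` over `ℓ`"), and the
lifting property: every homomorphism of a finite group of order prime to `ℓ` into `GL₂(k)` lifts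
to `GL₂(ℂ)` with traces and determinants in `ℤ̄` reducing to the given ones. -/
structure RedData (ℓ : ℕ) where
  k : Type
  [field : Field k]
  [algClosed : IsAlgClosed k]
  [charP : CharP k ℓ]
  red : Zbar →+* k
  lift : ∀ (G : Type) [Group G] [Finite G], ¬ ℓ ∣ Nat.card G → ∀ r : G →* GL (Fin 2) k,
    ∃ ρ : G →* GL (Fin 2) ℂ, ∀ g : G, ∃ t d : Zbar,
      ((ρ g : GL (Fin 2) ℂ) : Matrix (Fin 2) (Fin 2) ℂ).trace = (t : ℂ) ∧
      ((ρ g : GL (Fin 2) ℂ) : Matrix (Fin 2) (Fin 2) ℂ).det = (d : ℂ) ∧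
      red t = ((r g : GL (Fin 2) k) : Matrix (Fin 2) (Fin 2) k).trace ∧
      red d = ((r g : GL (Fin 2) k) : Matrix (Fin 2) (Fin 2) k).det

attribute [instance] RedData.field RedData.algClosed RedData.charP

/-- **(I8) lifting** — target of block `S48lib/Lift`: a reduction datum exists at every prime.
(Proof: fix `ℚ̄_ℓ ≃+* ℂ`; `k` := residue field of `ℚ̄_ℓ`; a finite subgroup of `GL₂(k)` lives over
the residue field of `R = integralClosure ℤ_ℓ L`, `L/ℚ_ℓ` finite (a complete DVR with finite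
residue field by `S29lib.Dvr`), and lifts to `GL₂(R)` by Schur–Zassenhaus level by level.) -/
def LiftStmt : Prop := ∀ (ℓ : ℕ) [Fact ℓ.Prime], Nonempty (RedData ℓ)

/-- The conclusion of the frozen S48 for `(N, f, ε)`. -/
def Conclusion (N : ℕ) (ε : DirichletCharacter ℂ N) (f : CuspForm (Gamma1 N) 1) : Prop :=
  ∃ ρ : GQ →* GL (Fin 2) ℂ, GaloisFactorsThroughFiniteLevel ρ ∧
    (Deformation.matrixRepresentation ρ).IsIrreducible ∧
    ∀ p : ℕ, p.Prime → ¬ p ∣ N →
      ∀ A : ValuationSubring (AlgebraicClosure ℚ), A.LiesOverPrime p →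
        (∀ σ ∈ A.inertiaSubgroupIn ℚ, ρ σ = 1) ∧
        ∀ σ : GQ, A.IsFrobeniusAt σ p →
          ((ρ σ : GL (Fin 2) ℂ) : Matrix (Fin 2) (Fin 2) ℂ).trace = ModularFormClass.qCoeff f p ∧
          ((ρ σ : GL (Fin 2) ℂ) : Matrix (Fin 2) (Fin 2) ℂ).det = ε (p : ZMod N)

/-- **The assembly target** (block `S48lib/DS`, file `DS/Main.lean`). -/
def MainStmt : Prop :=
  RankinStmt → ChebotarevStmt → BoundedImageStmt → LiftStmt →
    ∀ (N : ℕ) [NeZero N] (ε : DirichletCharacter ℂ N) (f : CuspForm (Gamma1 N) 1),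
      IsW1Eigen N ε f →
      ∀ P : AlgPackage N ε (fun n => ModularFormClass.qCoeff f n),
        DensStmt N P → ModLStmt N ε (fun n => ModularFormClass.qCoeff f n) → Conclusion N ε f

end Fermat.Agent.S48lib.DS
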