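/-
S48 (Deligne–Serre), block DS, file LiftEigen: **the Deligne–Serre lifting lemma (Lemma 6.11) in
the form with a FIXED place**.
`V` a finite-dimensional complex vector space with commuting operators `T i`; `R ⊆ ℤ̄` a subring;
`L ⊆ V` a finitely generated `ℤ`-lattice, stable under `R` and the `T i`, spanning `V`;
`K₀ ⊆ L` ("the kernel of reduction modulo the place `φ`"), stable under `R` and the `T i`, with
`φ r = 0 → r L ⊆ K₀`; `g₀ ∈ L` with `r g₀ ∈ K₀ → φ r = 0` and `T i g₀ ≡ a i g₀ mod K₀`, `a i ∈ R`.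
Then there are a simultaneous eigenvector `g'` with eigenvalues `b i ∈ ℤ̄` and a ring homomorphism
`ψ : ℤ̄ → k` which agrees with `φ` on `R` and satisfies `ψ (b i) = φ (a i)`.
-/
import Mathlib
import Fermat.Agent.S48lib.DS.Inputs
import Fermat.Agent.Helper8.EigenLemma

set_option autoImplicit false
set_option linter.style.haveILetI false
set_option linter.unusedSectionVars false
set_option linter.deprecated false

namespace Fermat.Agent.S48lib.DS

section Ext

/-- extension of a ring homomorphism into an algebraically closed field along an injective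
integral extension. -/
theorem exists_extension_of_integral {B C : Type*} [CommRing B] [CommRing C] [Algebra B C]
    [Algebra.IsIntegral B C] (hinj : Function.Injective (algebraMap B C))
    {k : Type*} [Field k] [IsAlgClosed k] (ψ : B →+* k) :
    ∃ ψ' : C →+* k, ∀ b : B, ψ' (algebraMap B C b) = ψ b := by
  set 𝔭 : Ideal B := RingHom.ker ψ with h𝔭
  haveI : 𝔭.IsPrime := RingHom.ker_isPrime ψ
  obtain ⟨𝔓, -, h𝔓prime, hcomap⟩ := Ideal.exists_ideal_over_prime_of_isIntegral 𝔭 (⊥ : Ideal C)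
    (by
      intro x hx
      rw [Ideal.mem_comap, Ideal.mem_bot] at hx
      have : x = 0 := hinj (by rw [hx, map_zero])
      rw [this]
      exact 𝔭.zero_mem)
  haveI := h𝔓prime
  haveI : 𝔓.LiesOver 𝔭 := ⟨hcomap.symm⟩
  letI : Algebra (B ⧸ 𝔭) k := (RingHom.kerLift ψ).toAlgebra
  haveI : Module.IsTorsionFree (B ⧸ 𝔭) k := by
    haveI : FaithfulSMul (B ⧸ 𝔭) k :=
      (faithfulSMul_iff_algebraMap_injective _ _).mpr (RingHom.kerLift_injective ψ)
    infer_instance
  haveI : Algebra.IsIntegral (B ⧸ 𝔭) (C ⧸ 𝔓) := inferInstance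
  let L : (C ⧸ 𝔓) →ₐ[B ⧸ 𝔭] k := IsAlgClosed.lift
  refine ⟨L.toRingHom.comp (Ideal.Quotient.mk 𝔓), fun b => ?_⟩
  have h1 : (Ideal.Quotient.mk 𝔓) (algebraMap B C b) =
      algebraMap (B ⧸ 𝔭) (C ⧸ 𝔓) (Ideal.Quotient.mk 𝔭 b) := rfl
  rw [RingHom.comp_apply, h1]
  have h2 := L.commutes (Ideal.Quotient.mk 𝔭 b)
  rw [AlgHom.toRingHom_eq_coe, RingHom.coe_coe, h2]
  rfl

/-- ring-homomorphism form: `θ` factors through `f` up to an extension to the integral closure. -/
theorem exists_factor_of_ker_le {A C : Type*} [CommRing A] [CommRing C] (f : A →+* C)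
    (hint : ∀ z : C, IsIntegral ℤ z) {k : Type*} [Field k] [IsAlgClosed k] (θ : A →+* k)
    (hker : RingHom.ker f ≤ RingHom.ker θ) : ∃ ψ : C →+* k, ∀ t : A, ψ (f t) = θ t := by
  set B : Subring C := f.range with hB
  have hsurj : Function.Surjective f.rangeRestrict := f.rangeRestrict_surjective
  have hker' : RingHom.ker f.rangeRestrict ≤ RingHom.ker θ := by
    intro t ht
    apply hker
    rw [RingHom.mem_ker] at ht ⊢
    have := congrArg Subtype.val ht
    exact this
  set ψ₀ : B →+* k := RingHom.liftOfSurjective f.rangeRestrict hsurj ⟨θ, hker'⟩ with hψ₀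
  have hψ₀' : ∀ t : A, ψ₀ (f.rangeRestrict t) = θ t := fun t =>
    RingHom.liftOfRightInverse_comp_apply _ _ _ ⟨θ, hker'⟩ t
  letI : Algebra B C := B.subtype.toAlgebra
  haveI : Algebra.IsIntegral B C := ⟨fun z => (hint z).tower_top⟩
  obtain ⟨ψ, hψ⟩ := exists_extension_of_integral (B := B) (C := C) Subtype.val_injective ψ₀
  refine ⟨ψ, fun t => ?_⟩
  have := hψ (f.rangeRestrict t)
  rw [hψ₀'] at this
  exact this

end Ext

section Rho

variable {V : Type*} [AddCommGroup V] [Module ℂ V] (R : Subring ℂ) {ι : Type*}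
  (T : ι → Module.End ℂ V) (hcomm : ∀ i j, T i * T j = T j * T i)

include hcomm in
theorem range_comm : ∀ a ∈ Set.range T, ∀ b ∈ Set.range T, a * b = b * a := by
  rintro _ ⟨i, rfl⟩ _ ⟨j, rfl⟩
  exact hcomm i j

/-- the action of the polynomial ring `R[X_i]` through the commuting operators `T i`. -/
noncomputable def rhoHom : MvPolynomial ι R →+* Module.End ℂ V :=
  letI : CommRing (Algebra.adjoin R (Set.range T)) :=
    Algebra.adjoinCommRingOfComm R (range_comm T hcomm)
  (Algebra.adjoin R (Set.range T)).val.toRingHom.comp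
    (MvPolynomial.aeval (R := R) (S₁ := Algebra.adjoin R (Set.range T))
      (fun i => ⟨T i, Algebra.subset_adjoin ⟨i, rfl⟩⟩)).toRingHom

theorem rhoHom_C (r : R) (x : V) : rhoHom R T hcomm (MvPolynomial.C r) x = (r : ℂ) • x := by
  have : rhoHom R T hcomm (MvPolynomial.C r) = algebraMap R _ r := by simp [rhoHom]
  rw [this, Module.algebraMap_end_apply]
  rfl

theorem rhoHom_X (i : ι) : rhoHom R T hcomm (MvPolynomial.X i) = T i := by
  simp [rhoHom]

theorem rhoHom_mul_X (t : MvPolynomial ι R) (i : ι) (x : V) :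
    rhoHom R T hcomm (t * MvPolynomial.X i) x = rhoHom R T hcomm t (T i x) := by
  rw [map_mul, rhoHom_X, Module.End.mul_apply]

end Rho

section Integral

variable {V : Type*} [AddCommGroup V] [Module ℂ V]

/-- an operator preserving a finitely generated lattice which spans has integral eigenvalues. -/
theorem isIntegral_eigenvalue (f : Module.End ℂ V) (L : Submodule ℤ V) [Module.Finite ℤ L]
    (hL : ∀ x ∈ L, f x ∈ L) (hspan : Submodule.span ℂ (L : Set V) = ⊤) (g : V) (hg : g ≠ 0)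
    (b : ℂ) (hb : f g = b • g) : IsIntegral ℤ b := by
  set fL : Module.End ℤ L := (f.restrictScalars ℤ).restrict hL with hfL
  obtain ⟨P, hPmonic, hP⟩ := Algebra.IsIntegral.isIntegral (R := ℤ) fL
  rw [← Polynomial.aeval_def] at hP
  -- compatibility of `aeval` with the restriction
  have hcompat : ∀ Q : Polynomial ℤ, ∀ x : L,
      (Polynomial.aeval f Q) (x : V) = ((Polynomial.aeval fL Q) x : V) := by
    intro Q
    induction Q using Polynomial.induction_on with
    | C n =>
      intro x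
      rw [Polynomial.aeval_C, Polynomial.aeval_C, Module.algebraMap_end_apply,
        Module.algebraMap_end_apply]
      rfl
    | add p q hp hq =>
      intro x
      rw [map_add, map_add, LinearMap.add_apply, LinearMap.add_apply, hp, hq]
      rfl
    | monomial m n ih =>
      intro x
      have e1 : Polynomial.aeval f (Polynomial.C n * Polynomial.X ^ (m + 1)) =
          Polynomial.aeval f (Polynomial.C n * Polynomial.X ^ m) * f := by
        rw [pow_succ, ← mul_assoc, map_mul, Polynomial.aeval_X]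
      have e2 : Polynomial.aeval fL (Polynomial.C n * Polynomial.X ^ (m + 1)) =
          Polynomial.aeval fL (Polynomial.C n * Polynomial.X ^ m) * fL := by
        rw [pow_succ, ← mul_assoc, map_mul, Polynomial.aeval_X]
      rw [e1, e2, Module.End.mul_apply, Module.End.mul_apply]
      exact ih ⟨f x, hL x x.2⟩
  have hzeroL : ∀ x ∈ L, (Polynomial.aeval f P) x = 0 := by
    intro x hx
    rw [hcompat P ⟨x, hx⟩, hP]
    rfl
  have hzero : Polynomial.aeval f P = 0 := by
    apply LinearMap.ext_on_range (v := fun x : L => (x : V))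
    · rw [Subtype.range_coe_subtype]
      exact hspan
    · intro x
      rw [hzeroL x x.2, LinearMap.zero_apply]
  -- evaluate at the eigenvector
  have hpow : ∀ n : ℕ, (f ^ n) g = b ^ n • g := by
    intro n
    induction n with
    | zero => simp
    | succ n ih => rw [pow_succ, Module.End.mul_apply, hb, map_smul, ih, smul_smul, pow_succ, mul_comm]
  have heval : ∀ Q : Polynomial ℤ, (Polynomial.aeval f Q) g = (Polynomial.aeval b Q) • g := by
    intro Q
    induction Q using Polynomial.induction_on with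
    | C n =>
      rw [Polynomial.aeval_C, Polynomial.aeval_C, Module.algebraMap_end_apply,
        eq_intCast, Int.cast_smul_eq_zsmul]
    | add p q hp hq =>
      rw [map_add, map_add, LinearMap.add_apply, hp, hq, add_smul]
    | monomial m n _ =>
      rw [map_mul, map_mul, map_pow, map_pow, Polynomial.aeval_X, Polynomial.aeval_X,
        Polynomial.aeval_C, Polynomial.aeval_C, Module.End.mul_apply, hpow, map_smul,
        Module.algebraMap_end_apply, eq_intCast, ← Int.cast_smul_eq_zsmul ℂ n g, smul_smul,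
        mul_comm]
  have h0 : (Polynomial.aeval b P) • g = 0 := by rw [← heval, hzero, LinearMap.zero_apply]
  rcases smul_eq_zero.mp h0 with h | h
  · exact ⟨P, hPmonic, by rw [← Polynomial.aeval_def]; exact h⟩
  · exact absurd h hg

end Integral

section Main

variable {V : Type*} [AddCommGroup V] [Module ℂ V] [FiniteDimensional ℂ V]

/-- **Deligne–Serre lifting lemma with a fixed place.** -/
theorem exists_eigen_lift (R : Subring ℂ) (hR : ∀ r ∈ R, IsIntegral ℤ r)
    {ι : Type*} (T : ι → Module.End ℂ V) (hcomm : ∀ i j, T i * T j = T j * T i)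
    (L : Submodule ℤ V) [Module.Finite ℤ L]
    (hLR : ∀ r ∈ R, ∀ x ∈ L, r • x ∈ L) (hLT : ∀ i, ∀ x ∈ L, T i x ∈ L)
    (hspan : Submodule.span ℂ (L : Set V) = ⊤)
    {k : Type*} [Field k] [IsAlgClosed k] (φ : Zbar →+* k)
    (K₀ : Submodule ℤ V)
    (hK₀R : ∀ r ∈ R, ∀ x ∈ K₀, r • x ∈ K₀) (hK₀T : ∀ i, ∀ x ∈ K₀, T i x ∈ K₀)
    (g₀ : V)
    (hg₀ : ∀ (r : ℂ) (hr : r ∈ R), r • g₀ ∈ K₀ → φ ⟨r, hR r hr⟩ = 0)
    (a : ι → R) (ha : ∀ i, T i g₀ - (a i : ℂ) • g₀ ∈ K₀) :
    ∃ (g' : V) (b : ι → Zbar) (ψ : Zbar →+* k), g' ≠ 0 ∧ (∀ i, T i g' = (b i : ℂ) • g') ∧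
      (∀ (r : ℂ) (hr : r ∈ R), ψ ⟨r, hR r hr⟩ = φ ⟨r, hR r hr⟩) ∧
      ∀ i, ψ (b i) = φ ⟨(a i : ℂ), hR _ (a i).2⟩ := by
  classical
  -- the inclusion `R → ℤ̄` and the restriction of `φ`
  let incl : R →+* Zbar :=
    { toFun := fun r => ⟨(r : ℂ), hR _ r.2⟩
      map_one' := rfl
      map_mul' := fun _ _ => rfl
      map_zero' := rfl
      map_add' := fun _ _ => rfl }
  set φR : R →+* k := φ.comp incl with hφR
  set ρ := rhoHom R T hcomm with hρ
  set θ₀ : MvPolynomial ι R →+* k := MvPolynomial.eval₂Hom φR (fun i => φR (a i)) with hθ₀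
  -- the key induction
  have key : ∀ t : MvPolynomial ι R, (∀ x ∈ L, ρ t x ∈ L) ∧ (∀ x ∈ K₀, ρ t x ∈ K₀) ∧
      ∃ c : R, ρ t g₀ - (c : ℂ) • g₀ ∈ K₀ ∧ φR c = θ₀ t := by
    intro t
    induction t using MvPolynomial.induction_on with
    | C r =>
      refine ⟨fun x hx => ?_, fun x hx => ?_, r, ?_, ?_⟩
      · rw [hρ, rhoHom_C]; exact hLR _ r.2 x hx
      · rw [hρ, rhoHom_C]; exact hK₀R _ r.2 x hx
      · rw [hρ, rhoHom_C, sub_self]; exact K₀.zero_mem
      · rw [hθ₀, MvPolynomial.coe_eval₂Hom, MvPolynomial.eval₂_C]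
    | add p q hp hq =>
      obtain ⟨hp1, hp2, cp, hp3, hp4⟩ := hp
      obtain ⟨hq1, hq2, cq, hq3, hq4⟩ := hq
      refine ⟨fun x hx => ?_, fun x hx => ?_, cp + cq, ?_, ?_⟩
      · rw [map_add, LinearMap.add_apply]; exact L.add_mem (hp1 x hx) (hq1 x hx)
      · rw [map_add, LinearMap.add_apply]; exact K₀.add_mem (hp2 x hx) (hq2 x hx)
      · have : ρ (p + q) g₀ - ((cp + cq : R) : ℂ) • g₀ =
            (ρ p g₀ - (cp : ℂ) • g₀) + (ρ q g₀ - (cq : ℂ) • g₀) := by
          rw [map_add, LinearMap.add_apply, Subring.coe_add, add_smul]; abel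
        rw [this]
        exact K₀.add_mem hp3 hq3
      · rw [map_add, map_add, hp4, hq4]
    | mul_X p i hp =>
      obtain ⟨hp1, hp2, cp, hp3, hp4⟩ := hp
      refine ⟨fun x hx => ?_, fun x hx => ?_, cp * a i, ?_, ?_⟩
      · rw [hρ, rhoHom_mul_X]; exact hp1 _ (hLT i x hx)
      · rw [hρ, rhoHom_mul_X]; exact hp2 _ (hK₀T i x hx)
      · have : ρ (p * MvPolynomial.X i) g₀ - ((cp * a i : R) : ℂ) • g₀ =
            ρ p (T i g₀ - (a i : ℂ) • g₀) + (a i : ℂ) • (ρ p g₀ - (cp : ℂ) • g₀) := by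
          rw [hρ, rhoHom_mul_X, map_sub, map_smul, smul_sub, smul_smul, Subring.coe_mul,
            mul_comm ((a i : R) : ℂ)]
          abel
        rw [this]
        exact K₀.add_mem (hp2 _ (ha i)) (hK₀R _ (a i).2 _ hp3)
      · rw [map_mul, map_mul, hp4, hθ₀, MvPolynomial.coe_eval₂Hom, MvPolynomial.eval₂_X]
  -- the kernel condition
  have hker : RingHom.ker ρ ≤ RingHom.ker θ₀ := by
    intro t ht
    rw [RingHom.mem_ker] at ht ⊢
    obtain ⟨-, -, c, hc, hcθ⟩ := key t
    rw [ht, LinearMap.zero_apply, zero_sub] at hc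
    have hc' : (c : ℂ) • g₀ ∈ K₀ := by
      have := K₀.neg_mem hc
      rwa [neg_neg] at this
    rw [← hcθ]
    exact hg₀ _ c.2 hc'
  haveI : (RingHom.ker θ₀).IsPrime := RingHom.ker_isPrime θ₀
  obtain ⟨g', χ, hg', hχ, hkerχ⟩ :=
    Fermat.Agent.Helper8.exists_eigenvector_ker_le ρ (RingHom.ker θ₀) hker
  have hcancel : ∀ {x y : ℂ}, x • g' = y • g' → x = y := by
    intro x y hxy
    have : (x - y) • g' = 0 := by rw [sub_smul, hxy, sub_self]
    rcases smul_eq_zero.mp this with h | h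
    · exact sub_eq_zero.mp h
    · exact absurd h hg'
  have hχC : ∀ r : R, χ (MvPolynomial.C r) = (r : ℂ) := by
    intro r
    apply hcancel
    rw [← hχ, hρ, rhoHom_C]
  have hχX : ∀ i, T i g' = χ (MvPolynomial.X i) • g' := by
    intro i
    rw [← hχ, hρ, rhoHom_X]
  have hbint : ∀ i, IsIntegral ℤ (χ (MvPolynomial.X i)) := fun i =>
    isIntegral_eigenvalue (T i) L (hLT i) hspan g' hg' _ (hχX i)
  have hχint : ∀ t : MvPolynomial ι R, IsIntegral ℤ (χ t) := by
    intro t
    induction t using MvPolynomial.induction_on with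
    | C r => rw [hχC]; exact hR _ r.2
    | add p q hp hq => rw [map_add]; exact hp.add hq
    | mul_X p i hp => rw [map_mul]; exact hp.mul (hbint i)
  set χZ : MvPolynomial ι R →+* Zbar := χ.codRestrict (integralClosure ℤ ℂ) hχint with hχZ
  have hχZcoe : ∀ t, ((χZ t : Zbar) : ℂ) = χ t := fun t => rfl
  have hkerZ : RingHom.ker χZ ≤ RingHom.ker θ₀ := by
    intro t ht
    apply hkerχ
    rw [RingHom.mem_ker] at ht ⊢
    rw [← hχZcoe, ht]
    rfl
  obtain ⟨ψ, hψ⟩ := exists_factor_of_ker_le χZ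
    (fun z => Algebra.IsIntegral.isIntegral z) θ₀ hkerZ
  refine ⟨g', fun i => χZ (MvPolynomial.X i), ψ, hg', fun i => ?_, fun r hr => ?_, fun i => ?_⟩
  · rw [hχZcoe]; exact hχX i
  · have h1 : (⟨r, hR r hr⟩ : Zbar) = χZ (MvPolynomial.C ⟨r, hr⟩) :=
      Subtype.ext (by rw [hχZcoe, hχC])
    have h2 : ψ ⟨r, hR r hr⟩ = θ₀ (MvPolynomial.C ⟨r, hr⟩) := by
      have := hψ (MvPolynomial.C ⟨r, hr⟩)
      rw [← h1] at this
      exact this
    have h3 : θ₀ (MvPolynomial.C ⟨r, hr⟩) = φR ⟨r, hr⟩ := by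
      rw [hθ₀, MvPolynomial.coe_eval₂Hom, MvPolynomial.eval₂_C]
    rw [h2, h3]
    rfl
  · have h2 : ψ (χZ (MvPolynomial.X i)) = θ₀ (MvPolynomial.X i) := hψ _
    have h3 : θ₀ (MvPolynomial.X i) = φR (a i) := by
      rw [hθ₀, MvPolynomial.coe_eval₂Hom, MvPolynomial.eval₂_X]
    rw [h2, h3]
    rfl

end Main

end Fermat.Agent.S48lib.DS
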