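/-
S48 (Deligne–Serre), block DS, file ModLInputs: the inputs of `DS/ModL.lean` (the proof of
`ModLStmt`) which are produced by other blocks, as `Prop`s.

* `Eis1Stmt` — target of block `S48lib/Eis1`: for a prime `ℓ ≥ 5`, an algebraically closed field
  `k` of characteristic `ℓ` and `φ : ℤ̄ →+* k`, a weight one modular form `E` on `Γ₁(ℓ)` with
  nebentypus `ψ` = the inverse of the Teichmüller character attached to `φ`, whose `q`-expansion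
  has coefficients in `ℤ[ψ] ⊆ ℤ̄`, constant term a `φ`-unit, all higher coefficients in `ker φ`
  (e.g. `E = S • E_{1,ψ}` with `S = ∑_v ψ(v) v`, `E_{1,ψ} = 1 - (2/B_{1,ψ}) ∑ σ_ψ(n) qⁿ`).
-/
import Mathlib
import Fermat.Agent.S48lib.DS.Inputs

set_option autoImplicit false

open CongruenceSubgroup UpperHalfPlane
open scoped MatrixGroups ModularForm

namespace Fermat.Agent.S48lib.DS

/-- **(I9) the Eisenstein congruence** — target of block `S48lib/Eis1`. -/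
def Eis1Stmt : Prop :=
  ∀ (ℓ : ℕ) [Fact ℓ.Prime], 5 ≤ ℓ →
    ∀ (k : Type) [Field k] [IsAlgClosed k] [CharP k ℓ] (φ : Zbar →+* k),
    ∃ (ψ : DirichletCharacter ℂ ℓ) (ψZ : ZMod ℓ → Zbar) (E : ModularForm (Gamma1 ℓ) 1)
      (e : ℕ → Zbar),
      (∀ x : ZMod ℓ, ψ x = (ψZ x : ℂ)) ∧
      (∀ n : ℕ, ¬ ℓ ∣ n → φ (ψZ (n : ZMod ℓ)) * (n : k) = 1) ∧
      (∀ γ : SL(2, ℤ), γ ∈ Gamma0 ℓ →
        (⇑E : ℍ → ℂ) ∣[(1 : ℤ)] γ = ψ (((γ 1 1 : ℤ)) : ZMod ℓ) • (⇑E : ℍ → ℂ)) ∧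
      (∀ n : ℕ, ModularFormClass.qCoeff E n = (e n : ℂ)) ∧
      (∀ n : ℕ, (e n : ℂ) ∈ Subring.closure (Set.range (⇑ψ : ZMod ℓ → ℂ))) ∧
      φ (e 0) ≠ 0 ∧ ∀ n : ℕ, 1 ≤ n → φ (e n) = 0

end Fermat.Agent.S48lib.DS
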