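/-
S48 (Deligne–Serre), block DS, file Teich: **the inverse Teichmüller character of a place.**
For a prime `ℓ ≥ 3`, a field `k` of characteristic `ℓ` and `φ : ℤ̄ →+* k` there is a Dirichlet
character `ψ` modulo `ℓ` with values in `ℤ̄` (`ψZ`), with `φ(ψ(n)) · n = 1` in `k` for `ℓ ∤ n`,
and `ψ(-1) = -1`.
-/
import Mathlib
import Fermat.Agent.S48lib.DS.Inputs

set_option autoImplicit false
set_option linter.style.haveILetI false
set_option linter.unusedSectionVars false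
set_option linter.deprecated false

noncomputable section

namespace Fermat.Agent.S48lib.DS

open Polynomial

/-- the reduction of a primitive root of unity of order prime to the characteristic is primitive. -/
theorem isPrimitiveRoot_red {k : Type} [Field k] (φ : Zbar →+* k) {n : ℕ} [NeZero (n : k)]
    (z : Zbar) (hz : IsPrimitiveRoot (z : ℂ) n) : IsPrimitiveRoot (φ z) n := by
  have hn : 0 < n := Nat.pos_of_ne_zero (fun h => by
    have := NeZero.ne ((n : ℕ) : k)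
    rw [h] at this
    simp at this)
  rw [← isRoot_cyclotomic_iff, IsRoot.def, ← map_cyclotomic_int, eval_map]
  have h1 : (aeval z (cyclotomic n ℤ) : Zbar) = 0 := by
    apply Subtype.ext
    rw [aeval_subalgebra_coe]
    have := hz.isRoot_cyclotomic hn
    rw [IsRoot.def, ← map_cyclotomic_int, eval_map] at this
    rw [aeval_def]
    exact this
  have h2 : eval₂ (Int.castRingHom k) (φ z) (cyclotomic n ℤ) =
      φ (eval₂ (Int.castRingHom Zbar) z (cyclotomic n ℤ)) := by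
    rw [hom_eval₂]
    congr 1
    exact RingHom.ext_int _ _
  rw [h2]
  rw [aeval_def] at h1
  have h3 : algebraMap ℤ Zbar = Int.castRingHom Zbar := RingHom.ext_int _ _
  rw [h3] at h1
  rw [h1, map_zero]

theorem exists_teichmuller_inv (ℓ : ℕ) [hℓ : Fact ℓ.Prime] (h3 : 3 ≤ ℓ) (k : Type) [Field k]
    [CharP k ℓ] (φ : Zbar →+* k) :
    ∃ (ψ : DirichletCharacter ℂ ℓ) (ψZ : ZMod ℓ → Zbar), (∀ x, ψ x = (ψZ x : ℂ)) ∧
      (∀ n : ℕ, ¬ ℓ ∣ n → φ (ψZ (n : ZMod ℓ)) * (n : k) = 1) ∧ ψ (-1) = -1 := by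
  classical
  set n : ℕ := ℓ - 1 with hn
  have hnpos : 0 < n := by omega
  haveI : NeZero n := ⟨hnpos.ne'⟩
  have hnk : ((n : ℕ) : k) = -1 := by
    rw [hn, Nat.cast_sub (by omega), CharP.cast_eq_zero k ℓ]
    simp
  haveI : NeZero ((n : ℕ) : k) := ⟨by rw [hnk]; exact neg_ne_zero.mpr one_ne_zero⟩
  -- a primitive root of unity in `ℤ̄`
  set ζ₀ : ℂ := Complex.exp (2 * Real.pi * Complex.I / n) with hζ₀
  have hζ₀prim : IsPrimitiveRoot ζ₀ n := Complex.isPrimitiveRoot_exp n hnpos.ne'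
  set z₀ : Zbar := ⟨ζ₀, hζ₀prim.isIntegral hnpos⟩ with hz₀
  have hgprim : IsPrimitiveRoot (φ z₀) n := isPrimitiveRoot_red φ z₀ hζ₀prim
  -- the embedding of `𝔽_ℓ`
  set c : ZMod ℓ →+* k := ZMod.castHom (dvd_refl ℓ) k with hc
  have hcinj : Function.Injective c := RingHom.injective c
  -- a generator
  haveI : IsCyclic (ZMod ℓ)ˣ := ZMod.isCyclic_units_prime hℓ.out
  obtain ⟨u₀, hu₀⟩ := IsCyclic.exists_generator (α := (ZMod ℓ)ˣ)
  have hord : orderOf u₀ = n := by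
    rw [orderOf_eq_card_of_forall_mem_zpowers hu₀, Nat.card_eq_fintype_card,
      ZMod.card_units_eq_totient, Nat.totient_prime hℓ.out]
  have hcu₀ : c (u₀ : ZMod ℓ) ^ n = 1 := by
    rw [← map_pow, ← Units.val_pow_eq_pow_val, hn, ZMod.units_pow_card_sub_one_eq_one]
    simp
  obtain ⟨i, -, hi⟩ := hgprim.eq_pow_of_pow_eq_one hcu₀
  -- the image of the generator
  set z₁ : Zbar := z₀ ^ i with hz₁
  have hφz₁ : φ z₁ = c (u₀ : ZMod ℓ) := by rw [hz₁, map_pow, hi]
  have hζ₀ne : ζ₀ ≠ 0 := hζ₀prim.ne_zero hnpos.ne'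
  set ξ : ℂˣ := (Units.mk0 ζ₀ hζ₀ne) ^ i with hξ
  have hξval : (ξ : ℂ) = ((z₁ : Zbar) : ℂ) := by
    rw [hξ, hz₁]
    simp [hz₀]
  have hξn : ξ ^ n = 1 := by
    apply Units.ext
    rw [hξ, ← pow_mul, mul_comm, pow_mul]
    simp [hζ₀prim.pow_eq_one]
  have hξord : orderOf ξ ∣ orderOf u₀ := by
    rw [hord]
    exact orderOf_dvd_of_pow_eq_one hξn
  set ω : (ZMod ℓ)ˣ →* ℂˣ := monoidHomOfForallMemZpowers hu₀ hξord with hω
  have hωu₀ : ω u₀ = ξ := monoidHomOfForallMemZpowers_apply_gen hu₀ hξord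
  -- values in `ℤ̄`
  have hval : ∀ u : (ZMod ℓ)ˣ, ∃ z : Zbar, (z : ℂ) = ((ω u : ℂˣ) : ℂ) ∧ φ z = c (u : ZMod ℓ) := by
    intro u
    have hfin : IsOfFinOrder u₀ := isOfFinOrder_of_finite u₀
    have hmem : u ∈ Submonoid.powers u₀ := by
      rw [hfin.mem_powers_iff_mem_zpowers]
      exact hu₀ u
    obtain ⟨m', hm'⟩ := hmem
    refine ⟨z₁ ^ m', ?_, ?_⟩
    · rw [← hm', map_pow, hωu₀]
      push_cast
      rw [hξval]
    · rw [map_pow, hφz₁, ← hm', ← map_pow]
      simp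
  choose zOf hzOf1 hzOf2 using hval
  set ψZ : ZMod ℓ → Zbar := fun x => if h : IsUnit x then zOf (h.unit⁻¹) else 0 with hψZ
  have hψZpos : ∀ (x : ZMod ℓ) (h : IsUnit x), ψZ x = zOf (h.unit⁻¹) := fun x h => dif_pos h
  have hψZneg : ∀ (x : ZMod ℓ), ¬ IsUnit x → ψZ x = 0 := fun x h => dif_neg h
  refine ⟨MulChar.ofUnitHom ω⁻¹, ψZ, ?_, ?_, ?_⟩
  · intro x
    by_cases h : IsUnit x
    · rw [hψZpos x h]
      have hx : x = ((h.unit : (ZMod ℓ)ˣ) : ZMod ℓ) := h.unit_spec.symm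
      conv_lhs => rw [hx]
      rw [MulChar.ofUnitHom_coe, hzOf1, MonoidHom.inv_apply, map_inv]
    · rw [hψZneg x h, MulChar.map_nonunit _ h]
      rfl
  · intro m hm
    have hunit : IsUnit ((m : ℕ) : ZMod ℓ) := by
      rw [isUnit_iff_ne_zero, Ne, ZMod.natCast_eq_zero_iff]
      exact hm
    rw [hψZpos _ hunit, hzOf2]
    have h1 : ((m : ℕ) : k) = c ((hunit.unit : (ZMod ℓ)ˣ) : ZMod ℓ) := by
      rw [hunit.unit_spec, map_natCast]
    rw [h1, ← map_mul, ← Units.val_mul, inv_mul_cancel]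
    simp
  · -- parity
    set ψ : DirichletCharacter ℂ ℓ := MulChar.ofUnitHom ω⁻¹ with hψ
    have hsq : ψ (-1) * ψ (-1) = 1 := by
      rw [← map_mul, neg_mul_neg, one_mul, map_one]
    rcases mul_self_eq_one_iff.mp hsq with h | h
    · exfalso
      -- then `ω (-1) = 1`, so `c (-1) = 1`
      have h1 : ψ (-1) = ψ (((-1 : (ZMod ℓ)ˣ) : (ZMod ℓ)ˣ) : ZMod ℓ) := by simp
      rw [h1, hψ, MulChar.ofUnitHom_coe, MonoidHom.inv_apply, ← map_inv, inv_neg, inv_one] at h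
      have h2 : (zOf (-1) : Zbar) = 1 := by
        apply Subtype.ext
        rw [hzOf1, h]
        rfl
      have h3' := hzOf2 (-1)
      rw [h2, map_one] at h3'
      have h4 : (1 : k) = -1 := by
        have hc1 : c (((-1 : (ZMod ℓ)ˣ) : (ZMod ℓ)ˣ) : ZMod ℓ) = -1 := by simp
        rw [← hc1]
        exact h3'
      have h5 : ((2 : ℕ) : k) = 0 := by
        have : (1 : k) + 1 = 0 := by
          nth_rw 1 [h4]
          ring
        push_cast
        rw [← this]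
        ring
      rw [CharP.cast_eq_zero_iff k ℓ] at h5
      have := Nat.le_of_dvd (by norm_num) h5
      omega
    · exact h

end Fermat.Agent.S48lib.DS
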