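/-
S48 (Deligne–Serre), block DS, file EisWrap: `Eis1Stmt` from the ANALYTIC statement `EisQStmt`
(a weight one Eisenstein series `E_χ` on `Γ₁(ℓ)` for every odd character `χ` modulo a prime `ℓ`,
with nebentypus `χ` and `q`-expansion `∑_j χ(j) j - 2ℓ ∑_{n ≥ 1} (∑_{d ∣ n} χ(d)) qⁿ`), applied to
the inverse Teichmüller character of the place (`DS/Teich.lean`).
-/
import Mathlib
import Fermat.Agent.S48lib.DS.ModLInputs
import Fermat.Agent.S48lib.DS.Teich

set_option autoImplicit false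
set_option linter.style.haveILetI false
set_option linter.unusedSectionVars false
set_option linter.deprecated false

open CongruenceSubgroup UpperHalfPlane
open scoped MatrixGroups ModularForm

namespace Fermat.Agent.S48lib.DS

/-- **the analytic Eisenstein input** — target of block `S48lib/Eis1` (`eis1 χ hodd` at prime
level): nebentypus and `q`-expansion of the unnormalised weight one Eisenstein series. -/
def EisQStmt : Prop :=
  ∀ (ℓ : ℕ) [Fact ℓ.Prime] (χ : DirichletCharacter ℂ ℓ), χ (-1) = -1 →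
    ∃ E : ModularForm (Gamma1 ℓ) 1,
      (∀ γ : SL(2, ℤ), γ ∈ Gamma0 ℓ →
        (⇑E : ℍ → ℂ) ∣[(1 : ℤ)] γ = χ (((γ 1 1 : ℤ)) : ZMod ℓ) • (⇑E : ℍ → ℂ)) ∧
      (ModularFormClass.qCoeff E 0 = ∑ j : ZMod ℓ, χ j * ((j.val : ℕ) : ℂ)) ∧
      ∀ n : ℕ, 1 ≤ n → ModularFormClass.qCoeff E n =
        -(2 * (ℓ : ℂ)) * ∑ d ∈ n.divisors, χ ((d : ℕ) : ZMod ℓ)

theorem eis1Stmt_of_eisQ (h : EisQStmt) : Eis1Stmt := by
  intro ℓ hℓ h5 k _ _ _ φ
  classical
  haveI : NeZero ℓ := ⟨hℓ.out.ne_zero⟩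
  obtain ⟨ψ, ψZ, hψZ, hteich, hodd⟩ := exists_teichmuller_inv ℓ (by omega) k φ
  obtain ⟨E, hEneb, hE0, hEn⟩ := h ℓ ψ hodd
  set e : ℕ → Zbar := fun n =>
    if n = 0 then ∑ j : ZMod ℓ, ψZ j * ((j.val : ℕ) : Zbar)
    else -(2 * (ℓ : Zbar)) * ∑ d ∈ n.divisors, ψZ ((d : ℕ) : ZMod ℓ) with he
  have he0 : e 0 = ∑ j : ZMod ℓ, ψZ j * ((j.val : ℕ) : Zbar) := if_pos rfl
  have hen : ∀ n : ℕ, 1 ≤ n → e n = -(2 * (ℓ : Zbar)) * ∑ d ∈ n.divisors, ψZ ((d : ℕ) : ZMod ℓ) :=
    fun n hn => if_neg (by omega)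
  have hℓk : ((ℓ : ℕ) : k) = 0 := CharP.cast_eq_zero k ℓ
  refine ⟨ψ, ψZ, E, e, hψZ, hteich, hEneb, ?_, ?_, ?_, ?_⟩
  · intro n
    rcases Nat.eq_zero_or_pos n with rfl | hn
    · rw [hE0, he0]
      push_cast
      exact Finset.sum_congr rfl fun j _ => by rw [hψZ]
    · rw [hEn n hn, hen n hn]
      push_cast
      congr 1
      exact Finset.sum_congr rfl fun d _ => by rw [hψZ]
  · intro n
    set S : Subring ℂ := Subring.closure (Set.range (⇑ψ : ZMod ℓ → ℂ)) with hS
    have hψS : ∀ x : ZMod ℓ, ((ψZ x : Zbar) : ℂ) ∈ S := fun x => by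
      rw [← hψZ]
      exact Subring.subset_closure ⟨x, rfl⟩
    rcases Nat.eq_zero_or_pos n with rfl | hn
    · rw [he0]
      push_cast
      exact S.sum_mem fun j _ => S.mul_mem (hψS j) (natCast_mem S _)
    · rw [hen n hn]
      push_cast
      refine S.mul_mem (S.neg_mem (S.mul_mem ?_ (natCast_mem S _))) (S.sum_mem fun d _ => hψS _)
      have h2 : (((2 : Zbar) : Zbar) : ℂ) = ((2 : ℕ) : ℂ) := by
        norm_num
        rfl
      rw [h2]
      exact natCast_mem S 2
  · -- the constant term reduces to `-1`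
    rw [he0, map_sum]
    have hterm : ∀ j : ZMod ℓ, φ (ψZ j * ((j.val : ℕ) : Zbar)) = if j = 0 then 0 else 1 := by
      intro j
      rw [map_mul, map_natCast]
      by_cases hj : j = 0
      · rw [if_pos hj, hj, ZMod.val_zero, Nat.cast_zero, mul_zero]
      · rw [if_neg hj]
        have hnd : ¬ ℓ ∣ j.val := by
          intro hd
          apply hj
          have := (ZMod.natCast_eq_zero_iff j.val ℓ).mpr hd
          rwa [ZMod.natCast_zmod_val] at this
        have := hteich j.val hnd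
        rwa [ZMod.natCast_zmod_val] at this
    rw [Finset.sum_congr rfl fun j _ => hterm j, Finset.sum_ite, Finset.sum_const_zero, zero_add,
      Finset.sum_const, nsmul_eq_mul, mul_one]
    have hcard : (Finset.filter (fun j : ZMod ℓ => ¬ j = 0) Finset.univ).card = ℓ - 1 := by
      rw [Finset.filter_not, Finset.card_sdiff_of_subset (Finset.filter_subset _ _)]
      have h1 : (Finset.filter (fun j : ZMod ℓ => j = 0) Finset.univ) = {0} := by
        ext j
        simp
      rw [h1, Finset.card_univ, ZMod.card, Finset.card_singleton]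
    rw [hcard, Nat.cast_sub (by omega), hℓk]
    simp
  · intro n hn
    rw [hen n hn, map_mul, map_neg, map_mul, map_natCast, hℓk, mul_zero, neg_zero, zero_mul]

end Fermat.Agent.S48lib.DS
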