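/-
S48 (Deligne–Serre), block DS, file Alg: algebraic integers `ℤ̄ ⊂ ℂ` and reduction maps.
A non-zero algebraic integer is non-zero modulo every place of large residue characteristic;
a ring homomorphism `ℤ̄ → k`, `char k = ℓ` large, is injective on a given finite set.
-/
import Mathlib
import Fermat.Agent.S48lib.DS.Inputs

set_option autoImplicit false

namespace Fermat.Agent.S48lib.DS

open Polynomial

/-- a non-zero algebraic integer divides a non-zero rational integer in `ℤ̄`. -/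
theorem exists_mul_eq_intCast (z : Zbar) (hz : z ≠ 0) :
    ∃ (w : Zbar) (c : ℤ), c ≠ 0 ∧ z * w = (c : Zbar) := by
  have hint : IsIntegral ℤ (z : ℂ) := z.2
  have hz' : (z : ℂ) ≠ 0 := fun h => hz (Subtype.ext h)
  set P := minpoly ℤ (z : ℂ) with hP
  have hPQ : minpoly ℚ (z : ℂ) = P.map (algebraMap ℤ ℚ) :=
    minpoly.isIntegrallyClosed_eq_field_fractions' ℚ hint
  have h0 : (minpoly ℚ (z : ℂ)).coeff 0 ≠ 0 :=
    minpoly.coeff_zero_ne_zero hint.tower_top hz'
  have hc : P.coeff 0 ≠ 0 := by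
    intro h
    apply h0
    rw [hPQ, coeff_map, h, map_zero]
  have hsplit := divX_mul_X_add P
  have hroot : aeval (z : ℂ) P = 0 := minpoly.aeval ℤ (z : ℂ)
  refine ⟨-(aeval z P.divX), P.coeff 0, hc, ?_⟩
  apply Subtype.ext
  have h1 : ((aeval z P.divX : Zbar) : ℂ) = aeval (z : ℂ) P.divX :=
    (Subalgebra.aeval_coe _ _ _).symm
  rw [← hsplit, map_add, map_mul, aeval_X, aeval_C] at hroot
  have h2 : (algebraMap ℤ ℂ) (P.coeff 0) = ((P.coeff 0 : ℤ) : ℂ) := rfl
  rw [h2] at hroot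
  have h3 : ((z * -(aeval z P.divX) : Zbar) : ℂ) = (z : ℂ) * -(aeval (z : ℂ) P.divX) := by
    rw [← h1]; rfl
  have h4 : (((P.coeff 0 : ℤ) : Zbar) : ℂ) = ((P.coeff 0 : ℤ) : ℂ) := rfl
  rw [h3, h4]
  linear_combination -hroot

/-- **reduction of a non-zero algebraic integer**: non-zero in large residue characteristic. -/
theorem exists_bound_red_ne_zero (z : Zbar) (hz : z ≠ 0) :
    ∃ B : ℕ, ∀ ℓ : ℕ, B < ℓ → ∀ (k : Type) [Field k] [CharP k ℓ] (red : Zbar →+* k),
      red z ≠ 0 := by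
  obtain ⟨w, c, hc, hzw⟩ := exists_mul_eq_intCast z hz
  refine ⟨c.natAbs, ?_⟩
  intro ℓ hℓ k _ _ red hred
  have h1 : red (z * w) = (c : k) := by rw [hzw, map_intCast]
  rw [map_mul, hred, zero_mul] at h1
  have h2 : (ℓ : ℤ) ∣ c := (CharP.intCast_eq_zero_iff k ℓ c).mp h1.symm
  have h3 : ℓ ∣ c.natAbs := Int.natCast_dvd.mp h2
  have h4 : 0 < c.natAbs := Int.natAbs_pos.mpr hc
  have := Nat.le_of_dvd h4 h3
  omega

/-- **injectivity on a finite set** in large residue characteristic. -/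
theorem exists_bound_injOn (T : Finset Zbar) :
    ∃ B : ℕ, ∀ ℓ : ℕ, B < ℓ → ∀ (k : Type) [Field k] [CharP k ℓ] (red : Zbar →+* k),
      ∀ x ∈ T, ∀ y ∈ T, red x = red y → x = y := by
  classical
  have hex : ∀ xy : Zbar × Zbar, ∃ B : ℕ, xy.1 ≠ xy.2 → ∀ ℓ : ℕ, B < ℓ →
      ∀ (k : Type) [Field k] [CharP k ℓ] (red : Zbar →+* k), red xy.1 ≠ red xy.2 := by
    intro xy
    by_cases h : xy.1 = xy.2
    · exact ⟨0, fun h' => absurd h h'⟩
    · obtain ⟨B, hB⟩ := exists_bound_red_ne_zero (xy.1 - xy.2) (sub_ne_zero.mpr h)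
      refine ⟨B, fun _ ℓ hℓ k _ _ red heq => ?_⟩
      exact hB ℓ hℓ k red (by rw [map_sub, heq, sub_self])
  choose Bf hBf using hex
  refine ⟨(T ×ˢ T).sup Bf, ?_⟩
  intro ℓ hℓ k _ _ red x hx y hy hxy
  by_contra hne
  have hle : Bf (x, y) ≤ (T ×ˢ T).sup Bf :=
    Finset.le_sup (f := Bf) (Finset.mem_product.mpr ⟨hx, hy⟩)
  exact hBf (x, y) hne ℓ (lt_of_le_of_lt hle hℓ) k red hxy

/-- the image of an algebraic integer of a number field under an embedding, in `ℤ̄`. -/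
noncomputable def toZbar {K : Type} [Field K] [NumberField K] (ι : K →+* ℂ)
    (x : NumberField.RingOfIntegers K) : Zbar :=
  ⟨ι (x : K), map_isIntegral_int ι (NumberField.RingOfIntegers.isIntegral_coe x)⟩

@[simp]
theorem coe_toZbar {K : Type} [Field K] [NumberField K] (ι : K →+* ℂ)
    (x : NumberField.RingOfIntegers K) : ((toZbar ι x : Zbar) : ℂ) = ι (x : K) := rfl

end Fermat.Agent.S48lib.DS
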