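/-
S48 (Deligne–Serre), block DS, file DensityGlue: elementary facts on the one-sided Dirichlet
densities of `Iface/Density.lean` needed by the assembly.
-/
import Mathlib
import Fermat.Agent.S48lib.Iface.Density

set_option autoImplicit false

namespace Fermat.Agent.S48lib.DS

open Fermat.Agent.S48lib

theorem log_inv_sub_pos {s : ℝ} (h1 : 1 < s) (h2 : s < 2) : 0 < Real.log (1 / (s - 1)) := by
  apply Real.log_pos
  rw [lt_div_iff₀ (sub_pos.mpr h1)]
  linarith

theorem summable_primes_rpow {s : ℝ} (h1 : 1 < s) :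
    Summable (fun p : Nat.Primes => ((p : ℕ) : ℝ) ^ (-s)) :=
  Nat.Primes.summable_rpow.mpr (by linarith)

theorem indicator_rpow_nonneg (B : Set ℕ) (s : ℝ) (n : ℕ) :
    0 ≤ Set.indicator B (fun n : ℕ => (n : ℝ) ^ (-s)) n :=
  Set.indicator_nonneg (fun n _ => Real.rpow_nonneg (Nat.cast_nonneg n) _) n

theorem indicator_rpow_le (B : Set ℕ) (s : ℝ) (n : ℕ) :
    Set.indicator B (fun n : ℕ => (n : ℝ) ^ (-s)) n ≤ (n : ℝ) ^ (-s) := by
  by_cases h : n ∈ B
  · rw [Set.indicator_of_mem h]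
  · rw [Set.indicator_of_notMem h]
    exact Real.rpow_nonneg (Nat.cast_nonneg n) _

theorem summable_indicator (B : Set ℕ) {s : ℝ} (h1 : 1 < s) :
    Summable (fun p : Nat.Primes => Set.indicator B (fun n : ℕ => (n : ℝ) ^ (-s)) (p : ℕ)) :=
  Summable.of_nonneg_of_le (fun p => indicator_rpow_nonneg B s p)
    (fun p => indicator_rpow_le B s p) (summable_primes_rpow h1)

theorem primeSum_nonneg (B : Set ℕ) (s : ℝ) : 0 ≤ primeSum B s :=
  tsum_nonneg fun p => indicator_rpow_nonneg B s p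

theorem primeSum_mono {B B' : Set ℕ} (h : B ⊆ B') {s : ℝ} (h1 : 1 < s) :
    primeSum B s ≤ primeSum B' s := by
  refine Summable.tsum_le_tsum (fun p => ?_) (summable_indicator B h1) (summable_indicator B' h1)
  exact Set.indicator_le_indicator_of_subset h
    (fun n => Real.rpow_nonneg (Nat.cast_nonneg n) _) _

theorem primeSum_empty (s : ℝ) : primeSum ∅ s = 0 := by
  simp [primeSum]

/-- **density glue**: a set of lower density `≥ c` inside a set of upper density `≤ η`. -/
theorem density_le {B B' : Set ℕ} {c η : ℝ} (hB : LowerDensityGE B c) (hB' : UpperDensityLE B' η)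
    (h : B ⊆ B') : c ≤ η := by
  by_contra hcon
  push Not at hcon
  obtain ⟨δ₁, hδ₁, h₁⟩ := hB' ((2 * η + c) / 3) (by linarith)
  obtain ⟨δ₂, hδ₂, h₂⟩ := hB ((η + 2 * c) / 3) (by linarith)
  set δ := min (min δ₁ δ₂) 1 with hδ
  have hδpos : 0 < δ := lt_min (lt_min hδ₁ hδ₂) one_pos
  have hδ1 : δ ≤ δ₁ := le_trans (min_le_left _ _) (min_le_left _ _)
  have hδ2 : δ ≤ δ₂ := le_trans (min_le_left _ _) (min_le_right _ _)
  have hδ3 : δ ≤ 1 := min_le_right _ _
  set s := 1 + δ / 2 with hs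
  have hs1 : 1 < s := by rw [hs]; linarith
  have hs2 : s < 2 := by rw [hs]; linarith
  have hL := log_inv_sub_pos hs1 hs2
  have e₁ := h₁ s hs1 (by rw [hs]; linarith)
  have e₂ := h₂ s hs1 (by rw [hs]; linarith)
  have e₃ := primeSum_mono h hs1
  have : (η + 2 * c) / 3 * Real.log (1 / (s - 1)) ≤ (2 * η + c) / 3 * Real.log (1 / (s - 1)) :=
    le_trans e₂ (le_trans e₃ e₁)
  have := le_of_mul_le_mul_right this hL
  linarith

theorem upperDensity_empty : UpperDensityLE ∅ 0 := by
  intro η' hη'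
  refine ⟨1, one_pos, fun s hs1 hs2 => ?_⟩
  rw [primeSum_empty]
  exact mul_nonneg hη'.le (log_inv_sub_pos hs1 (by linarith)).le

theorem lowerDensity_empty_le {c : ℝ} (h : LowerDensityGE ∅ c) : c ≤ 0 :=
  density_le h upperDensity_empty (le_refl _)

end Fermat.Agent.S48lib.DS
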