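/-
S48 (Deligne–Serre), block DS, file Gal: generalities on homomorphisms `G_ℚ → M` of finite level:
finite image, composition, products, restriction to the range.
-/
import Mathlib
import Fermat.Agent.S48lib.DS.Inputs
import Fermat.Agent.Helper5.FrobExists

set_option autoImplicit false
set_option linter.style.haveILetI false

namespace Fermat.Agent.S48lib.DS

/-- finite level implies finite image. -/
theorem finite_range_of_finiteLevel {M : Type} [Group M] (ρ : GQ →* M)
    (h : GaloisFactorsThroughFiniteLevel ρ) : Finite ρ.range := by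
  obtain ⟨L, hL, hρ⟩ := h
  haveI := hL
  let f : GQ → (L →ₐ[ℚ] AlgebraicClosure ℚ) := fun σ => (σ : AlgebraicClosure ℚ →ₐ[ℚ] _).comp L.val
  have hf : ∀ σ τ : GQ, f σ = f τ → ρ σ = ρ τ := by
    intro σ τ hστ
    have h1 : ρ (σ⁻¹ * τ) = 1 := by
      apply hρ
      intro x hx
      have h2 := DFunLike.congr_fun hστ ⟨x, hx⟩
      have h3 : σ x = τ x := h2
      show σ⁻¹ (τ x) = x
      rw [← h3]
      exact σ.symm_apply_apply x
    rw [map_mul, map_inv, inv_mul_eq_one] at h1
    exact h1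
  have hchoose : ∀ y : ρ.range, ∃ σ : GQ, ρ σ = y.1 := fun y => y.2
  choose s hs using hchoose
  refine Finite.of_injective (fun y : ρ.range => f (s y)) ?_
  intro y y' hyy'
  apply Subtype.ext
  rw [← hs y, ← hs y']
  exact hf _ _ hyy'

/-- composition with a homomorphism preserves finite level. -/
theorem finiteLevel_comp {M M' : Type} [MulOneClass M] [MulOneClass M'] (ρ : GQ →* M)
    (f : M →* M') (h : GaloisFactorsThroughFiniteLevel ρ) :
    GaloisFactorsThroughFiniteLevel (f.comp ρ) := by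
  obtain ⟨L, hL, hρ⟩ := h
  exact ⟨L, hL, fun σ hσ => by rw [MonoidHom.comp_apply, hρ σ hσ, map_one]⟩

/-- restriction to the range preserves finite level. -/
theorem finiteLevel_rangeRestrict {M : Type} [Group M] (ρ : GQ →* M)
    (h : GaloisFactorsThroughFiniteLevel ρ) : GaloisFactorsThroughFiniteLevel ρ.rangeRestrict := by
  obtain ⟨L, hL, hρ⟩ := h
  exact ⟨L, hL, fun σ hσ => Subtype.ext (hρ σ hσ)⟩

/-- products preserve finite level. -/
theorem finiteLevel_prod {M M' : Type} [MulOneClass M] [MulOneClass M'] (ρ : GQ →* M)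
    (ρ' : GQ →* M') (h : GaloisFactorsThroughFiniteLevel ρ)
    (h' : GaloisFactorsThroughFiniteLevel ρ') : GaloisFactorsThroughFiniteLevel (ρ.prod ρ') := by
  obtain ⟨L, hL, hρ⟩ := h
  obtain ⟨L', hL', hρ'⟩ := h'
  haveI := hL
  haveI := hL'
  refine ⟨L ⊔ L', inferInstance, fun σ hσ => ?_⟩
  rw [MonoidHom.prod_apply]
  exact Prod.ext (hρ σ fun x hx => hσ x ((le_sup_left : L ≤ L ⊔ L') hx))
    (hρ' σ fun x hx => hσ x ((le_sup_right : L' ≤ L ⊔ L') hx))

theorem unramAt_comp {M M' : Type} [MulOneClass M] [MulOneClass M'] (ρ : GQ →* M)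
    (f : M →* M') (p : ℕ) (h : UnramAt ρ p) : UnramAt (f.comp ρ) p :=
  fun A hA σ hσ => by rw [MonoidHom.comp_apply, h A hA σ hσ, map_one]

theorem unramAt_rangeRestrict {M : Type} [Group M] (ρ : GQ →* M) (p : ℕ) (h : UnramAt ρ p) :
    UnramAt ρ.rangeRestrict p :=
  fun A hA σ hσ => Subtype.ext (h A hA σ hσ)

theorem unramAt_prod {M M' : Type} [MulOneClass M] [MulOneClass M'] (ρ : GQ →* M)
    (ρ' : GQ →* M') (p : ℕ) (h : UnramAt ρ p) (h' : UnramAt ρ' p) : UnramAt (ρ.prod ρ') p :=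
  fun A hA σ hσ => Prod.ext (h A hA σ hσ) (h' A hA σ hσ)

/-- Frobenius elements exist. -/
theorem exists_frobenius (p : ℕ) (hp : p.Prime) :
    ∃ (A : ValuationSubring (AlgebraicClosure ℚ)) (σ : GQ),
      A.LiesOverPrime p ∧ A.IsFrobeniusAt σ p :=
  Fermat.Agent.Helper5.exists_isFrobeniusAt p hp

/-- a prime in a Frobenius set has a Frobenius element sent into the target set. -/
theorem exists_of_mem_frobSet {M : Type} [MulOneClass M] (φ : GQ →* M) (S : Finset ℕ)
    (C : Set M) (p : ℕ) (hp : p ∈ frobSet φ S C) :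
    p.Prime ∧ p ∉ S ∧ ∃ (A : ValuationSubring (AlgebraicClosure ℚ)) (σ : GQ),
      A.LiesOverPrime p ∧ A.IsFrobeniusAt σ p ∧ φ σ ∈ C := by
  obtain ⟨hpp, hpS, hall⟩ := hp
  obtain ⟨A, σ, hA, hσ⟩ := exists_frobenius p hpp
  exact ⟨hpp, hpS, A, σ, hA, hσ, hall A hA σ hσ⟩

end Fermat.Agent.S48lib.DS
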