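/-
S48 (Deligne–Serre), block DS, file Family: **the complex lifts of the mod-`ℓ` representations**.
From Chebotarev, the bounded image statement, the reduction data and the mod-`ℓ` representations:
there are `A₀` and `n₀ > 0` such that for every prime `ℓ > A₀` there is `ρ_ℓ : G_ℚ → GL₂(ℂ)` of
finite level, with `ρ_ℓ(σ)^{n₀} = 1` for all `σ`, unramified outside `Nℓ`, whose Frobenius traces and
determinants at `p ∤ Nℓ` are algebraic integers congruent to `a_p`, `ε(p)` modulo the place of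
the reduction datum.
-/
import Mathlib
import Fermat.Agent.S48lib.DS.Alg
import Fermat.Agent.S48lib.DS.Gal
import Fermat.Agent.S48lib.DS.DensityGlue

set_option autoImplicit false
set_option linter.style.haveILetI false
set_option linter.unusedSectionVars false

namespace Fermat.Agent.S48lib.DS

open Fermat.Agent.S48lib
open scoped Matrix

theorem trace_conj {k : Type*} [Field k] (g h : GL (Fin 2) k) :
    (g * h * g⁻¹).1.trace = h.1.trace := by
  rw [Units.val_mul, Units.val_mul, Matrix.trace_mul_comm, ← Matrix.mul_assoc, ← Units.val_mul,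
    inv_mul_cancel, Units.val_one, Matrix.one_mul]

theorem det_conj {k : Type*} [Field k] (g h : GL (Fin 2) k) :
    (g * h * g⁻¹).1.det = h.1.det := by
  rw [Units.val_mul, Units.val_mul, Matrix.det_mul, Matrix.det_mul, mul_right_comm,
    ← Matrix.det_mul, ← Units.val_mul, mul_inv_cancel, Units.val_one, Matrix.det_one, one_mul]

theorem exists_family (hCheb : ChebotarevStmt) (hGrp : BoundedImageStmt) (hLift : LiftStmt)
    (N : ℕ) [NeZero N] (ε : DirichletCharacter ℂ N) (a : ℕ → ℂ)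
    (za : ℕ → Zbar) (hza : ∀ p : ℕ, p.Prime → ¬ p ∣ N → (za p : ℂ) = a p)
    (ze : ZMod N → Zbar) (hze : ∀ x : ZMod N, (ze x : ℂ) = ε x)
    (T : Finset Zbar) (B' : Set ℕ) (hB' : UpperDensityLE B' (1 / 4))
    (hT : ∀ p : ℕ, p.Prime → ¬ p ∣ N → p ∉ B' → za p ∈ T)
    (hModL : ModLStmt N ε a) :
    ∃ A₀ n₀ : ℕ, 0 < n₀ ∧ ∀ (ℓ : ℕ) [Fact ℓ.Prime], A₀ < ℓ →
      ∃ (D : RedData ℓ) (ρ : GQ →* GL (Fin 2) ℂ), GaloisFactorsThroughFiniteLevel ρ ∧
        (∀ σ : GQ, (ρ σ) ^ n₀ = 1) ∧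
        ∀ p : ℕ, p.Prime → ¬ p ∣ N * ℓ → UnramAt ρ p ∧
          ∀ A : ValuationSubring (AlgebraicClosure ℚ), A.LiesOverPrime p →
            ∀ σ : GQ, A.IsFrobeniusAt σ p → ∃ t d : Zbar,
              ((ρ σ : GL (Fin 2) ℂ) : Matrix (Fin 2) (Fin 2) ℂ).trace = (t : ℂ) ∧
              ((ρ σ : GL (Fin 2) ℂ) : Matrix (Fin 2) (Fin 2) ℂ).det = (d : ℂ) ∧
              D.red t = D.red (za p) ∧ D.red d = D.red (ze (p : ZMod N)) := by
  classical
  haveI : Fintype (ZMod N) := ZMod.fintype N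
  set E : Finset Zbar := Finset.univ.image ze with hE
  set m : ℕ := (T ×ˢ E).card with hm
  obtain ⟨Abd, hAbd⟩ := hGrp m
  refine ⟨max Abd (max N 5), Abd.factorial, Nat.factorial_pos _, ?_⟩
  intro ℓ hℓp hℓ
  have hℓAbd : Abd < ℓ := lt_of_le_of_lt (le_max_left _ _) hℓ
  have hℓN : N < ℓ := lt_of_le_of_lt (le_trans (le_max_left _ _) (le_max_right _ _)) hℓ
  have hℓ5 : 5 ≤ ℓ := le_of_lt (lt_of_le_of_lt (le_trans (le_max_right _ _) (le_max_right _ _)) hℓ)
  have hNpos : 0 < N := Nat.pos_of_ne_zero (NeZero.ne N)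
  have hℓndvd : ¬ ℓ ∣ N := fun h => by
    have := Nat.le_of_dvd hNpos h
    omega
  obtain ⟨D⟩ := hLift ℓ
  obtain ⟨r, hfl, hss, hr⟩ := hModL ℓ hℓndvd hℓ5 D.k D.red
  set G : Subgroup (GL (Fin 2) D.k) := r.range with hG
  haveI : Finite G := finite_range_of_finiteLevel r hfl
  set r' : GQ →* G := r.rangeRestrict with hr'
  have hr'surj : Function.Surjective r' := r.rangeRestrict_surjective
  have hr'val : ∀ σ : GQ, (r' σ : GL (Fin 2) D.k) = r σ := fun σ => rfl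
  set S : Finset ℕ := (N * ℓ).primeFactors with hS
  have hNℓ0 : N * ℓ ≠ 0 := Nat.mul_ne_zero (NeZero.ne N) hℓp.out.ne_zero
  have hS' : ∀ p : ℕ, p.Prime → p ∉ S → ¬ p ∣ N * ℓ := by
    intro p hp hpS hdvd
    exact hpS (Nat.mem_primeFactors.mpr ⟨hp, hdvd, hNℓ0⟩)
  -- the good elements
  set Hset : Set (GL (Fin 2) D.k) := {g | g ∈ G ∧ ∃ t ∈ T, ∃ e ∈ E,
    g.1.trace = D.red t ∧ g.1.det = D.red e} with hHset
  set HG : Set G := {g | g.1 ∈ Hset} with hHG
  set C : Set G := HGᶜ with hC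
  have hCinv : ∀ g h : G, h ∈ C → g * h * g⁻¹ ∈ C := by
    intro g h hh hmem
    apply hh
    obtain ⟨-, t, ht, e, he, htr, hdet⟩ := hmem
    refine ⟨h.2, t, ht, e, he, ?_, ?_⟩
    · rw [← htr]
      exact (trace_conj g.1 h.1).symm
    · rw [← hdet]
      exact (det_conj g.1 h.1).symm
  have hunr : ∀ p : ℕ, p.Prime → p ∉ S → UnramAt r' p := fun p hp hpS =>
    unramAt_rangeRestrict r p (hr p hp (hS' p hp hpS)).1
  have hdens := hCheb G r' (finiteLevel_rangeRestrict r hfl) hr'surj S hunr C hCinv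
  have hsub : frobSet r' S C ⊆ B' := by
    intro p hp
    obtain ⟨hpp, hpS, A, σ, hA, hσ, hσC⟩ := exists_of_mem_frobSet r' S C p hp
    have hpNℓ := hS' p hpp hpS
    have hpN : ¬ p ∣ N := fun h => hpNℓ (Dvd.dvd.mul_right h ℓ)
    by_contra hpB
    apply hσC
    obtain ⟨htr, hdet⟩ := (hr p hpp hpNℓ).2 A hA σ hσ (za p) (ze (p : ZMod N)) (hza p hpp hpN)
      (hze _)
    exact ⟨(r' σ).2, za p, hT p hpp hpN hpB, ze (p : ZMod N),
      Finset.mem_image.mpr ⟨_, Finset.mem_univ _, rfl⟩, htr, hdet⟩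
  have hquarter := density_le hdens hB' hsub
  -- three quarters
  have hHval : Hset = Subtype.val '' HG := by
    ext g
    constructor
    · intro hg
      exact ⟨⟨g, hg.1⟩, hg, rfl⟩
    · rintro ⟨g', hg', rfl⟩
      exact hg'
  have hHcard : Hset.ncard = HG.ncard := by
    rw [hHval, Set.ncard_image_of_injective _ Subtype.val_injective]
  have hGpos : 0 < Nat.card G := Nat.card_pos
  have h34 : 3 * Nat.card G ≤ 4 * Hset.ncard := by
    have h1 : HG.ncard + C.ncard = Nat.card G := Set.ncard_add_ncard_compl HG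
    have h2 : (Nat.card C : ℝ) / (Nat.card G : ℝ) ≤ 1 / 4 := hquarter
    have h3 : (0 : ℝ) < (Nat.card G : ℝ) := by exact_mod_cast hGpos
    rw [div_le_iff₀ h3] at h2
    have h4 : (4 * Nat.card C : ℝ) ≤ (Nat.card G : ℝ) := by linarith
    have h5 : 4 * Nat.card C ≤ Nat.card G := by exact_mod_cast h4
    have h6 : Nat.card C = C.ncard := Nat.card_coe_set_eq C
    rw [hHcard]
    omega
  have hτ : ((fun g : GL (Fin 2) D.k =>
      ((g : Matrix (Fin 2) (Fin 2) D.k).trace, (g : Matrix (Fin 2) (Fin 2) D.k).det)) ''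
      Hset).ncard ≤ m := by
    have hsub' : ((fun g : GL (Fin 2) D.k =>
        ((g : Matrix (Fin 2) (Fin 2) D.k).trace, (g : Matrix (Fin 2) (Fin 2) D.k).det)) '' Hset) ⊆
        ((fun te : Zbar × Zbar => (D.red te.1, D.red te.2)) '' ((T ×ˢ E : Finset _) : Set _)) := by
      rintro _ ⟨g, ⟨-, t, ht, e, he, htr, hdet⟩, rfl⟩
      refine ⟨(t, e), ?_, ?_⟩
      · exact Finset.mem_coe.mpr (Finset.mem_product.mpr ⟨ht, he⟩)
      · simp only [htr, hdet]
    have hfin : ((fun te : Zbar × Zbar => (D.red te.1, D.red te.2)) ''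
        ((T ×ˢ E : Finset _) : Set _)).Finite := (Finset.finite_toSet _).image _
    calc _ ≤ ((fun te : Zbar × Zbar => (D.red te.1, D.red te.2)) ''
          ((T ×ˢ E : Finset _) : Set _)).ncard := Set.ncard_le_ncard hsub' hfin
      _ ≤ ((T ×ˢ E : Finset _) : Set (Zbar × Zbar)).ncard := Set.ncard_image_le (Finset.finite_toSet _)
      _ = m := by rw [Set.ncard_coe_finset]
  have hssG : Semisimple2 G.subtype := by
    intro v hv hstab
    obtain ⟨w, hw, hind⟩ := hss v hv (fun σ => hstab (r' σ))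
    refine ⟨w, ?_, hind⟩
    rintro ⟨g, σ, rfl⟩
    exact hw σ
  have hcardG : Nat.card G ≤ Abd :=
    hAbd ℓ hℓAbd D.k G hssG Hset (fun g hg => hg.1) h34 hτ
  have hnd : ¬ ℓ ∣ Nat.card G := fun h => by
    have := Nat.le_of_dvd hGpos h
    omega
  obtain ⟨ρ₀, hρ₀⟩ := D.lift G hnd G.subtype
  refine ⟨D, ρ₀.comp r', finiteLevel_comp r' ρ₀ (finiteLevel_rangeRestrict r hfl), ?_, ?_⟩
  · intro σ
    have h1 : (r' σ) ^ Nat.card G = 1 := pow_card_eq_one'
    obtain ⟨q, hq⟩ := Nat.dvd_factorial hGpos hcardG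
    rw [MonoidHom.comp_apply, ← map_pow, hq, pow_mul, h1, one_pow, map_one]
  · intro p hp hpNℓ
    refine ⟨unramAt_comp r' ρ₀ p (unramAt_rangeRestrict r p (hr p hp hpNℓ).1), ?_⟩
    intro A hA σ hσ
    have hpN : ¬ p ∣ N := fun h => hpNℓ (Dvd.dvd.mul_right h ℓ)
    obtain ⟨t, d, htr, hdet, hrt, hrd⟩ := hρ₀ (r' σ)
    obtain ⟨htr', hdet'⟩ := (hr p hp hpNℓ).2 A hA σ hσ (za p) (ze (p : ZMod N)) (hza p hp hpN)
      (hze _)
    refine ⟨t, d, htr, hdet, ?_, ?_⟩
    · rw [hrt, ← htr']; rfl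
    · rw [hrd, ← hdet']; rfl

end Fermat.Agent.S48lib.DS
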