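/-
S48 (Deligne–Serre), block DS, file Mat: `2×2` complex matrices of finite order.
* trace and determinant are `ζ + ζ'`, `ζ ζ'` for `n`-th roots of unity `ζ, ζ' ∈ ℤ̄` (`rootPairs n`);
* finite order, trace `2`, determinant `1` implies identity;
* a two-dimensional matrix representation without a stable line is irreducible.
-/
import Mathlib
import Fermat.Prelude.Def_Deformations_MatrixRepresentation
import Fermat.Agent.S48lib.DS.Alg
import Fermat.Agent.S48lib.Grp.Basic

set_option autoImplicit false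

namespace Fermat.Agent.S48lib.DS

open Fermat.Agent.S56lib.TW Fermat.Agent.S48lib.Grp
open scoped Matrix

/-- the characteristic polynomial of a `2×2` matrix, evaluated. -/
theorem det_scalar_sub {k : Type*} [Field k] (M : Matrix (Fin 2) (Fin 2) k) (x : k) :
    (Matrix.scalar (Fin 2) x - M).det = x * x - M.trace * x + M.det := by
  rw [Matrix.det_fin_two, Matrix.det_fin_two, Matrix.trace_fin_two]
  simp [Matrix.scalar_apply, Matrix.diagonal_apply]
  ring

/-- a root of the characteristic polynomial is an eigenvalue. -/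
theorem exists_eigvec_of_root {k : Type*} [Field k] (M : Matrix (Fin 2) (Fin 2) k) (x : k)
    (h : x * x - M.trace * x + M.det = 0) : ∃ v : Fin 2 → k, v ≠ 0 ∧ M *ᵥ v = x • v := by
  classical
  have hdet : (Matrix.scalar (Fin 2) x - M).det = 0 := by rw [det_scalar_sub, h]
  obtain ⟨v, hv0, hv⟩ := Matrix.exists_mulVec_eq_zero_iff.2 hdet
  refine ⟨v, hv0, ?_⟩
  rw [Matrix.sub_mulVec, sub_eq_zero] at hv
  rw [← hv]
  funext i
  simp [Matrix.mulVec, dotProduct, Matrix.scalar_apply, Matrix.diagonal_apply]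

/-- an eigenvalue of a matrix of finite order is a root of unity. -/
theorem eigen_pow_eq_one {k : Type*} [Field k] (M : Matrix (Fin 2) (Fin 2) k) (n : ℕ)
    (h : M ^ n = 1) (v : Fin 2 → k) (hv : v ≠ 0) (x : k) (hx : M *ᵥ v = x • v) : x ^ n = 1 := by
  have h1 := pow_mulVec_eigen M v x hx n
  rw [h, Matrix.one_mulVec] at h1
  have h2 : (x ^ n - 1) • v = 0 := by rw [sub_smul, one_smul, ← h1, sub_self]
  rcases smul_eq_zero.mp h2 with h3 | h3
  · exact sub_eq_zero.mp h3
  · exact absurd h3 hv

/-- an `n`-th root of unity in `ℂ`, as an element of `ℤ̄`. -/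
noncomputable def rootZ (n : ℕ) (hn : 0 < n) (x : ℂ) (hx : x ^ n = 1) : Zbar :=
  ⟨x, ⟨Polynomial.X ^ n - 1, Polynomial.monic_X_pow_sub_C 1 hn.ne', by simp [hx]⟩⟩

/-- the possible (trace, determinant) of a `2×2` matrix with `M ^ n = 1`. -/
noncomputable def rootPairs (n : ℕ) : Finset (Zbar × Zbar) :=
  open Classical in
  ((Polynomial.nthRootsFinset n (1 : Zbar)) ×ˢ (Polynomial.nthRootsFinset n (1 : Zbar))).image
    (fun z => (z.1 + z.2, z.1 * z.2))

/-- **finite order**: trace and determinant come from roots of unity. -/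
theorem trace_det_mem_rootPairs (M : Matrix (Fin 2) (Fin 2) ℂ) (n : ℕ) (hn : 0 < n)
    (h : M ^ n = 1) : ∃ td ∈ rootPairs n, M.trace = (td.1 : ℂ) ∧ M.det = (td.2 : ℂ) := by
  classical
  have hdeg : M.charpoly.degree ≠ 0 := by
    rw [Matrix.charpoly_degree_eq_dim]
    simp
  obtain ⟨α, hα⟩ := IsAlgClosed.exists_root M.charpoly hdeg
  have hα' : α * α - M.trace * α + M.det = 0 := by
    rw [← det_scalar_sub, ← Matrix.eval_charpoly]
    exact hα
  set β := M.trace - α with hβ
  have hβ' : β * β - M.trace * β + M.det = 0 := by rw [hβ]; linear_combination hα'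
  obtain ⟨v, hv, hMv⟩ := exists_eigvec_of_root M α hα'
  obtain ⟨w, hw, hMw⟩ := exists_eigvec_of_root M β hβ'
  have hαn := eigen_pow_eq_one M n h v hv α hMv
  have hβn := eigen_pow_eq_one M n h w hw β hMw
  refine ⟨(rootZ n hn α hαn + rootZ n hn β hβn, rootZ n hn α hαn * rootZ n hn β hβn), ?_, ?_, ?_⟩
  · rw [rootPairs, Finset.mem_image]
    refine ⟨(rootZ n hn α hαn, rootZ n hn β hβn), ?_, rfl⟩
    rw [Finset.mem_product, Polynomial.mem_nthRootsFinset hn, Polynomial.mem_nthRootsFinset hn]
    exact ⟨Subtype.ext (by simpa [rootZ] using hαn), Subtype.ext (by simpa [rootZ] using hβn)⟩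
  · show M.trace = α + β
    rw [hβ]; ring
  · show M.det = α * β
    rw [hβ]; linear_combination hα'

/-- **finite order, trace `2`, determinant `1`**: the identity. -/
theorem eq_one_of_trace_det (M : Matrix (Fin 2) (Fin 2) ℂ) (n : ℕ) (hn : 0 < n)
    (h : M ^ n = 1) (htr : M.trace = 2) (hdet : M.det = 1) : M = 1 := by
  have := eq_scalar_of_pow_eq_one (two_ne_zero) M 1 (by rw [htr]; ring) (by rw [hdet]; ring) n
    (by exact_mod_cast hn.ne') h
  rwa [one_smul] at this

/-- **irreducibility** of a two-dimensional matrix representation without stable line. -/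
theorem isIrreducible_of_no_stable_line {G : Type} [Group G] (ρ : G →* GL (Fin 2) ℂ)
    (h : ∀ v : Fin 2 → ℂ, v ≠ 0 → ∃ g : G, ∀ c : ℂ, (ρ g).1 *ᵥ v ≠ c • v) :
    (Deformation.matrixRepresentation ρ).IsIrreducible := by
  refine { exists_pair_ne := ⟨⊥, ⊤, ?_⟩, eq_bot_or_eq_top := ?_ }
  · intro hbt
    have h1 := congrArg Subrepresentation.toSubmodule hbt
    have h2 : (⊥ : Submodule ℂ (Fin 2 → ℂ)) = ⊤ := h1
    exact bot_ne_top h2
  · intro W
    by_contra hcon
    push Not at hcon
    obtain ⟨hbot, htop⟩ := hcon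
    have hWbot : W.toSubmodule ≠ ⊥ := fun h' => hbot (Subrepresentation.toSubmodule_injective h')
    have hWtop : W.toSubmodule ≠ ⊤ := fun h' => htop (Subrepresentation.toSubmodule_injective h')
    have hrank : Module.finrank ℂ W.toSubmodule = 1 := by
      have h1 : Module.finrank ℂ W.toSubmodule < 2 := by
        have := Submodule.finrank_lt hWtop
        simpa using this
      have h2 : 0 < Module.finrank ℂ W.toSubmodule := by
        rw [Module.finrank_pos_iff]
        exact (Submodule.nontrivial_iff_ne_bot).mpr hWbot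
      omega
    obtain ⟨⟨v, hvW⟩, hv0, hvspan⟩ := finrank_eq_one_iff'.mp hrank
    have hv0' : v ≠ 0 := fun h' => hv0 (Subtype.ext h')
    obtain ⟨g, hg⟩ := h v hv0'
    have hmem : Deformation.matrixRepresentation ρ g v ∈ W.toSubmodule :=
      W.apply_mem_toSubmodule g hvW
    obtain ⟨c, hc⟩ := hvspan ⟨_, hmem⟩
    apply hg c
    have h3 := congrArg Subtype.val hc
    simp only [Deformation.matrixRepresentation_apply, Matrix.mulVecLin_apply] at h3
    exact h3.symm

end Fermat.Agent.S48lib.DS
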