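/-
S48 (Deligne–Serre), block DS, file Exact: from the family `ρ_ℓ` of `DS/Family.lean` to ONE complex
representation with the exact Frobenius traces and determinants at all `p ∤ N`.
* pigeonhole over infinitely many `ℓ`: `(a_p, ε(p)) ∈ rootPairs n₀` for every `p ∤ N`;
* for `ℓ` large the reduction is injective on `rootPairs n₀`: exact equality at all `p ∤ Nℓ`;
* two primes `ℓ₁ ≠ ℓ₂` and Chebotarev: `ρ_{ℓ₁}`, `ρ_{ℓ₂}` have the same traces and determinants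
  everywhere, hence `ρ_{ℓ₁}` is unramified at `ℓ₁` with the right Frobenius.
-/
import Mathlib
import Fermat.Agent.S48lib.DS.Family
import Fermat.Agent.S48lib.DS.Mat

set_option autoImplicit false
set_option linter.style.haveILetI false
set_option linter.unusedSectionVars false

namespace Fermat.Agent.S48lib.DS

open Fermat.Agent.S48lib
open scoped Matrix

/-- the conclusion of `exists_family`, as a property of `(A₀, n₀)`. -/
def FamilyProp (N : ℕ) (za : ℕ → Zbar) (ze : ZMod N → Zbar) (A₀ n₀ : ℕ) : Prop :=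
  ∀ (ℓ : ℕ) [Fact ℓ.Prime], A₀ < ℓ →
    ∃ (D : RedData ℓ) (ρ : GQ →* GL (Fin 2) ℂ), GaloisFactorsThroughFiniteLevel ρ ∧
      (∀ σ : GQ, (ρ σ) ^ n₀ = 1) ∧
      ∀ p : ℕ, p.Prime → ¬ p ∣ N * ℓ → UnramAt ρ p ∧
        ∀ A : ValuationSubring (AlgebraicClosure ℚ), A.LiesOverPrime p →
          ∀ σ : GQ, A.IsFrobeniusAt σ p → ∃ t d : Zbar,
            ((ρ σ : GL (Fin 2) ℂ) : Matrix (Fin 2) (Fin 2) ℂ).trace = (t : ℂ) ∧
            ((ρ σ : GL (Fin 2) ℂ) : Matrix (Fin 2) (Fin 2) ℂ).det = (d : ℂ) ∧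
            D.red t = D.red (za p) ∧ D.red d = D.red (ze (p : ZMod N))

theorem val_pow_eq_one {g : GL (Fin 2) ℂ} {n : ℕ} (h : g ^ n = 1) :
    (g : Matrix (Fin 2) (Fin 2) ℂ) ^ n = 1 := by
  rw [← Units.val_pow_eq_pow_val, h, Units.val_one]

theorem not_dvd_mul_of_ne {p N ℓ : ℕ} (hp : p.Prime) (hℓ : ℓ.Prime) (hpN : ¬ p ∣ N)
    (hne : p ≠ ℓ) : ¬ p ∣ N * ℓ := by
  intro h
  rcases (Nat.Prime.dvd_mul hp).mp h with h1 | h1
  · exact hpN h1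
  · exact hne ((Nat.prime_dvd_prime_iff_eq hp hℓ).mp h1)

/-- **pigeonhole**: every `(a_p, ε(p))`, `p ∤ N`, is a pair of sums/products of `n₀`-th roots of
unity. -/
theorem mem_rootPairs_of_family {N : ℕ} {za : ℕ → Zbar} {ze : ZMod N → Zbar} {A₀ n₀ : ℕ}
    (h : FamilyProp N za ze A₀ n₀) (hn₀ : 0 < n₀) (p : ℕ) (hp : p.Prime) (hpN : ¬ p ∣ N) :
    (za p, ze (p : ZMod N)) ∈ rootPairs n₀ := by
  classical
  by_contra hnot
  -- a non-zero difference for every candidate pair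
  let z : Zbar × Zbar → Zbar := fun td =>
    if td.1 ≠ za p then td.1 - za p else td.2 - ze (p : ZMod N)
  have hz : ∀ td ∈ rootPairs n₀, z td ≠ 0 := by
    intro td htd
    by_cases h1 : td.1 ≠ za p
    · simp only [z, if_pos h1]
      exact sub_ne_zero.mpr h1
    · simp only [z, if_neg h1]
      push Not at h1
      intro h2
      apply hnot
      have h3 : td.2 = ze (p : ZMod N) := sub_eq_zero.mp h2
      have : td = (za p, ze (p : ZMod N)) := Prod.ext h1 h3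
      rwa [this] at htd
  have hex : ∀ td : Zbar × Zbar, ∃ B : ℕ, td ∈ rootPairs n₀ → ∀ ℓ : ℕ, B < ℓ →
      ∀ (k : Type) [Field k] [CharP k ℓ] (red : Zbar →+* k), red (z td) ≠ 0 := by
    intro td
    by_cases htd : td ∈ rootPairs n₀
    · obtain ⟨B, hB⟩ := exists_bound_red_ne_zero (z td) (hz td htd)
      exact ⟨B, fun _ => hB⟩
    · exact ⟨0, fun h' => absurd h' htd⟩
  choose Bf hBf using hex
  set B := (rootPairs n₀).sup Bf with hB
  obtain ⟨ℓ, hℓge, hℓp⟩ := Nat.exists_infinite_primes (max B (max A₀ p) + 1)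
  haveI : Fact ℓ.Prime := ⟨hℓp⟩
  have hℓB : B < ℓ := lt_of_lt_of_le (Nat.lt_succ_of_le (le_max_left _ _)) hℓge
  have hℓA : A₀ < ℓ :=
    lt_of_lt_of_le (Nat.lt_succ_of_le (le_trans (le_max_left _ _) (le_max_right _ _))) hℓge
  have hℓpp : p < ℓ :=
    lt_of_lt_of_le (Nat.lt_succ_of_le (le_trans (le_max_right _ _) (le_max_right _ _))) hℓge
  obtain ⟨D, ρ, -, hpow, hρ⟩ := h ℓ hℓA
  have hpNℓ : ¬ p ∣ N * ℓ := not_dvd_mul_of_ne hp hℓp hpN hℓpp.ne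
  obtain ⟨A, σ, hA, hσ⟩ := exists_frobenius p hp
  obtain ⟨t, d, htr, hdet, hrt, hrd⟩ := (hρ p hp hpNℓ).2 A hA σ hσ
  obtain ⟨td, htd, htr', hdet'⟩ :=
    trace_det_mem_rootPairs (ρ σ).1 n₀ hn₀ (val_pow_eq_one (hpow σ))
  have ht : t = td.1 := Subtype.ext (htr.symm.trans htr')
  have hd : d = td.2 := Subtype.ext (hdet.symm.trans hdet')
  rw [ht] at hrt
  rw [hd] at hrd
  have hle : Bf td ≤ B := Finset.le_sup (f := Bf) htd
  apply hBf td htd ℓ (lt_of_le_of_lt hle hℓB) D.k D.red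
  by_cases h1 : td.1 ≠ za p
  · simp only [z, if_pos h1]
    rw [map_sub, hrt, sub_self]
  · simp only [z, if_neg h1]
    rw [map_sub, hrd, sub_self]

/-- **exactness away from `ℓ`**. -/
theorem exists_exact {N : ℕ} {a : ℕ → ℂ} {ε : DirichletCharacter ℂ N} {za : ℕ → Zbar}
    {ze : ZMod N → Zbar} (hza : ∀ p : ℕ, p.Prime → ¬ p ∣ N → (za p : ℂ) = a p)
    (hze : ∀ x : ZMod N, (ze x : ℂ) = ε x) {A₀ n₀ : ℕ}
    (h : FamilyProp N za ze A₀ n₀) (hn₀ : 0 < n₀) :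
    ∃ B₁ : ℕ, ∀ ℓ : ℕ, ℓ.Prime → B₁ < ℓ →
      ∃ ρ : GQ →* GL (Fin 2) ℂ, GaloisFactorsThroughFiniteLevel ρ ∧
        (∀ σ : GQ, (ρ σ) ^ n₀ = 1) ∧
        ∀ p : ℕ, p.Prime → ¬ p ∣ N * ℓ → UnramAt ρ p ∧
          ∀ A : ValuationSubring (AlgebraicClosure ℚ), A.LiesOverPrime p →
            ∀ σ : GQ, A.IsFrobeniusAt σ p →
              ((ρ σ : GL (Fin 2) ℂ) : Matrix (Fin 2) (Fin 2) ℂ).trace = a p ∧
              ((ρ σ : GL (Fin 2) ℂ) : Matrix (Fin 2) (Fin 2) ℂ).det = ε (p : ZMod N) := by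
  classical
  set T₁ : Finset Zbar := (rootPairs n₀).image Prod.fst with hT₁
  set T₂ : Finset Zbar := (rootPairs n₀).image Prod.snd with hT₂
  obtain ⟨b₁, hb₁⟩ := exists_bound_injOn T₁
  obtain ⟨b₂, hb₂⟩ := exists_bound_injOn T₂
  refine ⟨max A₀ (max b₁ b₂), ?_⟩
  intro ℓ hℓp hℓ
  haveI : Fact ℓ.Prime := ⟨hℓp⟩
  have hℓA : A₀ < ℓ := lt_of_le_of_lt (le_max_left _ _) hℓ
  have hℓ1 : b₁ < ℓ := lt_of_le_of_lt (le_trans (le_max_left _ _) (le_max_right _ _)) hℓ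
  have hℓ2 : b₂ < ℓ := lt_of_le_of_lt (le_trans (le_max_right _ _) (le_max_right _ _)) hℓ
  obtain ⟨D, ρ, hfl, hpow, hρ⟩ := h ℓ hℓA
  refine ⟨ρ, hfl, hpow, ?_⟩
  intro p hp hpNℓ
  refine ⟨(hρ p hp hpNℓ).1, ?_⟩
  intro A hA σ hσ
  have hpN : ¬ p ∣ N := fun h' => hpNℓ (Dvd.dvd.mul_right h' ℓ)
  obtain ⟨t, d, htr, hdet, hrt, hrd⟩ := (hρ p hp hpNℓ).2 A hA σ hσ
  obtain ⟨td, htd, htr', hdet'⟩ :=
    trace_det_mem_rootPairs (ρ σ).1 n₀ hn₀ (val_pow_eq_one (hpow σ))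
  have ht : t = td.1 := Subtype.ext (htr.symm.trans htr')
  have hd : d = td.2 := Subtype.ext (hdet.symm.trans hdet')
  have hmem := mem_rootPairs_of_family h hn₀ p hp hpN
  have ht1 : t ∈ T₁ := by rw [ht]; exact Finset.mem_image_of_mem _ htd
  have hd2 : d ∈ T₂ := by rw [hd]; exact Finset.mem_image_of_mem _ htd
  have hz1 : za p ∈ T₁ := Finset.mem_image.mpr ⟨_, hmem, rfl⟩
  have hz2 : ze (p : ZMod N) ∈ T₂ := Finset.mem_image.mpr ⟨_, hmem, rfl⟩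
  have e1 : t = za p := hb₁ ℓ hℓ1 D.k D.red t ht1 (za p) hz1 hrt
  have e2 : d = ze (p : ZMod N) := hb₂ ℓ hℓ2 D.k D.red d hd2 _ hz2 hrd
  exact ⟨by rw [htr, e1, hza p hp hpN], by rw [hdet, e2, hze]⟩

end Fermat.Agent.S48lib.DS
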