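/-
S48 (Deligne–Serre), block DS, file TwoPrimes: two auxiliary primes `ℓ₁ ≠ ℓ₂` and Chebotarev.
`ρ₁ = ρ_{ℓ₁}` and `ρ₂ = ρ_{ℓ₂}` have equal Frobenius traces and determinants outside `Nℓ₁ℓ₂`,
hence (Chebotarev for the finite image of `ρ₁ × ρ₂`) equal traces and determinants everywhere;
so `ρ₁` is trivial on the inertia groups at `ℓ₁` (finite order, trace `2`, determinant `1`) and has
the right Frobenius there.
-/
import Mathlib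
import Fermat.Agent.S48lib.DS.Exact

set_option autoImplicit false
set_option linter.style.haveILetI false
set_option linter.unusedSectionVars false

namespace Fermat.Agent.S48lib.DS

open Fermat.Agent.S48lib
open scoped Matrix

theorem exists_good (hCheb : ChebotarevStmt) {N : ℕ} [NeZero N] {a : ℕ → ℂ}
    {ε : DirichletCharacter ℂ N} {n₀ : ℕ} (hn₀ : 0 < n₀) {B₁ : ℕ}
    (h : ∀ ℓ : ℕ, ℓ.Prime → B₁ < ℓ →
      ∃ ρ : GQ →* GL (Fin 2) ℂ, GaloisFactorsThroughFiniteLevel ρ ∧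
        (∀ σ : GQ, (ρ σ) ^ n₀ = 1) ∧
        ∀ p : ℕ, p.Prime → ¬ p ∣ N * ℓ → UnramAt ρ p ∧
          ∀ A : ValuationSubring (AlgebraicClosure ℚ), A.LiesOverPrime p →
            ∀ σ : GQ, A.IsFrobeniusAt σ p →
              ((ρ σ : GL (Fin 2) ℂ) : Matrix (Fin 2) (Fin 2) ℂ).trace = a p ∧
              ((ρ σ : GL (Fin 2) ℂ) : Matrix (Fin 2) (Fin 2) ℂ).det = ε (p : ZMod N)) :
    ∃ ρ : GQ →* GL (Fin 2) ℂ, GaloisFactorsThroughFiniteLevel ρ ∧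
      ∀ p : ℕ, p.Prime → ¬ p ∣ N →
        ∀ A : ValuationSubring (AlgebraicClosure ℚ), A.LiesOverPrime p →
          (∀ σ ∈ A.inertiaSubgroupIn ℚ, ρ σ = 1) ∧
          ∀ σ : GQ, A.IsFrobeniusAt σ p →
            ((ρ σ : GL (Fin 2) ℂ) : Matrix (Fin 2) (Fin 2) ℂ).trace = a p ∧
            ((ρ σ : GL (Fin 2) ℂ) : Matrix (Fin 2) (Fin 2) ℂ).det = ε (p : ZMod N) := by
  classical
  obtain ⟨ℓ₁, hℓ₁ge, hℓ₁p⟩ := Nat.exists_infinite_primes (B₁ + 1)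
  obtain ⟨ℓ₂, hℓ₂ge, hℓ₂p⟩ := Nat.exists_infinite_primes (ℓ₁ + 1)
  have hℓ₁B : B₁ < ℓ₁ := hℓ₁ge
  have hℓ₁₂ : ℓ₁ < ℓ₂ := hℓ₂ge
  have hℓ₂B : B₁ < ℓ₂ := lt_trans hℓ₁B hℓ₁₂
  obtain ⟨ρ₁, hfl₁, hpow₁, hρ₁⟩ := h ℓ₁ hℓ₁p hℓ₁B
  obtain ⟨ρ₂, hfl₂, hpow₂, hρ₂⟩ := h ℓ₂ hℓ₂p hℓ₂B
  -- the product representation
  set Φ : GQ →* GL (Fin 2) ℂ × GL (Fin 2) ℂ := ρ₁.prod ρ₂ with hΦ
  have hflΦ : GaloisFactorsThroughFiniteLevel Φ := finiteLevel_prod ρ₁ ρ₂ hfl₁ hfl₂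
  set Γ : Subgroup (GL (Fin 2) ℂ × GL (Fin 2) ℂ) := Φ.range with hΓ
  haveI : Finite Γ := finite_range_of_finiteLevel Φ hflΦ
  set Φ' : GQ →* Γ := Φ.rangeRestrict with hΦ'
  have hsurj : Function.Surjective Φ' := Φ.rangeRestrict_surjective
  set S : Finset ℕ := (N * ℓ₁ * ℓ₂).primeFactors with hS
  have hne0 : N * ℓ₁ * ℓ₂ ≠ 0 :=
    Nat.mul_ne_zero (Nat.mul_ne_zero (NeZero.ne N) hℓ₁p.ne_zero) hℓ₂p.ne_zero
  have hS' : ∀ p : ℕ, p.Prime → p ∉ S → ¬ p ∣ N * ℓ₁ ∧ ¬ p ∣ N * ℓ₂ := by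
    intro p hp hpS
    constructor
    · intro hd
      exact hpS (Nat.mem_primeFactors.mpr ⟨hp, Dvd.dvd.mul_right hd ℓ₂, hne0⟩)
    · intro hd
      apply hpS
      refine Nat.mem_primeFactors.mpr ⟨hp, ?_, hne0⟩
      rcases (Nat.Prime.dvd_mul hp).mp hd with h1 | h1
      · exact Dvd.dvd.mul_right (Dvd.dvd.mul_right h1 ℓ₁) ℓ₂
      · exact Dvd.dvd.mul_left h1 _
  set C : Set Γ := {γ | γ.1.1.1.trace ≠ γ.1.2.1.trace ∨ γ.1.1.1.det ≠ γ.1.2.1.det} with hC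
  have hCinv : ∀ g h : Γ, h ∈ C → g * h * g⁻¹ ∈ C := by
    intro g h hh
    have e1 : (g * h * g⁻¹).1.1.1.trace = h.1.1.1.trace := trace_conj g.1.1 h.1.1
    have e2 : (g * h * g⁻¹).1.2.1.trace = h.1.2.1.trace := trace_conj g.1.2 h.1.2
    have e3 : (g * h * g⁻¹).1.1.1.det = h.1.1.1.det := det_conj g.1.1 h.1.1
    have e4 : (g * h * g⁻¹).1.2.1.det = h.1.2.1.det := det_conj g.1.2 h.1.2
    show _ ≠ _ ∨ _ ≠ _
    rw [e1, e2, e3, e4]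
    exact hh
  have hunr : ∀ p : ℕ, p.Prime → p ∉ S → UnramAt Φ' p := fun p hp hpS =>
    unramAt_rangeRestrict Φ p (unramAt_prod ρ₁ ρ₂ p (hρ₁ p hp (hS' p hp hpS).1).1
      (hρ₂ p hp (hS' p hp hpS).2).1)
  have hdens := hCheb Γ Φ' (finiteLevel_rangeRestrict Φ hflΦ) hsurj S hunr C hCinv
  have hempty : frobSet Φ' S C ⊆ ∅ := by
    intro p hp
    obtain ⟨hpp, hpS, A, σ, hA, hσ, hσC⟩ := exists_of_mem_frobSet Φ' S C p hp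
    obtain ⟨t1, d1⟩ := (hρ₁ p hpp (hS' p hpp hpS).1).2 A hA σ hσ
    obtain ⟨t2, d2⟩ := (hρ₂ p hpp (hS' p hpp hpS).2).2 A hA σ hσ
    have e1 : (Φ' σ).1.1 = ρ₁ σ := rfl
    have e2 : (Φ' σ).1.2 = ρ₂ σ := rfl
    rcases hσC with hne | hne
    · exact hne (by rw [e1, e2, t1, t2])
    · exact hne (by rw [e1, e2, d1, d2])
  have hzero : (Nat.card C : ℝ) / (Nat.card Γ : ℝ) ≤ 0 :=
    density_le hdens upperDensity_empty hempty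
  have hΓpos : (0 : ℝ) < (Nat.card Γ : ℝ) := by exact_mod_cast Nat.card_pos
  have hC0 : Nat.card C = 0 := by
    rw [div_le_iff₀ hΓpos, zero_mul] at hzero
    have : (Nat.card C : ℝ) = 0 := le_antisymm hzero (Nat.cast_nonneg _)
    exact_mod_cast this
  have hCempty : ∀ γ : Γ, γ ∉ C := by
    intro γ hγ
    rcases Nat.card_eq_zero.mp hC0 with h1 | h1
    · exact h1.false ⟨γ, hγ⟩
    · haveI : Finite C := Subtype.finite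
      exact h1.false
  have heq : ∀ σ : GQ, (ρ₁ σ).1.trace = (ρ₂ σ).1.trace ∧ (ρ₁ σ).1.det = (ρ₂ σ).1.det := by
    intro σ
    have := hCempty (Φ' σ)
    simp only [hC, Set.mem_ofPred_eq, not_or, not_not] at this
    exact this
  refine ⟨ρ₁, hfl₁, ?_⟩
  intro p hp hpN A hA
  by_cases hpℓ : p = ℓ₁
  · have hpNℓ₂ : ¬ p ∣ N * ℓ₂ := not_dvd_mul_of_ne hp hℓ₂p hpN (by rw [hpℓ]; exact hℓ₁₂.ne)
    constructor
    · intro σ hσ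
      have h2 : ρ₂ σ = 1 := (hρ₂ p hp hpNℓ₂).1 A hA σ hσ
      obtain ⟨ht, hd⟩ := heq σ
      rw [h2] at ht hd
      have ht' : (ρ₁ σ).1.trace = 2 := by
        rw [ht, Units.val_one, Matrix.trace_one]
        simp
      have hd' : (ρ₁ σ).1.det = 1 := by rw [hd, Units.val_one, Matrix.det_one]
      exact Units.ext (eq_one_of_trace_det (ρ₁ σ).1 n₀ hn₀ (val_pow_eq_one (hpow₁ σ)) ht' hd')
    · intro σ hσ
      obtain ⟨ht, hd⟩ := heq σ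
      obtain ⟨t2, d2⟩ := (hρ₂ p hp hpNℓ₂).2 A hA σ hσ
      exact ⟨by rw [ht, t2], by rw [hd, d2]⟩
  · have hpNℓ₁ : ¬ p ∣ N * ℓ₁ := not_dvd_mul_of_ne hp hℓ₁p hpN hpℓ
    exact ⟨fun σ hσ => (hρ₁ p hp hpNℓ₁).1 A hA σ hσ, fun σ hσ => (hρ₁ p hp hpNℓ₁).2 A hA σ hσ⟩

end Fermat.Agent.S48lib.DS
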