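/-
S48 (Deligne–Serre), block DS, file Main: **the assembly** `DS.MainStmt`.
Rankin + Chebotarev + bounded image + lifting + the algebraic package with its density
statement + the mod-`ℓ` representations  ⟹  the conclusion of the frozen S48.
-/
import Mathlib
import Fermat.Agent.S48lib.DS.TwoPrimes
import Fermat.Agent.S48lib.Dens.Irred

set_option autoImplicit false
set_option linter.style.haveILetI false
set_option linter.unusedSectionVars false

namespace Fermat.Agent.S48lib.DS

open Fermat.Agent.S48lib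
open scoped Matrix

/-- **The assembly.** -/
theorem mainStmt : MainStmt := by
  intro hR hCheb hGrp hLift N _ ε f hf P hDens hModL
  classical
  -- the coefficients as algebraic integers
  set za : ℕ → Zbar := fun p => toZbar P.ι (P.α p) with hza_def
  set ze : ZMod N → Zbar := fun x => toZbar P.ι (P.εK x) with hze_def
  have hza : ∀ p : ℕ, p.Prime → ¬ p ∣ N →
      (za p : ℂ) = (fun n => ModularFormClass.qCoeff f n) p := by
    intro p hp hpN
    rw [hza_def, coe_toZbar]
    exact (P.hα p hp hpN).symm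
  have hze : ∀ x : ZMod N, (ze x : ℂ) = ε x := by
    intro x
    rw [hze_def, coe_toZbar]
    exact (P.hε x).symm
  -- the density statement with `η = 1/4`
  obtain ⟨Y, hY⟩ := hDens (1 / 4) (by norm_num)
  set B' : Set ℕ := {p : ℕ | p.Prime ∧ ¬ p ∣ N ∧ P.α p ∉ Y} with hB'
  set T : Finset Zbar := Y.image (toZbar P.ι) with hT
  have hTmem : ∀ p : ℕ, p.Prime → ¬ p ∣ N → p ∉ B' → za p ∈ T := by
    intro p hp hpN hpB
    have hαY : P.α p ∈ Y := by
      by_contra hcon
      exact hpB ⟨hp, hpN, hcon⟩
    exact Finset.mem_image_of_mem _ hαY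
  -- the family of complex lifts
  obtain ⟨A₀, n₀, hn₀, hfam⟩ :=
    exists_family hCheb hGrp hLift N ε (fun n => ModularFormClass.qCoeff f n) za hza ze hze T B' hY
      hTmem hModL
  have hfam' : FamilyProp N za ze A₀ n₀ := hfam
  obtain ⟨B₁, hB₁⟩ := exists_exact (a := fun n => ModularFormClass.qCoeff f n) (ε := ε) hza hze hfam' hn₀
  obtain ⟨ρ, hfl, hρ⟩ := exists_good hCheb (a := fun n => ModularFormClass.qCoeff f n) (ε := ε) hn₀ hB₁
  refine ⟨ρ, hfl, ?_, hρ⟩
  exact Dens.isIrreducible_of_rankinBound hCheb (NeZero.ne N) (hR N ε f hf) ρ hfl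
    (fun p hp hpN A hA => ⟨(hρ p hp hpN A hA).1, fun σ hσ => ((hρ p hp hpN A hA).2 σ hσ).1⟩)

end Fermat.Agent.S48lib.DS
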