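/-
S48 (Deligne–Serre), block DS, file LiftSpan: two complements to `DS/LiftEigen.lean`.

* `exists_eigen_lift_span`: the lifting lemma for a finitely generated lattice `L` which need not
  span `V` (the eigenvector is found in the `ℂ`-span of `L`; `V` need not be finite-dimensional).
* `exists_eigenvector_of_map`: an eigensystem of a quotient occurs in the space: if `c : V → U`
  is linear with `T`-stable kernel and `c v ≠ 0` is a simultaneous eigenvector "modulo `ker c`",
  then `V` contains a simultaneous eigenvector with the same eigenvalues.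
-/
import Mathlib
import Fermat.Agent.S48lib.DS.LiftEigen

set_option autoImplicit false
set_option linter.style.haveILetI false
set_option linter.unusedSectionVars false
set_option linter.deprecated false

namespace Fermat.Agent.S48lib.DS

section Span

variable {V : Type*} [AddCommGroup V] [Module ℂ V]

theorem finiteDimensional_span_of_fg (L : Submodule ℤ V) [Module.Finite ℤ L] :
    FiniteDimensional ℂ (Submodule.span ℂ (L : Set V)) := by
  obtain ⟨S, hS⟩ := (Module.Finite.iff_fg.mp (inferInstance : Module.Finite ℤ L))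
  have h : Submodule.span ℂ (L : Set V) = Submodule.span ℂ (S : Set V) := by
    apply le_antisymm
    · rw [Submodule.span_le]
      intro x hx
      have hx' : x ∈ Submodule.span ℤ (S : Set V) := by rw [hS]; exact hx
      exact Submodule.span_le_restrictScalars ℤ ℂ (S : Set V) hx'
    · apply Submodule.span_mono
      intro x hx
      have : x ∈ Submodule.span ℤ (S : Set V) := Submodule.subset_span hx
      rw [hS] at this
      exact this
  rw [h]
  exact FiniteDimensional.span_finset ℂ S

/-- **Deligne–Serre lifting lemma with a fixed place, lattice not necessarily spanning.** -/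
theorem exists_eigen_lift_span (R : Subring ℂ) (hR : ∀ r ∈ R, IsIntegral ℤ r)
    {ι : Type*} (T : ι → Module.End ℂ V) (hcomm : ∀ i j, T i * T j = T j * T i)
    (L : Submodule ℤ V) [Module.Finite ℤ L]
    (hLR : ∀ r ∈ R, ∀ x ∈ L, r • x ∈ L) (hLT : ∀ i, ∀ x ∈ L, T i x ∈ L)
    {k : Type*} [Field k] [IsAlgClosed k] (φ : Zbar →+* k)
    (K₀ : Submodule ℤ V)
    (hK₀R : ∀ r ∈ R, ∀ x ∈ K₀, r • x ∈ K₀) (hK₀T : ∀ i, ∀ x ∈ K₀, T i x ∈ K₀)
    (g₀ : V) (hg₀L : g₀ ∈ L)
    (hg₀ : ∀ (r : ℂ) (hr : r ∈ R), r • g₀ ∈ K₀ → φ ⟨r, hR r hr⟩ = 0)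
    (a : ι → R) (ha : ∀ i, T i g₀ - (a i : ℂ) • g₀ ∈ K₀) :
    ∃ (g' : V) (b : ι → Zbar) (ψ : Zbar →+* k), g' ∈ Submodule.span ℂ (L : Set V) ∧ g' ≠ 0 ∧
      (∀ i, T i g' = (b i : ℂ) • g') ∧
      (∀ (r : ℂ) (hr : r ∈ R), ψ ⟨r, hR r hr⟩ = φ ⟨r, hR r hr⟩) ∧
      ∀ i, ψ (b i) = φ ⟨(a i : ℂ), hR _ (a i).2⟩ := by
  classical
  set W : Submodule ℂ V := Submodule.span ℂ (L : Set V) with hW
  haveI : FiniteDimensional ℂ W := finiteDimensional_span_of_fg L
  have hLW : ∀ x ∈ L, x ∈ W := fun x hx => Submodule.subset_span hx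
  have hWT : ∀ i, ∀ x ∈ W, T i x ∈ W := by
    intro i x hx
    induction hx using Submodule.span_induction with
    | mem x hx => exact hLW _ (hLT i x hx)
    | zero => rw [map_zero]; exact W.zero_mem
    | add x y _ _ hx hy => rw [map_add]; exact W.add_mem hx hy
    | smul c x _ hx => rw [map_smul]; exact W.smul_mem c hx
  set T' : ι → Module.End ℂ W := fun i => (T i).restrict (hWT i) with hT'
  have hT'coe : ∀ i (x : W), ((T' i x : W) : V) = T i (x : V) := fun i x => rfl
  have hcomm' : ∀ i j, T' i * T' j = T' j * T' i := by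
    intro i j
    ext x
    rw [Module.End.mul_apply, Module.End.mul_apply, hT'coe, hT'coe, hT'coe, hT'coe]
    have := congrArg (fun f : Module.End ℂ V => f (x : V)) (hcomm i j)
    exact this
  set incl : W →ₗ[ℤ] V := W.subtype.restrictScalars ℤ with hincl
  set L' : Submodule ℤ W := L.comap incl with hL'
  set K₀' : Submodule ℤ W := K₀.comap incl with hK₀'
  haveI : Module.Finite ℤ L' := by
    let f : L →ₗ[ℤ] L' :=
      { toFun := fun y => ⟨⟨y.1, hLW _ y.2⟩, y.2⟩
        map_add' := fun _ _ => rfl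
        map_smul' := fun _ _ => rfl }
    refine Module.Finite.of_surjective f ?_
    rintro ⟨⟨x, hxW⟩, hxL⟩
    exact ⟨⟨x, hxL⟩, rfl⟩
  have hspan' : Submodule.span ℂ (L' : Set W) = ⊤ := by
    apply Submodule.map_injective_of_injective (f := W.subtype) Subtype.val_injective
    rw [Submodule.map_span, Submodule.map_top, Submodule.range_subtype]
    have : (W.subtype '' (L' : Set W)) = (L : Set V) := by
      ext x
      constructor
      · rintro ⟨y, hy, rfl⟩
        exact hy
      · intro hx
        exact ⟨⟨x, hLW x hx⟩, hx, rfl⟩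
    rw [this]
  obtain ⟨g'', b, ψ, hg'', hb, hψR, hψb⟩ := exists_eigen_lift (V := W) R hR T' hcomm' L'
    (fun r hr x hx => hLR r hr _ hx) (fun i x hx => hLT i _ hx) hspan' φ K₀'
    (fun r hr x hx => hK₀R r hr _ hx) (fun i x hx => hK₀T i _ hx)
    ⟨g₀, hLW _ hg₀L⟩ (fun r hr h => hg₀ r hr h) a (fun i => ha i)
  refine ⟨(g'' : V), b, ψ, g''.2, fun h => hg'' (Subtype.ext h), fun i => ?_, hψR, hψb⟩
  have := congrArg (fun x : W => (x : V)) (hb i)
  exact this

end Span

section Transfer

variable {V U : Type*} [AddCommGroup V] [Module ℂ V] [FiniteDimensional ℂ V]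
  [AddCommGroup U] [Module ℂ U]

/-- an eigensystem of a quotient occurs in the space. -/
theorem exists_eigenvector_of_map {ι : Type*} (T : ι → Module.End ℂ V)
    (hcomm : ∀ i j, T i * T j = T j * T i) (c : V →ₗ[ℂ] U)
    (hker : ∀ i, ∀ w, c w = 0 → c (T i w) = 0)
    (v : V) (hv : c v ≠ 0) (b : ι → ℂ) (hb : ∀ i, c (T i v) = b i • c v) :
    ∃ g : V, g ≠ 0 ∧ ∀ i, T i g = b i • g := by
  classical
  set R : Subring ℂ := ⊤ with hRdef
  set ρ := rhoHom R T hcomm with hρ
  set χ : MvPolynomial ι R →+* ℂ := MvPolynomial.eval₂Hom R.subtype b with hχ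
  -- the eigen-property modulo `ker c` is preserved by the operators
  have hP : ∀ v' : V, (∀ i, c (T i v') = b i • c v') → ∀ j i, c (T i (T j v')) = b i • c (T j v') := by
    intro v' hv' j i
    have h1 : T i (T j v') = T j (T i v') := by
      have := congrArg (fun f : Module.End ℂ V => f v') (hcomm i j)
      exact this
    have h2 : c (T i v' - b i • v') = 0 := by rw [map_sub, map_smul, hv' i, sub_self]
    have h3 := hker j _ h2
    rw [map_sub, map_smul, map_sub, map_smul, sub_eq_zero] at h3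
    rw [h1, h3]
  have key : ∀ t : MvPolynomial ι R, ∀ v' : V, (∀ i, c (T i v') = b i • c v') →
      c (ρ t v') = χ t • c v' := by
    intro t
    induction t using MvPolynomial.induction_on with
    | C r =>
      intro v' _
      rw [hρ, rhoHom_C, map_smul, hχ, MvPolynomial.coe_eval₂Hom, MvPolynomial.eval₂_C]
      rfl
    | add p q hp hq =>
      intro v' hv'
      rw [map_add, LinearMap.add_apply, map_add, hp v' hv', hq v' hv', map_add, add_smul]
    | mul_X p i hp =>
      intro v' hv'
      rw [hρ, rhoHom_mul_X, ← hρ, hp (T i v') (hP v' hv' i), hv' i, smul_smul, map_mul, hχ,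
        MvPolynomial.coe_eval₂Hom, MvPolynomial.eval₂_X]
  have hkerρ : RingHom.ker ρ ≤ RingHom.ker χ := by
    intro t ht
    rw [RingHom.mem_ker] at ht ⊢
    have := key t v hb
    rw [ht, LinearMap.zero_apply, map_zero] at this
    rcases smul_eq_zero.mp this.symm with h | h
    · exact h
    · exact absurd h hv
  haveI : (RingHom.ker χ).IsPrime := RingHom.ker_isPrime χ
  obtain ⟨g, χ', hg, hχ', hkerχ'⟩ :=
    Fermat.Agent.Helper8.exists_eigenvector_ker_le ρ (RingHom.ker χ) hkerρ
  have hcancel : ∀ {x y : ℂ}, x • g = y • g → x = y := by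
    intro x y hxy
    have : (x - y) • g = 0 := by rw [sub_smul, hxy, sub_self]
    rcases smul_eq_zero.mp this with h | h
    · exact sub_eq_zero.mp h
    · exact absurd h hg
  have hχ'C : ∀ r : R, χ' (MvPolynomial.C r) = (r : ℂ) := by
    intro r
    apply hcancel
    rw [← hχ', hρ, rhoHom_C]
  refine ⟨g, hg, fun i => ?_⟩
  have h1 : T i g = χ' (MvPolynomial.X i) • g := by rw [← hχ', hρ, rhoHom_X]
  have hmem : MvPolynomial.X i - MvPolynomial.C (⟨χ' (MvPolynomial.X i), Subring.mem_top _⟩ : R) ∈
      RingHom.ker χ' := by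
    rw [RingHom.mem_ker, map_sub, hχ'C, sub_self]
  have h2 := hkerχ' hmem
  rw [RingHom.mem_ker, map_sub, hχ, MvPolynomial.coe_eval₂Hom, MvPolynomial.eval₂_X,
    MvPolynomial.eval₂_C, sub_eq_zero] at h2
  rw [h1, h2]
  rfl

end Transfer

end Fermat.Agent.S48lib.DS
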