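/-
S48 (Deligne–Serre), block DS, file SeqHecke: the lifting lemma on SEQUENCES.

`seqT p w` is the formal Hecke operator `(T s) n = s (n p) + [p ∣ n] w s (n / p)` on `ℕ → ℂ`,
`seqCop N` masks the entries of index not prime to `N`; `seqLat R W` (entries in `R`, inside a
finite-dimensional space `W` of sequences) is a finitely generated `ℤ`-module, `seqKer φ`
(entries in `ker φ`) is the kernel of reduction; `exists_seq_eigen` is `exists_eigen_lift_span`
in this setting.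
-/
import Mathlib
import Fermat.Agent.S48lib.DS.LiftSpan
import Fermat.Agent.S48lib.W1.HeckeT

set_option autoImplicit false
set_option linter.style.haveILetI false
set_option linter.unusedSectionVars false
set_option linter.deprecated false

namespace Fermat.Agent.S48lib.DS

/-! ### formal Hecke operators on sequences -/

/-- the formal Hecke operator `(T s) n = s (n p) + [p ∣ n] w s (n / p)`. -/
noncomputable def seqT (p : ℕ) (w : ℂ) : Module.End ℂ (ℕ → ℂ) where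
  toFun s := fun n => s (n * p) + if p ∣ n then w * s (n / p) else 0
  map_add' s t := by
    funext n
    simp only [Pi.add_apply]
    split_ifs <;> ring
  map_smul' c s := by
    funext n
    simp only [Pi.smul_apply, smul_eq_mul, RingHom.id_apply]
    split_ifs <;> ring

theorem seqT_apply (p : ℕ) (w : ℂ) (s : ℕ → ℂ) (n : ℕ) :
    seqT p w s n = s (n * p) + if p ∣ n then w * s (n / p) else 0 := rfl

theorem seqT_comm {p q : ℕ} (hp : p.Prime) (hq : q.Prime) (w : ℕ → ℂ) :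
    seqT p (w p) * seqT q (w q) = seqT q (w q) * seqT p (w p) := by
  rcases eq_or_ne p q with rfl | hpq
  · rfl
  ext s n
  rw [Module.End.mul_apply, Module.End.mul_apply, seqT_apply, seqT_apply, seqT_apply, seqT_apply,
    seqT_apply, seqT_apply]
  exact W1.hecke_coeff_comm hp hq hpq s s s s (w p) (w q) n

/-- masking the entries of index not prime to `N`. -/
noncomputable def seqCop (N : ℕ) : Module.End ℂ (ℕ → ℂ) where
  toFun s := fun n => if Nat.Coprime n N then s n else 0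
  map_add' s t := by
    funext n
    simp only [Pi.add_apply]
    split_ifs <;> simp
  map_smul' c s := by
    funext n
    simp only [Pi.smul_apply, smul_eq_mul, RingHom.id_apply]
    split_ifs <;> simp

theorem seqCop_apply (N : ℕ) (s : ℕ → ℂ) (n : ℕ) :
    seqCop N s n = if Nat.Coprime n N then s n else 0 := rfl

theorem coprime_mul_prime_iff {p N : ℕ} (hp : p.Prime) (hpN : ¬ p ∣ N) (n : ℕ) :
    Nat.Coprime (n * p) N ↔ Nat.Coprime n N := by
  have hpN' : Nat.Coprime p N := (Nat.Prime.coprime_iff_not_dvd hp).mpr hpN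
  constructor
  · intro h
    exact Nat.Coprime.coprime_mul_right h
  · intro h
    exact Nat.Coprime.mul_left h hpN'

theorem seqCop_seqT {p N : ℕ} (hp : p.Prime) (hpN : ¬ p ∣ N) (w : ℂ) (s : ℕ → ℂ) :
    seqCop N (seqT p w s) = seqT p w (seqCop N s) := by
  funext n
  rw [seqCop_apply, seqT_apply, seqT_apply, seqCop_apply, seqCop_apply]
  by_cases hn : Nat.Coprime n N
  · rw [if_pos hn, if_pos ((coprime_mul_prime_iff hp hpN n).mpr hn)]
    by_cases hd : p ∣ n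
    · obtain ⟨m, rfl⟩ := hd
      rw [Nat.mul_div_cancel_left _ hp.pos]
      have hm : Nat.Coprime m N := by
        rw [mul_comm] at hn
        exact (coprime_mul_prime_iff hp hpN m).mp hn
      rw [if_pos hm]
    · rw [if_neg hd, if_neg hd]
  · rw [if_neg hn, if_neg (fun h => hn ((coprime_mul_prime_iff hp hpN n).mp h))]
    by_cases hd : p ∣ n
    · obtain ⟨m, rfl⟩ := hd
      rw [Nat.mul_div_cancel_left _ hp.pos]
      have hm : ¬ Nat.Coprime m N := by
        intro h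
        apply hn
        rw [mul_comm]
        exact (coprime_mul_prime_iff hp hpN m).mpr h
      rw [if_neg hm, if_pos (Dvd.intro m rfl), mul_zero, add_zero]
    · rw [if_neg hd, add_zero]

/-! ### the kernel of reduction -/

section Ker

variable {k : Type*} [Field k] (φ : Zbar →+* k)

/-- complex numbers which are algebraic integers killed by `φ`. -/
def InKer (z : ℂ) : Prop := ∃ z' : Zbar, (z' : ℂ) = z ∧ φ z' = 0

theorem InKer.zero : InKer φ 0 := ⟨0, rfl, map_zero φ⟩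

variable {φ}

theorem InKer.add {x y : ℂ} (hx : InKer φ x) (hy : InKer φ y) : InKer φ (x + y) := by
  obtain ⟨x', rfl, hx'⟩ := hx
  obtain ⟨y', rfl, hy'⟩ := hy
  exact ⟨x' + y', rfl, by rw [map_add, hx', hy', add_zero]⟩

theorem InKer.neg {x : ℂ} (hx : InKer φ x) : InKer φ (-x) := by
  obtain ⟨x', rfl, hx'⟩ := hx
  exact ⟨-x', rfl, by rw [map_neg, hx', neg_zero]⟩

theorem InKer.sub {x y : ℂ} (hx : InKer φ x) (hy : InKer φ y) : InKer φ (x - y) := by
  rw [sub_eq_add_neg]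
  exact hx.add hy.neg

theorem InKer.mul_left {x : ℂ} (hx : InKer φ x) {r : ℂ} (hr : IsIntegral ℤ r) :
    InKer φ (r * x) := by
  obtain ⟨x', rfl, hx'⟩ := hx
  exact ⟨⟨r, hr⟩ * x', rfl, by rw [map_mul, hx', mul_zero]⟩

theorem InKer.mul_right {x : ℂ} (hx : InKer φ x) {r : ℂ} (hr : IsIntegral ℤ r) :
    InKer φ (x * r) := by
  rw [mul_comm]
  exact hx.mul_left hr

theorem InKer.zsmul {x : ℂ} (hx : InKer φ x) (m : ℤ) : InKer φ (m • x) := by
  rw [zsmul_eq_mul]
  exact hx.mul_left isIntegral_algebraMap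

theorem InKer.sum {ι : Type*} (s : Finset ι) (f : ι → ℂ) (h : ∀ i ∈ s, InKer φ (f i)) :
    InKer φ (∑ i ∈ s, f i) := by
  classical
  induction s using Finset.induction_on with
  | empty => rw [Finset.sum_empty]; exact InKer.zero φ
  | insert a s ha ih =>
    rw [Finset.sum_insert ha]
    exact (h a (Finset.mem_insert_self a s)).add
      (ih fun i hi => h i (Finset.mem_insert_of_mem hi))

theorem InKer.isIntegral {x : ℂ} (hx : InKer φ x) : IsIntegral ℤ x := by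
  obtain ⟨x', rfl, -⟩ := hx
  exact x'.2

theorem inKer_iff {x : ℂ} (hx : IsIntegral ℤ x) : InKer φ x ↔ φ ⟨x, hx⟩ = 0 := by
  constructor
  · rintro ⟨x', h, hx'⟩
    have : x' = ⟨x, hx⟩ := Subtype.ext h
    rw [← this]
    exact hx'
  · intro h
    exact ⟨⟨x, hx⟩, rfl, h⟩

variable (φ)

/-- sequences with all entries in `ker φ`. -/
def seqKer : Submodule ℤ (ℕ → ℂ) where
  carrier := {s | ∀ n, InKer φ (s n)}
  zero_mem' := fun _ => InKer.zero φ
  add_mem' := fun hs ht n => (hs n).add (ht n)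
  smul_mem' := fun m _ hs n => (hs n).zsmul m

theorem mem_seqKer {s : ℕ → ℂ} : s ∈ seqKer φ ↔ ∀ n, InKer φ (s n) := Iff.rfl

theorem seqT_mem_seqKer {p : ℕ} {w : ℂ} (hw : IsIntegral ℤ w) {s : ℕ → ℂ} (hs : s ∈ seqKer φ) :
    seqT p w s ∈ seqKer φ := by
  intro n
  rw [seqT_apply]
  split_ifs
  · exact (hs _).add ((hs _).mul_left hw)
  · rw [add_zero]; exact hs _

theorem smul_mem_seqKer {r : ℂ} (hr : IsIntegral ℤ r) {s : ℕ → ℂ} (hs : s ∈ seqKer φ) :
    r • s ∈ seqKer φ := fun n => (hs n).mul_left hr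

end Ker

/-! ### the lattice -/

section Lat

variable (R : Subring ℂ) (W : Submodule ℂ (ℕ → ℂ))

/-- the sequences of `W` with all entries in `R`. -/
def seqLat : Submodule ℤ (ℕ → ℂ) where
  carrier := {s | s ∈ W ∧ ∀ n, s n ∈ R}
  zero_mem' := ⟨W.zero_mem, fun _ => R.zero_mem⟩
  add_mem' := fun hs ht => ⟨W.add_mem hs.1 ht.1, fun n => R.add_mem (hs.2 n) (ht.2 n)⟩
  smul_mem' := fun m s hs => by
    refine ⟨?_, fun n => ?_⟩
    · have : m • s = (m : ℂ) • s := by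
        funext n
        simp [zsmul_eq_mul]
      rw [this]
      exact W.smul_mem _ hs.1
    · show m • s n ∈ R
      exact R.zsmul_mem (hs.2 n) m

theorem mem_seqLat {s : ℕ → ℂ} : s ∈ seqLat R W ↔ s ∈ W ∧ ∀ n, s n ∈ R := Iff.rfl

theorem smul_mem_seqLat {r : ℂ} (hr : r ∈ R) {s : ℕ → ℂ} (hs : s ∈ seqLat R W) :
    r • s ∈ seqLat R W :=
  ⟨W.smul_mem r hs.1, fun n => R.mul_mem hr (hs.2 n)⟩

theorem seqT_mem_seqLat {p : ℕ} {w : ℂ} (hw : w ∈ R) (hWT : ∀ s ∈ W, seqT p w s ∈ W)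
    {s : ℕ → ℂ} (hs : s ∈ seqLat R W) : seqT p w s ∈ seqLat R W := by
  refine ⟨hWT s hs.1, fun n => ?_⟩
  rw [seqT_apply]
  split_ifs
  · exact R.add_mem (hs.2 _) (R.mul_mem hw (hs.2 _))
  · rw [add_zero]; exact hs.2 _

/-- finitely many entries determine an element of a finite-dimensional space of sequences. -/
theorem exists_bound_of_finiteDimensional [FiniteDimensional ℂ W] :
    ∃ B : ℕ, ∀ s ∈ W, (∀ n, n < B → s n = 0) → s = 0 := by
  classical
  let K : ℕ → Submodule ℂ W := fun B =>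
    { carrier := {s | ∀ n, n < B → (s : ℕ → ℂ) n = 0}
      zero_mem' := fun _ _ => rfl
      add_mem' := fun {s t} hs ht n hn => by
        show (s : ℕ → ℂ) n + (t : ℕ → ℂ) n = 0
        rw [hs n hn, ht n hn, add_zero]
      smul_mem' := fun c s hs n hn => by
        show c • (s : ℕ → ℂ) n = 0
        rw [hs n hn, smul_zero] }
  have hanti : ∀ B B', B ≤ B' → K B' ≤ K B := fun B B' h s hs n hn => hs n (lt_of_lt_of_le hn h)
  let f : ℕ →o (Submodule ℂ W)ᵒᵈ :=
    { toFun := fun B => OrderDual.toDual (K B)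
      monotone' := fun B B' h => hanti B B' h }
  obtain ⟨B, hB⟩ := IsArtinian.monotone_stabilizes f
  refine ⟨B, fun s hs h => ?_⟩
  funext m
  have h1 : (⟨s, hs⟩ : W) ∈ K B := h
  have h2 : K B = K (max B (m + 1)) := by
    have := hB (max B (m + 1)) (le_max_left _ _)
    exact congrArg OrderDual.ofDual this
  rw [h2] at h1
  exact h1 m (lt_of_lt_of_le (Nat.lt_succ_self m) (le_max_right _ _))

instance seqLat_finite [Module.Finite ℤ R] [FiniteDimensional ℂ W] :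
    Module.Finite ℤ (seqLat R W) := by
  obtain ⟨B, hB⟩ := exists_bound_of_finiteDimensional W
  let Φ : seqLat R W →ₗ[ℤ] (Fin B → R) :=
    { toFun := fun s i => ⟨(s : ℕ → ℂ) i, s.2.2 i⟩
      map_add' := fun _ _ => rfl
      map_smul' := fun m s => by
        funext i
        apply Subtype.ext
        simp }
  refine Module.Finite.of_injective Φ ?_
  intro s t hst
  apply Subtype.ext
  have h0 : (s : ℕ → ℂ) - (t : ℕ → ℂ) = 0 := by
    apply hB _ (W.sub_mem s.2.1 t.2.1)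
    intro n hn
    have := congrArg (fun F : Fin B → R => ((F ⟨n, hn⟩ : R) : ℂ)) hst
    simp only [Pi.sub_apply]
    rw [sub_eq_zero]
    exact this
  exact sub_eq_zero.mp h0

end Lat

/-! ### the lifting lemma for sequences -/

theorem exists_seq_eigen (R : Subring ℂ) (hR : ∀ r ∈ R, IsIntegral ℤ r) [Module.Finite ℤ R]
    (W : Submodule ℂ (ℕ → ℂ)) [FiniteDimensional ℂ W]
    (M : ℕ) (w : ℕ → ℂ) (hw : ∀ p : ℕ, p.Prime → ¬ p ∣ M → w p ∈ R)
    (hWT : ∀ p : ℕ, p.Prime → ¬ p ∣ M → ∀ s ∈ W, seqT p (w p) s ∈ W)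
    {k : Type*} [Field k] [IsAlgClosed k] (φ : Zbar →+* k)
    (s₀ : ℕ → ℂ) (hs₀W : s₀ ∈ W) (hs₀R : ∀ n, s₀ n ∈ R)
    (n₀ : ℕ) (hn₀ : φ ⟨s₀ n₀, hR _ (hs₀R n₀)⟩ ≠ 0)
    (a : ℕ → ℂ) (haR : ∀ p : ℕ, p.Prime → ¬ p ∣ M → a p ∈ R)
    (ha : ∀ p : ℕ, p.Prime → ¬ p ∣ M → ∀ n, InKer φ (seqT p (w p) s₀ n - a p * s₀ n)) :
    ∃ (s : ℕ → ℂ) (b : ℕ → Zbar) (ψ : Zbar →+* k), s ∈ W ∧ s ≠ 0 ∧
      (∀ p : ℕ, p.Prime → ¬ p ∣ M → seqT p (w p) s = (b p : ℂ) • s) ∧
      (∀ (r : ℂ) (hr : r ∈ R), ψ ⟨r, hR r hr⟩ = φ ⟨r, hR r hr⟩) ∧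
      ∀ (p : ℕ) (hp : p.Prime) (hpM : ¬ p ∣ M), ψ (b p) = φ ⟨a p, hR _ (haR p hp hpM)⟩ := by
  classical
  let ι : Type := {p : ℕ // p.Prime ∧ ¬ p ∣ M}
  let T : ι → Module.End ℂ (ℕ → ℂ) := fun i => seqT i.1 (w i.1)
  have hcomm : ∀ i j : ι, T i * T j = T j * T i := fun i j => seqT_comm i.2.1 j.2.1 w
  obtain ⟨g', b, ψ, hg'W, hg'0, hb, hψR, hψb⟩ := exists_eigen_lift_span (V := ℕ → ℂ) R hR T hcomm
    (seqLat R W) (fun r hr x hx => smul_mem_seqLat R W hr hx)
    (fun i x hx => seqT_mem_seqLat R W (hw i.1 i.2.1 i.2.2) (hWT i.1 i.2.1 i.2.2) hx)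
    φ (seqKer φ) (fun r hr x hx => smul_mem_seqKer φ (hR r hr) hx)
    (fun i x hx => seqT_mem_seqKer φ (hR _ (hw i.1 i.2.1 i.2.2)) hx)
    s₀ ⟨hs₀W, hs₀R⟩
    (fun r hr h => by
      have h1 := h n₀
      have h2 : IsIntegral ℤ (r * s₀ n₀) := (hR r hr).mul (hR _ (hs₀R n₀))
      have h3 : (r • s₀) n₀ = r * s₀ n₀ := rfl
      rw [h3, inKer_iff h2] at h1
      have h4 : (⟨r * s₀ n₀, h2⟩ : Zbar) = ⟨r, hR r hr⟩ * ⟨s₀ n₀, hR _ (hs₀R n₀)⟩ := rfl
      rw [h4, map_mul] at h1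
      rcases mul_eq_zero.mp h1 with h5 | h5
      · exact h5
      · exact absurd h5 hn₀)
    (fun i => ⟨a i.1, haR i.1 i.2.1 i.2.2⟩)
    (fun i n => ha i.1 i.2.1 i.2.2 n)
  have hspanW : Submodule.span ℂ ((seqLat R W : Submodule ℤ (ℕ → ℂ)) : Set (ℕ → ℂ)) ≤ W := by
    rw [Submodule.span_le]
    intro x hx
    exact hx.1
  set b' : ℕ → Zbar := fun p => if h : p.Prime ∧ ¬ p ∣ M then b ⟨p, h⟩ else 0 with hb'def
  have hb' : ∀ (p : ℕ) (hp : p.Prime) (hpM : ¬ p ∣ M), b' p = b ⟨p, hp, hpM⟩ :=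
    fun p hp hpM => dif_pos ⟨hp, hpM⟩
  refine ⟨g', b', ψ, hspanW hg'W, hg'0, fun p hp hpM => ?_, hψR, fun p hp hpM => ?_⟩
  · rw [hb' p hp hpM]
    exact hb ⟨p, hp, hpM⟩
  · rw [hb' p hp hpM]
    exact hψb ⟨p, hp, hpM⟩

end Fermat.Agent.S48lib.DS
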