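/-
S48 (Deligne–Serre), block DS, file SeqProd: the coefficient sequence of `f(z) · E(N z)`.

`seqProd N a e n = ∑_{i + j = n} a i · [N ∣ j] e (j / N)`. For `n` prime to `N` only the `a i` with
`i` prime to `N` occur. If the `a i` (`i` prime to `N`) are integral, `e 0` is integral and the
`e j` (`j ≥ 1`) lie in `ker φ`, then `seqProd N a e n ≡ a n · e 0` modulo `ker φ`, and the Hecke
relations of `a` (weight one, character `ε`) become the congruences
`T_p (seqProd) ≡ a_p · seqProd` for the weight two operator with character `ε ψ`, `φ(p ψ(p)) = 1`.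
-/
import Mathlib
import Fermat.Agent.S48lib.DS.SeqHecke

set_option autoImplicit false
set_option linter.style.haveILetI false
set_option linter.unusedSectionVars false
set_option linter.deprecated false

namespace Fermat.Agent.S48lib.DS

/-- the coefficients of `(∑ a_i q^i) · (∑ e_j q^{N j})`. -/
noncomputable def seqProd (N : ℕ) (a e : ℕ → ℂ) : ℕ → ℂ := fun n =>
  ∑ x ∈ Finset.HasAntidiagonal.antidiagonal n, a x.1 * (if N ∣ x.2 then e (x.2 / N) else 0)

theorem seqProd_apply (N : ℕ) (a e : ℕ → ℂ) (n : ℕ) :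
    seqProd N a e n =
      ∑ x ∈ Finset.HasAntidiagonal.antidiagonal n, a x.1 * (if N ∣ x.2 then e (x.2 / N) else 0) := rfl

theorem coprime_of_antidiagonal {N n : ℕ} (hn : Nat.Coprime n N) {x : ℕ × ℕ}
    (hx : x ∈ Finset.HasAntidiagonal.antidiagonal n) (hd : N ∣ x.2) : Nat.Coprime x.1 N := by
  rw [Finset.HasAntidiagonal.mem_antidiagonal] at hx
  obtain ⟨m, hm⟩ := hd
  rw [← hx, hm] at hn
  rw [Nat.Coprime, Nat.gcd_comm] at hn ⊢
  rw [Nat.gcd_add_mul_left_right] at hn
  exact hn

/-- the entries of index prime to `N` lie in `R`. -/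
theorem seqProd_mem (R : Subring ℂ) {N : ℕ} (a e : ℕ → ℂ)
    (ha : ∀ i, Nat.Coprime i N → a i ∈ R) (he : ∀ j, e j ∈ R) {n : ℕ} (hn : Nat.Coprime n N) :
    seqProd N a e n ∈ R := by
  rw [seqProd_apply]
  refine R.sum_mem fun x hx => ?_
  split_ifs with hd
  · exact R.mul_mem (ha _ (coprime_of_antidiagonal hn hx hd)) (he _)
  · rw [mul_zero]; exact R.zero_mem

section Cong

variable {k : Type*} [Field k] {φ : Zbar →+* k}

/-- `seqProd N a e n ≡ a n · e 0` modulo `ker φ` for `n` prime to `N`. -/
theorem seqProd_sub_inKer {N : ℕ} (hN : 0 < N) (a e : ℕ → ℂ)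
    (ha : ∀ i, Nat.Coprime i N → IsIntegral ℤ (a i))
    (he : ∀ j, 1 ≤ j → InKer φ (e j)) {n : ℕ} (hn : Nat.Coprime n N) :
    InKer φ (seqProd N a e n - a n * e 0) := by
  classical
  rw [seqProd_apply]
  have hmem : (n, 0) ∈ Finset.HasAntidiagonal.antidiagonal n := by
    rw [Finset.HasAntidiagonal.mem_antidiagonal]
    exact add_zero n
  rw [← Finset.add_sum_erase _ _ hmem]
  have h0 : a (n, 0).1 * (if N ∣ (n, 0).2 then e ((n, 0).2 / N) else 0) = a n * e 0 := by
    simp
  rw [h0, add_sub_cancel_left]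
  refine InKer.sum _ _ fun x hx => ?_
  rw [Finset.mem_erase] at hx
  obtain ⟨hne, hx⟩ := hx
  split_ifs with hd
  · have hx2 : x.2 ≠ 0 := by
      intro h
      apply hne
      rw [Finset.HasAntidiagonal.mem_antidiagonal] at hx
      ext
      · simp only
        rw [← hx, h, add_zero]
      · exact h
    have hq : 1 ≤ x.2 / N := by
      obtain ⟨m, hm⟩ := hd
      rw [hm, Nat.mul_div_cancel_left _ hN]
      rcases Nat.eq_zero_or_pos m with h | h
      · exact absurd (by rw [hm, h, mul_zero]) hx2
      · exact h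
    exact (he _ hq).mul_left (ha _ (coprime_of_antidiagonal hn hx hd))
  · rw [mul_zero]; exact InKer.zero φ

/-- the Hecke congruence for the masked product sequence. -/
theorem seqProd_hecke_inKer {N : ℕ} (hN : 0 < N) (a e : ℕ → ℂ) {p : ℕ} (hp : p.Prime)
    (hpN : ¬ p ∣ N) (εp ψp ap : ℂ)
    (ha : ∀ i, Nat.Coprime i N → IsIntegral ℤ (a i))
    (he0 : IsIntegral ℤ (e 0)) (he : ∀ j, 1 ≤ j → InKer φ (e j))
    (hεp : IsIntegral ℤ εp) (hψp : IsIntegral ℤ ψp) (hap : IsIntegral ℤ ap)
    (hrel : ∀ n, a (p * n) + εp * (if p ∣ n then a (n / p) else 0) = ap * a n)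
    (hψ : InKer φ ((p : ℂ) * ψp - 1)) (n : ℕ) :
    InKer φ (seqT p ((p : ℂ) * (εp * ψp)) (seqCop N (seqProd N a e)) n -
      ap * seqCop N (seqProd N a e) n) := by
  set b := seqProd N a e with hb
  set w : ℂ := (p : ℂ) * (εp * ψp) with hw
  have hpI : IsIntegral ℤ (p : ℂ) := by
    have : (p : ℂ) = algebraMap ℤ ℂ (p : ℤ) := by simp
    rw [this]
    exact isIntegral_algebraMap
  have hwI : IsIntegral ℤ w := hpI.mul (hεp.mul hψp)
  rw [← seqCop_seqT hp hpN, seqCop_apply, seqCop_apply]
  by_cases hn : Nat.Coprime n N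
  swap
  · rw [if_neg hn, if_neg hn, mul_zero, sub_zero]
    exact InKer.zero φ
  rw [if_pos hn, if_pos hn, seqT_apply]
  -- the error terms
  have hκ : ∀ m, Nat.Coprime m N → InKer φ (b m - a m * e 0) := fun m hm =>
    seqProd_sub_inKer hN a e ha he hm
  have hnp : Nat.Coprime (n * p) N := (coprime_mul_prime_iff hp hpN n).mpr hn
  have hwε : InKer φ (w - εp) := by
    have : w - εp = εp * ((p : ℂ) * ψp - 1) := by rw [hw]; ring
    rw [this]
    exact hψ.mul_left hεp
  by_cases hd : p ∣ n
  · obtain ⟨m, rfl⟩ := hd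
    have hm : Nat.Coprime m N := by
      rw [mul_comm] at hn
      exact (coprime_mul_prime_iff hp hpN m).mp hn
    rw [if_pos (Dvd.intro m rfl), Nat.mul_div_cancel_left _ hp.pos]
    have hr := hrel (p * m)
    rw [if_pos (Dvd.intro m rfl), Nat.mul_div_cancel_left _ hp.pos] at hr
    have key : b (p * m * p) + w * b m - ap * b (p * m) =
        (b (p * m * p) - a (p * m * p) * e 0) + w * (b m - a m * e 0)
          - ap * (b (p * m) - a (p * m) * e 0) + (e 0 * a m) * (w - εp) := by
      have hr' : a (p * m * p) = ap * a (p * m) - εp * a m := by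
        rw [show p * m * p = p * (p * m) by ring]
        linear_combination hr
      rw [hr']
      ring
    rw [key]
    exact (((hκ _ hnp).add ((hκ _ hm).mul_left hwI)).sub ((hκ _ hn).mul_left hap)).add
      (hwε.mul_left (he0.mul (ha _ hm)))
  · rw [if_neg hd, add_zero]
    have hr := hrel n
    rw [if_neg hd, mul_zero, add_zero] at hr
    have key : b (n * p) - ap * b n =
        (b (n * p) - a (n * p) * e 0) - ap * (b n - a n * e 0) := by
      have hr' : a (n * p) = ap * a n := by rw [mul_comm n p]; exact hr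
      rw [hr']
      ring
    rw [key]
    exact (hκ _ hnp).sub ((hκ _ hn).mul_left hap)

end Cong

/-- integrality of the coefficients of index prime to `N`, from the Hecke relations. -/
theorem mem_of_heckeRel (R : Subring ℂ) {N : ℕ} (a εv : ℕ → ℂ) (h0 : a 0 = 0) (h1 : a 1 = 1)
    (hrel : ∀ p : ℕ, p.Prime → ¬ p ∣ N → ∀ n : ℕ,
      a (p * n) + εv p * (if p ∣ n then a (n / p) else 0) = a p * a n)
    (hap : ∀ p : ℕ, p.Prime → ¬ p ∣ N → a p ∈ R)
    (hε : ∀ p : ℕ, p.Prime → ¬ p ∣ N → εv p ∈ R) :
    ∀ i : ℕ, Nat.Coprime i N → a i ∈ R := by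
  intro i
  induction i using Nat.strong_induction_on with
  | _ i ih =>
    intro hi
    rcases Nat.lt_or_ge i 2 with hlt | hge
    · interval_cases i
      · rw [h0]; exact R.zero_mem
      · rw [h1]; exact R.one_mem
    · have hne : i ≠ 1 := by omega
      set p := i.minFac with hpdef
      have hp : p.Prime := Nat.minFac_prime hne
      have hpi : p ∣ i := Nat.minFac_dvd i
      have hpN : ¬ p ∣ N := by
        intro h
        have := Nat.dvd_gcd hpi h
        rw [Nat.Coprime] at hi
        rw [hi] at this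
        exact hp.one_lt.ne' (Nat.dvd_one.mp this)
      obtain ⟨m, hm⟩ := hpi
      have hmpos : 0 < m := by
        rcases Nat.eq_zero_or_pos m with h | h
        · rw [h, mul_zero] at hm; omega
        · exact h
      have hmlt : m < i := by
        rw [hm]
        exact lt_mul_of_one_lt_left hmpos hp.one_lt
      have hmc : Nat.Coprime m N := by
        rw [hm, mul_comm] at hi
        exact (coprime_mul_prime_iff hp hpN m).mp hi
      have hr := hrel p hp hpN m
      have hai : a i = a p * a m - εv p * (if p ∣ m then a (m / p) else 0) := by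
        rw [hm]
        linear_combination hr
      rw [hai]
      refine R.sub_mem (R.mul_mem (hap p hp hpN) (ih m hmlt hmc)) (R.mul_mem (hε p hp hpN) ?_)
      split_ifs with hd
      · obtain ⟨m', hm'⟩ := hd
        have hm'c : Nat.Coprime m' N := by
          rw [hm', mul_comm] at hmc
          exact (coprime_mul_prime_iff hp hpN m').mp hmc
        have hm'lt : m' < i := by
          have : m' ≤ m := by
            rw [hm']
            exact Nat.le_mul_of_pos_left m' hp.pos
          omega
        rw [hm', Nat.mul_div_cancel_left _ hp.pos]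
        exact ih m' hm'lt hm'c
      · exact R.zero_mem

end Fermat.Agent.S48lib.DS
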