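/-
S48 (Deligne–Serre), block DS, file ModLSpace: the lifting lemma on `S₂(Γ₁(M))`.

* `exists_coeff_ring`: a subring `R ⊆ ℤ̄` of `ℂ`, finitely generated as a `ℤ`-module, containing
  the image of the ring of integers of a number field and finitely many more integral elements;
* `nebSpace M χ`: the `χ`-eigenspace of the diamond operators, `coeffSeq`: the coefficient map;
* `exists_eigenform_of_congruence`: a form `g₀` of nebentypus `χ` whose coefficients of index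
  prime to `N` lie in `R`, with a `φ`-unit coefficient, which is an eigenform MODULO `ker φ`
  (on the coefficients of index prime to `N`) with eigenvalues `a p ∈ R`, is congruent to a true
  eigenform `g'` of nebentypus `χ` with eigenvalues `b p ∈ ℤ̄`, for a place `ψ'` of `ℤ̄` which
  agrees with `φ` on `R`: `ψ' (b p) = φ (a p)`.
-/
import Mathlib
import Fermat.Agent.S48lib.DS.SeqProd
import Fermat.Agent.S48lib.W1.Neb

set_option autoImplicit false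
set_option linter.style.haveILetI false
set_option linter.unusedSectionVars false
set_option linter.deprecated false

noncomputable section

namespace Fermat.Agent.S48lib.DS

open UpperHalfPlane CongruenceSubgroup ModularForm ModularFormClass Matrix.SpecialLinearGroup
open scoped MatrixGroups ModularForm Manifold

/-! ### the coefficient ring -/

theorem exists_coeff_ring {K : Type} [Field K] [NumberField K] (ι : K →+* ℂ) {ℓ : ℕ} [NeZero ℓ]
    (ψ : ZMod ℓ → ℂ) (hψ : ∀ x, IsIntegral ℤ (ψ x)) :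
    ∃ R : Subring ℂ, (∀ r ∈ R, IsIntegral ℤ r) ∧ Module.Finite ℤ R ∧
      (∀ x : NumberField.RingOfIntegers K, ι (x : K) ∈ R) ∧ (∀ x, ψ x ∈ R) := by
  classical
  obtain ⟨B, hB⟩ := Module.finite_def.mp
    (inferInstance : Module.Finite ℤ (NumberField.RingOfIntegers K))
  set S : Set ℂ := (fun x : NumberField.RingOfIntegers K => ι (x : K)) '' (B : Set _) ∪
    Set.range ψ with hS
  have hfin : S.Finite := (B.finite_toSet.image _).union (Set.finite_range ψ)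
  have hint : ∀ x ∈ S, IsIntegral ℤ x := by
    rintro x (⟨y, -, rfl⟩ | ⟨y, rfl⟩)
    · exact map_isIntegral_int ι (NumberField.RingOfIntegers.isIntegral_coe y)
    · exact hψ y
  set A : Subalgebra ℤ ℂ := Algebra.adjoin ℤ S with hA
  haveI : Module.Finite ℤ A := Algebra.finite_adjoin_of_finite_of_isIntegral hfin hint
  refine ⟨A.toSubring, ?_, inferInstanceAs (Module.Finite ℤ A), ?_, ?_⟩
  · intro r hr
    have hle : A ≤ integralClosure ℤ ℂ := Algebra.adjoin_le hint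
    exact hle hr
  · intro x
    have hx : x ∈ Submodule.span ℤ (B : Set (NumberField.RingOfIntegers K)) := by
      rw [hB]; exact Submodule.mem_top
    show ι (x : K) ∈ A
    induction hx using Submodule.span_induction with
    | mem y hy => exact Algebra.subset_adjoin (Or.inl ⟨y, hy, rfl⟩)
    | zero => simp
    | add y z _ _ hy hz =>
      have : ι ((y + z : NumberField.RingOfIntegers K) : K) = ι (y : K) + ι (z : K) := by
        simp
      rw [this]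
      exact A.add_mem hy hz
    | smul m y _ hy =>
      have : ι ((m • y : NumberField.RingOfIntegers K) : K) = m • ι (y : K) := by
        simp [zsmul_eq_mul]
      rw [this]
      exact A.zsmul_mem hy m
  · intro x
    exact Algebra.subset_adjoin (Or.inr ⟨x, rfl⟩)

/-! ### the nebentypus eigenspace -/

section Space

variable (M : ℕ) [NeZero M] (χ : DirichletCharacter ℂ M)

/-- the `χ`-eigenspace of the diamond operators on `S₂(Γ₁(M))`. -/
def nebSpace : Submodule ℂ (CuspForm (Gamma1 M : Subgroup (GL (Fin 2) ℝ)) 2) where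
  carrier := {g | ∀ u : (ZMod M)ˣ, W1.diamond 2 u g = χ (u : ZMod M) • g}
  zero_mem' := fun u => by rw [map_zero, smul_zero]
  add_mem' := fun {g h} hg hh u => by rw [map_add, hg u, hh u, smul_add]
  smul_mem' := fun c g hg u => by rw [map_smul, hg u, smul_comm]

variable {M χ}

theorem mem_nebSpace {g : CuspForm (Gamma1 M : Subgroup (GL (Fin 2) ℝ)) 2} :
    g ∈ nebSpace M χ ↔ ∀ u : (ZMod M)ˣ, W1.diamond 2 u g = χ (u : ZMod M) • g := Iff.rfl

theorem heckeT1_mem_nebSpace {p : ℕ} (hp : p.Prime) (hpM : ¬ p ∣ M)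
    {g : CuspForm (Gamma1 M : Subgroup (GL (Fin 2) ℝ)) 2} (hg : g ∈ nebSpace M χ) :
    W1.heckeT1 2 hp hpM g ∈ nebSpace M χ := fun u => by
  rw [W1.diamond_heckeT1, hg u, map_smul]

/-- slash form of the nebentypus. -/
theorem slash_of_mem_nebSpace {g : CuspForm (Gamma1 M : Subgroup (GL (Fin 2) ℝ)) 2}
    (hg : g ∈ nebSpace M χ) (γ : SL(2, ℤ)) (hγ : γ ∈ Gamma0 M) :
    (⇑g : ℍ → ℂ) ∣[(2 : ℤ)] γ = χ (((γ 1 1 : ℤ)) : ZMod M) • (⇑g : ℍ → ℂ) := by
  have h := hg (W1.gamma0Unit ⟨γ, hγ⟩)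
  have h2 : (⇑(W1.diamond 2 (W1.gamma0Unit ⟨γ, hγ⟩) g) : ℍ → ℂ) =
      χ ((W1.gamma0Unit (⟨γ, hγ⟩ : Gamma0 M) : (ZMod M)ˣ) : ZMod M) • (⇑g : ℍ → ℂ) := by
    rw [h]; rfl
  rw [W1.coe_diamond_eq_slash] at h2
  exact h2

theorem mem_nebSpace_of_slash {g : CuspForm (Gamma1 M : Subgroup (GL (Fin 2) ℝ)) 2}
    (h : ∀ γ : SL(2, ℤ), γ ∈ Gamma0 M →
      (⇑g : ℍ → ℂ) ∣[(2 : ℤ)] γ = χ (((γ 1 1 : ℤ)) : ZMod M) • (⇑g : ℍ → ℂ)) :
    g ∈ nebSpace M χ := by
  intro u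
  apply DFunLike.coe_injective
  have h1 := W1.coe_diamond_eq_slash (k := 2) (W1.unitRep u) g
  rw [W1.gamma0Unit_unitRep] at h1
  rw [h1, h _ (W1.unitRep u).2]
  have h2 : ((((W1.unitRep u : Gamma0 M) : SL(2, ℤ)) 1 1 : ℤ) : ZMod M) = (u : ZMod M) := by
    have := congrArg Units.val (W1.gamma0Unit_unitRep u)
    exact this
  rw [h2]
  rfl

/-- the coefficient sequence of a cusp form. -/
def coeffSeq (M : ℕ) [NeZero M] :
    CuspForm (Gamma1 M : Subgroup (GL (Fin 2) ℝ)) 2 →ₗ[ℂ] (ℕ → ℂ) where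
  toFun g := fun n => qCoeff g n
  map_add' g h := by
    funext n
    exact (W1.isQExp_of_cuspForm g).qCoeff_add (W1.isQExp_of_cuspForm h) n
  map_smul' c g := by
    funext n
    exact (W1.isQExp_of_cuspForm g).qCoeff_smul c n

theorem coeffSeq_apply (g : CuspForm (Gamma1 M : Subgroup (GL (Fin 2) ℝ)) 2) (n : ℕ) :
    coeffSeq M g n = qCoeff g n := rfl

theorem coeffSeq_injective : Function.Injective (coeffSeq M) := by
  intro g h hgh
  apply DFunLike.coe_injective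
  exact (W1.isQExp_of_cuspForm g).ext (W1.isQExp_of_cuspForm h) fun n => congrFun hgh n

theorem coeffSeq_heckeT1 {p : ℕ} (hp : p.Prime) (hpM : ¬ p ∣ M)
    {g : CuspForm (Gamma1 M : Subgroup (GL (Fin 2) ℝ)) 2} (hg : g ∈ nebSpace M χ) :
    coeffSeq M (W1.heckeT1 2 hp hpM g) =
      seqT p ((p : ℂ) * χ (p : ZMod M)) (coeffSeq M g) := by
  haveI : Fact p.Prime := ⟨hp⟩
  funext n
  rw [coeffSeq_apply, seqT_apply, W1.qCoeff_heckeT1 hp hpM g n,
    hg (W1.pUnit M p (W1.coprime_of_not_dvd hpM)), W1.coe_pUnit]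
  have h1 : ∀ m, qCoeff (⇑(χ (p : ZMod M) • g)) m = χ (p : ZMod M) * qCoeff g m := fun m =>
    (W1.isQExp_of_cuspForm g).qCoeff_smul _ m
  rw [h1]
  simp only [coeffSeq_apply]
  split_ifs
  · norm_num
    ring
  · rfl

end Space

/-! ### the lifting lemma on `S₂(Γ₁(M))` -/

section Main

variable {M : ℕ} [NeZero M] {χ : DirichletCharacter ℂ M}

theorem exists_eigenform_of_congruence
    [FiniteDimensional ℂ (CuspForm (Gamma1 M : Subgroup (GL (Fin 2) ℝ)) 2)]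
    {N : ℕ} (hNM : N ∣ M)
    (R : Subring ℂ) (hR : ∀ r ∈ R, IsIntegral ℤ r) [Module.Finite ℤ R]
    (hχR : ∀ p : ℕ, p.Prime → ¬ p ∣ M → χ (p : ZMod M) ∈ R)
    {k : Type*} [Field k] [IsAlgClosed k] (φ : Zbar →+* k)
    (g₀ : CuspForm (Gamma1 M : Subgroup (GL (Fin 2) ℝ)) 2) (hg₀ : g₀ ∈ nebSpace M χ)
    (hg₀R : ∀ n, Nat.Coprime n N → qCoeff g₀ n ∈ R)
    (n₀ : ℕ) (hn₀c : Nat.Coprime n₀ N) (hn₀ : φ ⟨qCoeff g₀ n₀, hR _ (hg₀R n₀ hn₀c)⟩ ≠ 0)
    (a : ℕ → ℂ) (haR : ∀ p : ℕ, p.Prime → ¬ p ∣ M → a p ∈ R)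
    (ha : ∀ p : ℕ, p.Prime → ¬ p ∣ M → ∀ n, InKer φ
      (seqT p ((p : ℂ) * χ (p : ZMod M)) (seqCop N (coeffSeq M g₀)) n -
        a p * seqCop N (coeffSeq M g₀) n)) :
    ∃ (g' : CuspForm (Gamma1 M : Subgroup (GL (Fin 2) ℝ)) 2) (b : ℕ → Zbar) (ψ' : Zbar →+* k),
      g' ≠ 0 ∧ g' ∈ nebSpace M χ ∧
      (∀ (p : ℕ) (hp : p.Prime) (hpM : ¬ p ∣ M),
        W1.heckeT1 2 hp hpM g' = ((b p : Zbar) : ℂ) • g') ∧
      (∀ (r : ℂ) (hr : r ∈ R), ψ' ⟨r, hR r hr⟩ = φ ⟨r, hR r hr⟩) ∧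
      ∀ (p : ℕ) (hp : p.Prime) (hpM : ¬ p ∣ M), ψ' (b p) = φ ⟨a p, hR _ (haR p hp hpM)⟩ := by
  classical
  set V : Submodule ℂ (CuspForm (Gamma1 M : Subgroup (GL (Fin 2) ℝ)) 2) := nebSpace M χ with hV
  set c : V →ₗ[ℂ] (ℕ → ℂ) := (seqCop N).comp ((coeffSeq M).comp V.subtype) with hc
  have hc_apply : ∀ v : V, c v = seqCop N (coeffSeq M (v : CuspForm _ 2)) := fun v => rfl
  set W : Submodule ℂ (ℕ → ℂ) := LinearMap.range c with hW
  set w : ℕ → ℂ := fun p => (p : ℂ) * χ (p : ZMod M) with hw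
  have hpN : ∀ {p : ℕ}, ¬ p ∣ M → ¬ p ∣ N := fun h h' => h (dvd_trans h' hNM)
  have hwR : ∀ p : ℕ, p.Prime → ¬ p ∣ M → w p ∈ R := fun p hp hpM =>
    R.mul_mem (natCast_mem R p) (hχR p hp hpM)
  -- the restricted operators
  let ι : Type := {p : ℕ // p.Prime ∧ ¬ p ∣ M}
  let T : ι → Module.End ℂ V := fun i =>
    (W1.heckeT1 2 i.2.1 i.2.2).restrict (fun g hg => heckeT1_mem_nebSpace i.2.1 i.2.2 hg)
  have hTcoe : ∀ (i : ι) (v : V), ((T i v : V) : CuspForm _ 2) =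
      W1.heckeT1 2 i.2.1 i.2.2 (v : CuspForm _ 2) := fun i v => rfl
  have hcomm : ∀ i j : ι, T i * T j = T j * T i := by
    intro i j
    ext v : 2
    rw [Module.End.mul_apply, Module.End.mul_apply, hTcoe, hTcoe, hTcoe, hTcoe]
    exact W1.heckeT1_comm i.2.1 i.2.2 j.2.1 j.2.2 _
  have hinter : ∀ (i : ι) (v : V), c (T i v) = seqT i.1 (w i.1) (c v) := by
    intro i v
    rw [hc_apply, hc_apply, hTcoe, coeffSeq_heckeT1 i.2.1 i.2.2 v.2,
      seqCop_seqT i.2.1 (hpN i.2.2)]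
  have hWT : ∀ p : ℕ, p.Prime → ¬ p ∣ M → ∀ s ∈ W, seqT p (w p) s ∈ W := by
    rintro p hp hpM s ⟨v, rfl⟩
    exact ⟨T ⟨p, hp, hpM⟩ v, hinter ⟨p, hp, hpM⟩ v⟩
  set s₀ : ℕ → ℂ := seqCop N (coeffSeq M g₀) with hs₀
  have hs₀W : s₀ ∈ W := ⟨⟨g₀, hg₀⟩, rfl⟩
  have hs₀R : ∀ n, s₀ n ∈ R := by
    intro n
    rw [hs₀, seqCop_apply]
    split_ifs with h
    · exact hg₀R n h
    · exact R.zero_mem
  have hs₀n₀ : s₀ n₀ = qCoeff g₀ n₀ := by
    rw [hs₀, seqCop_apply, if_pos hn₀c]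
    rfl
  have hn₀' : φ ⟨s₀ n₀, hR _ (hs₀R n₀)⟩ ≠ 0 := by
    have : (⟨s₀ n₀, hR _ (hs₀R n₀)⟩ : Zbar) = ⟨qCoeff g₀ n₀, hR _ (hg₀R n₀ hn₀c)⟩ :=
      Subtype.ext hs₀n₀
    rw [this]
    exact hn₀
  obtain ⟨s, b, ψ', hsW, hs0, hsb, hψR, hψb⟩ := exists_seq_eigen R hR W M w hwR hWT φ s₀ hs₀W hs₀R
    n₀ hn₀' a haR ha
  obtain ⟨v, rfl⟩ := hsW
  obtain ⟨g, hg0, hgb⟩ := exists_eigenvector_of_map (V := V) T hcomm c
    (fun i x hx => by rw [hinter, hx, map_zero])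
    v hs0 (fun i => ((b i.1 : Zbar) : ℂ))
    (fun i => by rw [hinter]; exact hsb i.1 i.2.1 i.2.2)
  refine ⟨(g : CuspForm _ 2), b, ψ', fun h => hg0 (Subtype.ext h), g.2, fun p hp hpM => ?_,
    hψR, hψb⟩
  have := congrArg (fun x : V => (x : CuspForm (Gamma1 M : Subgroup (GL (Fin 2) ℝ)) 2))
    (hgb ⟨p, hp, hpM⟩)
  exact this

end Main

end Fermat.Agent.S48lib.DS
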