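/-
S48 (Deligne–Serre), block DS, file ProdForm: the weight two cusp form `f(z) · E(N z)` on
`Γ₁(N ℓ)`, for `f` a weight one cusp form on `Γ₁(N)` and `E` a weight one modular form on
`Γ₁(ℓ)`: its `q`-expansion (`seqProd`) and its transformation under `Γ₀(N ℓ)`.
-/
import Mathlib
import Fermat.Agent.S48lib.Conj.Forms
import Fermat.Agent.S48lib.DS.SeqProd
import Fermat.Prelude.Thm_ModularFormClass_isBoundedAt_heckeT
import Fermat.Prelude.Thm_ModularFormClass_isBoundedAt_heckeU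

set_option autoImplicit false
set_option linter.style.haveILetI false
set_option linter.unusedSectionVars false
set_option linter.deprecated false

noncomputable section

namespace Fermat.Agent.S48lib.DS

open UpperHalfPlane CongruenceSubgroup ModularForm ModularFormClass Matrix.SpecialLinearGroup
open scoped MatrixGroups ModularForm Manifold
open Fermat.Agent.S48lib.W1 (IsQExp)

/-! ### conjugation by `diag(N, 1)` -/

theorem mapGL_entry (g : SL(2, ℤ)) (i j : Fin 2) :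
    ((Matrix.SpecialLinearGroup.mapGL ℝ g : GL (Fin 2) ℝ) : Matrix (Fin 2) (Fin 2) ℝ) i j
      = ((g i j : ℤ) : ℝ) := by
  simp [Matrix.SpecialLinearGroup.mapGL_coe_matrix]

/-- the conjugate `diag(N,1) γ diag(N,1)⁻¹` of `γ` with `N ∣ c`. -/
def conjDiag (N : ℕ) (γ : SL(2, ℤ)) (h : (N : ℤ) ∣ γ 1 0) : SL(2, ℤ) :=
  ⟨!![γ 0 0, N * γ 0 1; γ 1 0 / N, γ 1 1], by
    rw [Matrix.det_fin_two_of]
    have hdet := Matrix.SpecialLinearGroup.det_coe γ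
    rw [Matrix.det_fin_two] at hdet
    obtain ⟨c, hc⟩ := h
    rcases eq_or_ne (N : ℤ) 0 with h0 | h0
    · rw [h0] at hc ⊢
      rw [hc] at hdet ⊢
      simp at hdet ⊢
      linarith
    · rw [hc, Int.mul_ediv_cancel_left _ h0]
      rw [hc] at hdet
      linear_combination hdet⟩

theorem conjDiag_apply (N : ℕ) (γ : SL(2, ℤ)) (h : (N : ℤ) ∣ γ 1 0) :
    ((conjDiag N γ h : SL(2, ℤ)) : Matrix (Fin 2) (Fin 2) ℤ) =
      !![γ 0 0, N * γ 0 1; γ 1 0 / N, γ 1 1] := rfl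

theorem heckeDiag_mul_mapGL (N : ℕ) (hN : N ≠ 0) (γ : SL(2, ℤ)) (h : (N : ℤ) ∣ γ 1 0) :
    heckeDiagMatrix N * (mapGL ℝ γ : GL (Fin 2) ℝ) =
      (mapGL ℝ (conjDiag N γ h) : GL (Fin 2) ℝ) * heckeDiagMatrix N := by
  apply Matrix.GeneralLinearGroup.ext
  intro i j
  obtain ⟨c, hc⟩ := h
  have hN' : (N : ℤ) ≠ 0 := by exact_mod_cast hN
  have hq : γ 1 0 / N = c := by rw [hc, Int.mul_ediv_cancel_left _ hN']
  have hcR : ((γ 1 0 : ℤ) : ℝ) = (N : ℝ) * (c : ℝ) := by rw [hc]; push_cast; ring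
  rw [Matrix.GeneralLinearGroup.coe_mul, Matrix.GeneralLinearGroup.coe_mul, Matrix.mul_apply,
    Matrix.mul_apply, Fin.sum_univ_two, Fin.sum_univ_two, val_heckeDiagMatrix hN]
  simp only [mapGL_entry]
  fin_cases i <;> fin_cases j <;> simp [conjDiag, hq, hcR, mul_comm]

theorem intCast_zmod_of_mul {N m : ℕ} {x y : ℤ} (h : (x : ZMod (N * m)) = (y : ZMod (N * m))) :
    (x : ZMod m) = (y : ZMod m) := by
  rw [ZMod.intCast_eq_intCast_iff_dvd_sub] at h ⊢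
  exact dvd_trans (by exact_mod_cast Dvd.intro_left N rfl) h

theorem dvd_of_mem_Gamma0_mul {N m : ℕ} {γ : SL(2, ℤ)} (hγ : γ ∈ Gamma0 (N * m)) :
    ((N * m : ℕ) : ℤ) ∣ γ 1 0 := by
  rw [Gamma0_mem] at hγ
  exact (ZMod.intCast_zmod_eq_zero_iff_dvd _ _).mp hγ

theorem dvd_of_mem_Gamma0_mul' {N m : ℕ} {γ : SL(2, ℤ)} (hγ : γ ∈ Gamma0 (N * m)) :
    (N : ℤ) ∣ γ 1 0 :=
  dvd_trans (by exact_mod_cast Dvd.intro m rfl) (dvd_of_mem_Gamma0_mul hγ)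

theorem conjDiag_mem_Gamma0 {N m : ℕ} (hN : N ≠ 0) {γ : SL(2, ℤ)} (hγ : γ ∈ Gamma0 (N * m)) :
    conjDiag N γ (dvd_of_mem_Gamma0_mul' hγ) ∈ Gamma0 m := by
  rw [Gamma0_mem]
  have h1 : (conjDiag N γ (dvd_of_mem_Gamma0_mul' hγ)) 1 0 = γ 1 0 / N := rfl
  rw [h1, ZMod.intCast_zmod_eq_zero_iff_dvd]
  obtain ⟨c, hc⟩ := dvd_of_mem_Gamma0_mul hγ
  have hN' : (N : ℤ) ≠ 0 := by exact_mod_cast hN
  rw [hc]
  push_cast
  rw [mul_assoc, Int.mul_ediv_cancel_left _ hN']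
  exact Dvd.intro c rfl

theorem conjDiag_mem_Gamma1 {N m : ℕ} (hN : N ≠ 0) {γ : SL(2, ℤ)} (hγ : γ ∈ Gamma1 (N * m)) :
    conjDiag N γ (dvd_of_mem_Gamma0_mul' (Gamma1_in_Gamma0 _ hγ)) ∈ Gamma1 m := by
  have h0 := conjDiag_mem_Gamma0 hN (Gamma1_in_Gamma0 _ hγ)
  rw [Gamma0_mem] at h0
  rw [Gamma1_mem] at hγ ⊢
  obtain ⟨ha, hd, -⟩ := hγ
  refine ⟨?_, ?_, h0⟩
  · have : (conjDiag N γ (dvd_of_mem_Gamma0_mul' (Gamma1_in_Gamma0 _ hγ))) 0 0 = γ 0 0 := rfl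
    rw [this]
    have := intCast_zmod_of_mul (N := N) (m := m) (x := γ 0 0) (y := 1) (by simpa using ha)
    simpa using this
  · have : (conjDiag N γ (dvd_of_mem_Gamma0_mul' (Gamma1_in_Gamma0 _ hγ))) 1 1 = γ 1 1 := rfl
    rw [this]
    have := intCast_zmod_of_mul (N := N) (m := m) (x := γ 1 1) (y := 1) (by simpa using hd)
    simpa using this

/-! ### the dilation `E(N z)` -/

/-- `E(N z)`, as a weight one slash. -/
def dil (N : ℕ) (E : ℍ → ℂ) : ℍ → ℂ := E ∣[(1 : ℤ)] heckeDiagMatrix N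

theorem dil_slash {N : ℕ} (hN : N ≠ 0) (E : ℍ → ℂ) (γ : SL(2, ℤ)) (h : (N : ℤ) ∣ γ 1 0) :
    (dil N E) ∣[(1 : ℤ)] γ = dil N (E ∣[(1 : ℤ)] conjDiag N γ h) := by
  show (E ∣[(1 : ℤ)] heckeDiagMatrix N) ∣[(1 : ℤ)] (mapGL ℝ γ : GL (Fin 2) ℝ) =
    (E ∣[(1 : ℤ)] (mapGL ℝ (conjDiag N γ h) : GL (Fin 2) ℝ)) ∣[(1 : ℤ)] heckeDiagMatrix N
  rw [← SlashAction.slash_mul, heckeDiag_mul_mapGL N hN γ h, SlashAction.slash_mul]

theorem dil_smul (N : ℕ) (c : ℂ) (E : ℍ → ℂ) : dil N (c • E) = c • dil N E := by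
  show (c • E) ∣[(1 : ℤ)] heckeDiagMatrix N = c • (E ∣[(1 : ℤ)] heckeDiagMatrix N)
  rw [ModularForm.smul_slash, σ_heckeDiagMatrix]
  rfl

theorem dil_nebentypus {N ℓ : ℕ} (hN : N ≠ 0) (ψ : DirichletCharacter ℂ ℓ) (E : ℍ → ℂ)
    (hE : ∀ γ : SL(2, ℤ), γ ∈ Gamma0 ℓ →
      E ∣[(1 : ℤ)] γ = ψ (((γ 1 1 : ℤ)) : ZMod ℓ) • E)
    (γ : SL(2, ℤ)) (hγ : γ ∈ Gamma0 (N * ℓ)) :
    (dil N E) ∣[(1 : ℤ)] γ = ψ (((γ 1 1 : ℤ)) : ZMod ℓ) • dil N E := by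
  rw [dil_slash hN E γ (dvd_of_mem_Gamma0_mul' hγ), hE _ (conjDiag_mem_Gamma0 hN hγ), dil_smul]
  rfl

theorem dil_eq_sub (N : ℕ) (E : ℍ → ℂ) :
    dil N E = ModularForm.heckeT 1 N E + -ModularForm.heckeU 1 N E := by
  rw [heckeT_eq_heckeU_add]
  show E ∣[(1 : ℤ)] heckeDiagMatrix N = _
  abel

theorem isModFun_dil {N ℓ : ℕ} [NeZero N] [NeZero ℓ]
    (E : ModularForm (Gamma1 ℓ : Subgroup (GL (Fin 2) ℝ)) 1) :
    Conj.IsModFun (N * ℓ) 1 (dil N ⇑E) where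
  hol := ((W1.isQExp_of_modularForm E).slash_diag 1 N).hol
  inv := fun γ hγ => by
    rw [dil_slash (NeZero.ne N) _ γ (dvd_of_mem_Gamma0_mul' (Gamma1_in_Gamma0 _ hγ)),
      (W1.isG1Inv_of_slashInvariantFormClass E) _ (conjDiag_mem_Gamma1 (NeZero.ne N) hγ)]
  bdd := fun γ => by
    have hc := Conj.isCusp_SL2Z_smul_infty ℓ γ
    have h1 := ModularFormClass.isBoundedAt_heckeT E N hc (mapGL ℝ γ) rfl
    have h2 := ModularFormClass.isBoundedAt_heckeU E N hc (mapGL ℝ γ) rfl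
    rw [dil_eq_sub]
    show IsBoundedAtImInfty ((ModularForm.heckeT 1 N ⇑E + -ModularForm.heckeU 1 N ⇑E) ∣[(1 : ℤ)]
      (mapGL ℝ γ : GL (Fin 2) ℝ))
    rw [SlashAction.add_slash, SlashAction.neg_slash]
    exact h1.add h2.neg

theorem qCoeff_dil {N ℓ : ℕ} [NeZero N] [NeZero ℓ]
    (E : ModularForm (Gamma1 ℓ : Subgroup (GL (Fin 2) ℝ)) 1) (n : ℕ) :
    qCoeff (dil N ⇑E) n = if N ∣ n then qCoeff E (n / N) else 0 := by
  show qCoeff (⇑E ∣[(1 : ℤ)] heckeDiagMatrix N) n = _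
  rw [(W1.isQExp_of_modularForm E).qCoeff_slash_diag 1 (NeZero.ne N)]
  simp

/-! ### the product -/

section Prod

variable {N ℓ : ℕ} [NeZero N] [NeZero ℓ]

theorem isCuspFun_prod (f : CuspForm (Gamma1 N : Subgroup (GL (Fin 2) ℝ)) 1)
    (E : ModularForm (Gamma1 ℓ : Subgroup (GL (Fin 2) ℝ)) 1) :
    Conj.IsCuspFun (N * ℓ) 2 (⇑f * dil N ⇑E) :=
  (Conj.IsCuspFun.of_cuspForm f (Dvd.intro ℓ rfl)).mul (isModFun_dil E)

/-- `f(z) · E(N z)` as a weight two cusp form on `Γ₁(N ℓ)`. -/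
def prodForm (f : CuspForm (Gamma1 N : Subgroup (GL (Fin 2) ℝ)) 1)
    (E : ModularForm (Gamma1 ℓ : Subgroup (GL (Fin 2) ℝ)) 1) :
    CuspForm (Gamma1 (N * ℓ) : Subgroup (GL (Fin 2) ℝ)) 2 :=
  (isCuspFun_prod f E).toCuspForm

theorem coe_prodForm (f : CuspForm (Gamma1 N : Subgroup (GL (Fin 2) ℝ)) 1)
    (E : ModularForm (Gamma1 ℓ : Subgroup (GL (Fin 2) ℝ)) 1) :
    (⇑(prodForm f E) : ℍ → ℂ) = ⇑f * dil N ⇑E := rfl

theorem qCoeff_prodForm (f : CuspForm (Gamma1 N : Subgroup (GL (Fin 2) ℝ)) 1)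
    (E : ModularForm (Gamma1 ℓ : Subgroup (GL (Fin 2) ℝ)) 1) (n : ℕ) :
    qCoeff (prodForm f E) n = seqProd N (fun i => qCoeff f i) (fun j => qCoeff E j) n := by
  rw [coe_prodForm, seqProd_apply]
  unfold qCoeff
  rw [Conj.qExpansion_mul_of_isQExp (W1.isQExp_of_cuspForm f) (isModFun_dil (N := N) E).isQExp,
    PowerSeries.coeff_mul]
  refine Finset.sum_congr rfl fun x _ => ?_
  have := qCoeff_dil (N := N) E x.2
  unfold qCoeff at this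
  rw [this]

theorem prodForm_slash (f : CuspForm (Gamma1 N : Subgroup (GL (Fin 2) ℝ)) 1)
    (E : ModularForm (Gamma1 ℓ : Subgroup (GL (Fin 2) ℝ)) 1)
    (ε : DirichletCharacter ℂ N) (ψ : DirichletCharacter ℂ ℓ)
    (hf : ∀ γ : SL(2, ℤ), γ ∈ Gamma0 N →
      (⇑f : ℍ → ℂ) ∣[(1 : ℤ)] γ = ε (((γ 1 1 : ℤ)) : ZMod N) • (⇑f : ℍ → ℂ))
    (hE : ∀ γ : SL(2, ℤ), γ ∈ Gamma0 ℓ →
      (⇑E : ℍ → ℂ) ∣[(1 : ℤ)] γ = ψ (((γ 1 1 : ℤ)) : ZMod ℓ) • (⇑E : ℍ → ℂ))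
    (γ : SL(2, ℤ)) (hγ : γ ∈ Gamma0 (N * ℓ)) :
    (⇑(prodForm f E) : ℍ → ℂ) ∣[(2 : ℤ)] γ =
      (ε (((γ 1 1 : ℤ)) : ZMod N) * ψ (((γ 1 1 : ℤ)) : ZMod ℓ)) • (⇑(prodForm f E) : ℍ → ℂ) := by
  have hγN : γ ∈ Gamma0 N := by
    rw [Gamma0_mem, ZMod.intCast_zmod_eq_zero_iff_dvd]
    exact dvd_of_mem_Gamma0_mul' hγ
  rw [coe_prodForm]
  have h2 : (2 : ℤ) = 1 + 1 := by norm_num
  rw [h2, mul_slash_SL2, hf γ hγN, dil_nebentypus (NeZero.ne N) ψ _ hE γ hγ]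
  ext τ
  simp only [Pi.mul_apply, Pi.smul_apply, smul_eq_mul]
  ring

end Prod

end Fermat.Agent.S48lib.DS
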