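/-
S48 (Deligne–Serre), block DS, file ModL: **the mod `ℓ` representations of a weight one
eigenform** (`ModLStmt`), from
* `Iface.W2Gal M` (residual representations of weight two eigenforms with nebentypus on `Γ₁(M)`),
* `Eis1Stmt` (the weight one Eisenstein series congruent to a unit modulo `ℓ`),
* the finite-dimensionality of `S₂(Γ₁(M))`,
* the algebraic package of `f` (integrality of `a_p`, `p ∤ N`, and of the values of `ε`).

Proof: `g₀ = f(z) E(N z) ∈ S₂(Γ₁(N ℓ), ε ψ)` is an eigenform modulo `ker φ` on the coefficients of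
index prime to `N`, with eigenvalues `a_p`; the lifting lemma gives a true eigenform `g'` with
eigenvalues `b_p` and a place `ψ'` of `ℤ̄` with `ψ' = φ` on the coefficient ring and
`ψ'(b_p) = φ(a_p)`; `W2Gal` at `(g', ψ')` gives the representation, whose determinant at `Frob_p` is
`p φ(ε(p)) φ(ψ(p)) = φ(ε(p))`.
-/
import Mathlib
import Fermat.Agent.S48lib.DS.ModLInputs
import Fermat.Agent.S48lib.DS.ModLSpace
import Fermat.Agent.S48lib.DS.ProdForm
import Fermat.Agent.S48lib.DS.ResToMat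
import Fermat.Agent.S48lib.Iface.W2

set_option autoImplicit false
set_option linter.style.haveILetI false
set_option linter.unusedSectionVars false
set_option linter.deprecated false

noncomputable section

namespace Fermat.Agent.S48lib.DS

open UpperHalfPlane CongruenceSubgroup ModularForm ModularFormClass Matrix.SpecialLinearGroup
  Polynomial
open scoped MatrixGroups ModularForm Manifold

/-! ### the product character -/

section Char

variable {N ℓ : ℕ} [NeZero N] [NeZero ℓ]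

/-- `ε ψ` as a character modulo `N ℓ`. -/
def prodChar (ε : DirichletCharacter ℂ N) (ψ : DirichletCharacter ℂ ℓ) :
    DirichletCharacter ℂ (N * ℓ) :=
  DirichletCharacter.changeLevel (Dvd.intro ℓ rfl) ε *
    DirichletCharacter.changeLevel (Dvd.intro_left N rfl) ψ

theorem prodChar_intCast (ε : DirichletCharacter ℂ N) (ψ : DirichletCharacter ℂ ℓ) {a : ℤ}
    (ha : IsCoprime a ((N * ℓ : ℕ) : ℤ)) :
    prodChar ε ψ (a : ZMod (N * ℓ)) = ε (a : ZMod N) * ψ (a : ZMod ℓ) := by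
  unfold prodChar
  rw [MulChar.mul_apply, DirichletCharacter.changeLevel_eq_cast_of_dvd' ε _ ha,
    DirichletCharacter.changeLevel_eq_cast_of_dvd' ψ _ ha]

theorem prodChar_natCast (ε : DirichletCharacter ℂ N) (ψ : DirichletCharacter ℂ ℓ) {p : ℕ}
    (hp : p.Prime) (hpM : ¬ p ∣ N * ℓ) :
    prodChar ε ψ (p : ZMod (N * ℓ)) = ε (p : ZMod N) * ψ (p : ZMod ℓ) := by
  have hcop : IsCoprime (p : ℤ) ((N * ℓ : ℕ) : ℤ) :=
    Nat.isCoprime_iff_coprime.mpr ((Nat.Prime.coprime_iff_not_dvd hp).mpr hpM)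
  have := prodChar_intCast ε ψ hcop
  simpa using this

theorem isCoprime_lowerRight {M : ℕ} {γ : SL(2, ℤ)} (hγ : γ ∈ Gamma0 M) :
    IsCoprime (γ 1 1) (M : ℤ) := by
  rw [Gamma0_mem] at hγ
  obtain ⟨c', hc'⟩ := (ZMod.intCast_zmod_eq_zero_iff_dvd (γ 1 0) M).mp hγ
  have hdet := Matrix.SpecialLinearGroup.det_coe γ
  rw [Matrix.det_fin_two] at hdet
  refine ⟨γ 0 0, -(γ 0 1 * c'), ?_⟩
  rw [hc'] at hdet
  linear_combination hdet

end Char

/-! ### the theorem -/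

theorem not_dvd_mul_self_of_not_dvd {p M ℓ : ℕ} (hp : p.Prime) (h : ¬ p ∣ M * ℓ) :
    ¬ p ∣ M * ℓ * ℓ := by
  intro hd
  rcases (Nat.Prime.dvd_mul hp).mp hd with h1 | h1
  · exact h h1
  · exact h (Dvd.dvd.mul_left h1 M)

/-- **`ModLStmt` from `W2Gal` at the levels `M ≥ 5`, `Eis1Stmt`, finite-dimensionality and the
algebraic package.**  (`W2Gal` is only used at the levels `M = N ℓ`, `ℓ ≥ 5`.) -/
theorem modLStmt_of_ge (hW2 : ∀ (M : ℕ) [NeZero M], 5 ≤ M → Iface.W2Gal M) (hEis : Eis1Stmt)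
    (hfd : ∀ (M : ℕ) [NeZero M],
      FiniteDimensional ℂ (CuspForm (Gamma1 M : Subgroup (GL (Fin 2) ℝ)) 2))
    (N : ℕ) [NeZero N] (ε : DirichletCharacter ℂ N)
    (f : CuspForm (Gamma1 N : Subgroup (GL (Fin 2) ℝ)) 1) (hf : IsW1Eigen N ε f)
    (P : AlgPackage N ε (fun n => qCoeff f n)) :
    ModLStmt N ε (fun n => qCoeff f n) := by
  intro ℓ hℓ hℓN h5 k _ _ _ φ
  haveI : NeZero ℓ := ⟨hℓ.out.ne_zero⟩
  obtain ⟨ψ, ψZ, E, e, hψZ, hteich, hEneb, hEq, hEcl, he0, hen⟩ := hEis ℓ h5 k φ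
  obtain ⟨hfneb, -, -⟩ := W1.nebentypus_weight_one ε f hf.1 hf.2
  -- the coefficient ring
  obtain ⟨R, hR, hRfin, hRK, hRψ⟩ := exists_coeff_ring P.ι (fun x => ψ x)
    (fun x => by rw [hψZ]; exact (ψZ x).2)
  haveI := hRfin
  have hεR : ∀ x : ZMod N, ε x ∈ R := fun x => by rw [P.hε]; exact hRK _
  have hapR : ∀ p : ℕ, p.Prime → ¬ p ∣ N → qCoeff f p ∈ R := fun p hp hpN => by
    have := P.hα p hp hpN
    rw [this]
    exact hRK _
  have heR : ∀ j, (e j : ℂ) ∈ R := fun j =>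
    (Subring.closure_le.mpr (by rintro _ ⟨x, rfl⟩; exact hRψ x)) (hEcl j)
  -- the coefficients of `f` of index prime to `N`
  set a : ℕ → ℂ := fun n => qCoeff f n with ha_def
  set e' : ℕ → ℂ := fun j => (e j : ℂ) with he'_def
  have ha0 : a 0 = 0 :=
    CuspFormClass.qExpansion_coeff_zero f one_pos (W1.one_mem_strictPeriods_Gamma1 N)
  have haR : ∀ i, Nat.Coprime i N → a i ∈ R :=
    mem_of_heckeRel R a (fun p => ε (p : ZMod N)) ha0 hf.1 hf.2 hapR (fun p _ _ => hεR _)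
  have haI : ∀ i, Nat.Coprime i N → IsIntegral ℤ (a i) := fun i hi => hR _ (haR i hi)
  have he'K : ∀ j, 1 ≤ j → InKer φ (e' j) := fun j hj => ⟨e j, rfl, hen j hj⟩
  have hNpos : 0 < N := Nat.pos_of_ne_zero (NeZero.ne N)
  -- the product form
  set M : ℕ := N * ℓ with hM
  set χ : DirichletCharacter ℂ M := prodChar ε ψ with hχ
  set g₀ : CuspForm (Gamma1 M : Subgroup (GL (Fin 2) ℝ)) 2 := prodForm f E with hg₀
  have hg₀neb : g₀ ∈ nebSpace M χ := mem_nebSpace_of_slash (fun γ hγ => by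
    rw [hg₀, prodForm_slash f E ε ψ hfneb hEneb γ hγ, hχ,
      prodChar_intCast ε ψ (isCoprime_lowerRight hγ)])
  have hcoeff : coeffSeq M g₀ = seqProd N a e' := by
    funext n
    rw [coeffSeq_apply, hg₀, qCoeff_prodForm]
    have : (fun j => qCoeff E j) = e' := funext fun j => hEq j
    rw [this]
  have hg₀R : ∀ n, Nat.Coprime n N → qCoeff g₀ n ∈ R := by
    intro n hn
    have : qCoeff g₀ n = seqProd N a e' n := congrFun hcoeff n
    rw [this]
    exact seqProd_mem R a e' haR heR hn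
  have h1N : Nat.Coprime 1 N := Nat.coprime_one_left N
  have hn₀ : φ ⟨qCoeff g₀ 1, hR _ (hg₀R 1 h1N)⟩ ≠ 0 := by
    have h1 : InKer φ (seqProd N a e' 1 - a 1 * e' 0) :=
      seqProd_sub_inKer hNpos a e' haI he'K h1N
    have h2 : qCoeff g₀ 1 = seqProd N a e' 1 := congrFun hcoeff 1
    have h3 : a 1 = 1 := hf.1
    rw [← h2, h3, one_mul] at h1
    have h4 : IsIntegral ℤ (qCoeff g₀ 1 - e' 0) := (hR _ (hg₀R 1 h1N)).sub (e 0).2
    rw [inKer_iff h4] at h1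
    have h5 : (⟨qCoeff g₀ 1 - e' 0, h4⟩ : Zbar) = ⟨qCoeff g₀ 1, hR _ (hg₀R 1 h1N)⟩ - e 0 := rfl
    rw [h5, map_sub, sub_eq_zero] at h1
    rw [h1]
    exact he0
  have hpN : ∀ {p : ℕ}, ¬ p ∣ M → ¬ p ∣ N := fun h h' => h (Dvd.dvd.mul_right h' ℓ)
  have hpℓ : ∀ {p : ℕ}, ¬ p ∣ M → ¬ ℓ ∣ p → True := fun _ _ => trivial
  have hχp : ∀ p : ℕ, p.Prime → ¬ p ∣ M → χ (p : ZMod M) = ε (p : ZMod N) * ψ (p : ZMod ℓ) :=
    fun p hp hpM => prodChar_natCast ε ψ hp hpM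
  have hχR : ∀ p : ℕ, p.Prime → ¬ p ∣ M → χ (p : ZMod M) ∈ R := fun p hp hpM => by
    rw [hχp p hp hpM]
    exact R.mul_mem (hεR _) (hRψ _)
  have haR' : ∀ p : ℕ, p.Prime → ¬ p ∣ M → a p ∈ R := fun p hp hpM => hapR p hp (hpN hpM)
  have hℓp : ∀ p : ℕ, p.Prime → ¬ p ∣ M → ¬ ℓ ∣ p := by
    intro p hp hpM hd
    have : p = ℓ := ((Nat.prime_dvd_prime_iff_eq hℓ.out hp).mp hd).symm
    exact hpM (this ▸ Dvd.intro_left N rfl)
  have hteich' : ∀ p : ℕ, p.Prime → ¬ p ∣ M → InKer φ ((p : ℂ) * ψ (p : ZMod ℓ) - 1) := by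
    intro p hp hpM
    refine ⟨(p : Zbar) * ψZ (p : ZMod ℓ) - 1, ?_, ?_⟩
    · rw [hψZ]
      simp
    · rw [map_sub, map_mul, map_natCast, map_one, mul_comm, hteich p (hℓp p hp hpM), sub_self]
  have ha : ∀ p : ℕ, p.Prime → ¬ p ∣ M → ∀ n, InKer φ
      (seqT p ((p : ℂ) * χ (p : ZMod M)) (seqCop N (coeffSeq M g₀)) n -
        a p * seqCop N (coeffSeq M g₀) n) := by
    intro p hp hpM n
    rw [hcoeff, hχp p hp hpM]
    exact seqProd_hecke_inKer hNpos a e' hp (hpN hpM) (ε (p : ZMod N)) (ψ (p : ZMod ℓ)) (a p)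
      haI (e 0).2 he'K (hR _ (hεR _)) (hR _ (hRψ _)) (hR _ (haR' p hp hpM))
      (hf.2 p hp (hpN hpM)) (hteich' p hp hpM) n
  haveI := hfd M
  obtain ⟨g', b, ψ', hg'0, hg'neb, hTg', hψ'R, hψ'b⟩ :=
    exists_eigenform_of_congruence (Dvd.intro ℓ rfl : N ∣ M) R hR hχR φ g₀ hg₀neb hg₀R 1 h1N hn₀
      a haR' ha
  -- the Galois representation
  set c : ℕ → Zbar := fun p =>
    if h : p.Prime ∧ ¬ p ∣ M then ⟨χ (p : ZMod M), hR _ (hχR p h.1 h.2)⟩ else 0 with hc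
  have hc' : ∀ (p : ℕ) (hp : p.Prime) (hpM : ¬ p ∣ M),
      c p = ⟨χ (p : ZMod M), hR _ (hχR p hp hpM)⟩ := fun p hp hpM => dif_pos ⟨hp, hpM⟩
  have hneb : Iface.HasNebentypus g' χ := fun γ hγ => slash_of_mem_nebSpace hg'neb γ hγ
  have heig : Iface.IsHeckeEigenAway g' χ (fun p => ((b p : Zbar) : ℂ)) := by
    intro p hp hpM n
    have h1 := congrArg (fun g => coeffSeq M g n) (hTg' p hp hpM)
    rw [coeffSeq_heckeT1 hp hpM hg'neb, map_smul, seqT_apply] at h1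
    simp only [Pi.smul_apply, smul_eq_mul, coeffSeq_apply] at h1
    have h2 : ((p : ℂ)) ^ ((2 : ℤ) - 1) = p := by norm_num
    rw [mul_comm p n, ← h1, h2]
    split_ifs
    · ring
    · rw [mul_zero]
  have hM5 : 5 ≤ M := le_trans h5 (Nat.le_mul_of_pos_left ℓ hNpos)
  obtain ⟨ρ, hss, hunr, hfrob⟩ := hW2 M hM5 χ g' b c hg'0 hneb heig
    (fun p hp hpM => by rw [hc' p hp hpM]) ℓ hℓ.out (by omega) k ψ'
  refine ⟨resMat ρ, finiteLevel_resMat ρ, semisimple2_resMat ρ hss, fun p hp hpM => ⟨?_, ?_⟩⟩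
  · exact unramAt_resMat ρ (hunr p hp (not_dvd_mul_self_of_not_dvd hp hpM))
  · intro A hA σ hσ t d ht hd
    have hch := hfrob p hp (not_dvd_mul_self_of_not_dvd hp hpM) A hA σ hσ
    obtain ⟨htr, hdet⟩ := trace_det_resMat ρ σ _ _ hch
    refine ⟨?_, ?_⟩
    · rw [htr, hψ'b p hp hpM]
      congr 1
      exact Subtype.ext ht.symm
    · rw [hdet, hc' p hp hpM]
      have hdR : (d : ℂ) ∈ R := by rw [hd]; exact hεR _
      have hψR' : ((ψZ (p : ZMod ℓ) : Zbar) : ℂ) ∈ R := by rw [← hψZ]; exact hRψ _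
      have h1 : (⟨χ (p : ZMod M), hR _ (hχR p hp hpM)⟩ : Zbar) = d * ψZ (p : ZMod ℓ) := by
        apply Subtype.ext
        show χ (p : ZMod M) = (d : ℂ) * ((ψZ (p : ZMod ℓ) : Zbar) : ℂ)
        rw [hχp p hp hpM, hd, hψZ]
      have h2 : ψ' d = φ d := hψ'R (d : ℂ) hdR
      have h3 : ψ' (ψZ (p : ZMod ℓ)) = φ (ψZ (p : ZMod ℓ)) := hψ'R _ hψR'
      rw [h1, map_mul, h2, h3, mul_comm (p : k), mul_assoc, hteich p (hℓp p hp hpM), mul_one]

/-- **`ModLStmt` from `W2Gal`, `Eis1Stmt`, finite-dimensionality and the algebraic package.** -/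
theorem modLStmt_of (hW2 : ∀ (M : ℕ) [NeZero M], Iface.W2Gal M) (hEis : Eis1Stmt)
    (hfd : ∀ (M : ℕ) [NeZero M],
      FiniteDimensional ℂ (CuspForm (Gamma1 M : Subgroup (GL (Fin 2) ℝ)) 2))
    (N : ℕ) [NeZero N] (ε : DirichletCharacter ℂ N)
    (f : CuspForm (Gamma1 N : Subgroup (GL (Fin 2) ℝ)) 1) (hf : IsW1Eigen N ε f)
    (P : AlgPackage N ε (fun n => qCoeff f n)) :
    ModLStmt N ε (fun n => qCoeff f n) :=
  modLStmt_of_ge (fun M _ _ => hW2 M) hEis hfd N ε f hf P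

end Fermat.Agent.S48lib.DS
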