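/-
S48 (Deligne–Serre), block DS, file Top: **the frozen statement S48 from the inputs which are still
open** — everything else (`RankinStmt`, `DensStmt`, `BoundedImageStmt`, `LiftStmt`, `MainStmt`,
`ModLStmt`, `AlgStmt` modulo `SpanInt`) is plugged in. Remaining hypotheses:
* `ChebotarevStmt` (block Cheb),
* `∀ M, Iface.W2Gal M` (the port P1–P8),
* `Eis1Stmt` (block Eis1),
* `∀ M, Conj.SpanInt M` (P2: `S₂(Γ₁(M))` is spanned by forms with integral `q`-expansion),
* `∀ M, FiniteDimensional ℂ S₂(Γ₁(M))` (P2, `X1.Forms.finiteDimensional_cuspForm_Gamma1`).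
-/
import Mathlib
import Fermat.Agent.S48lib.DS.Main
import Fermat.Agent.S48lib.DS.ModL
import Fermat.Agent.S48lib.Grp.Main
import Fermat.Agent.S48lib.Rankin.Main
import Fermat.Agent.S48lib.Dens.Main
import Fermat.Agent.S48lib.Lift.Final
import Fermat.Agent.S48lib.Conj.Main

set_option autoImplicit false

open CongruenceSubgroup
open scoped MatrixGroups

namespace Fermat.Agent.S48lib.DS

theorem conclusion_of_inputs (hCheb : ChebotarevStmt)
    (hW2 : ∀ (M : ℕ) [NeZero M], Iface.W2Gal M) (hEis : Eis1Stmt)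
    (hSpan : ∀ (M : ℕ) [NeZero M], Conj.SpanInt M)
    (hfd : ∀ (M : ℕ) [NeZero M],
      FiniteDimensional ℂ (CuspForm (Gamma1 M : Subgroup (GL (Fin 2) ℝ)) 2))
    (N : ℕ) [NeZero N] (ε : DirichletCharacter ℂ N) (f : CuspForm (Gamma1 N) 1)
    (hf : IsW1Eigen N ε f) : Conclusion N ε f := by
  obtain ⟨P⟩ := Conj.algStmt_of_spanInt hSpan N ε f hf
  exact mainStmt Rankin.rankinStmt hCheb Grp.boundedImage Lift.liftStmt_redData N ε f hf P
    (Dens.densStmt_of_rankin Rankin.rankinStmt N P) (modLStmt_of hW2 hEis hfd N ε f hf P)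

/-- the frozen statement S48, from the open inputs. -/
theorem s48_of_inputs (hCheb : ChebotarevStmt)
    (hW2 : ∀ (M : ℕ) [NeZero M], Iface.W2Gal M) (hEis : Eis1Stmt)
    (hSpan : ∀ (M : ℕ) [NeZero M], Conj.SpanInt M)
    (hfd : ∀ (M : ℕ) [NeZero M],
      FiniteDimensional ℂ (CuspForm (Gamma1 M : Subgroup (GL (Fin 2) ℝ)) 2))
    (N : ℕ) [NeZero N] (ε : DirichletCharacter ℂ N) (f : CuspForm (Gamma1 N) 1)
    (hf₁ : ModularFormClass.qCoeff f 1 = 1)
    (hT : ∀ p : ℕ, p.Prime → ¬ p ∣ N → ∀ n : ℕ,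
        ModularFormClass.qCoeff f (p * n) +
            ε (p : ZMod N) * (if p ∣ n then ModularFormClass.qCoeff f (n / p) else 0) =
          ModularFormClass.qCoeff f p * ModularFormClass.qCoeff f n) :
    ∃ ρ : GQ →* GL (Fin 2) ℂ, GaloisFactorsThroughFiniteLevel ρ ∧
      (Deformation.matrixRepresentation ρ).IsIrreducible ∧
      ∀ p : ℕ, p.Prime → ¬ p ∣ N →
        ∀ A : ValuationSubring (AlgebraicClosure ℚ), A.LiesOverPrime p →
          (∀ σ ∈ A.inertiaSubgroupIn ℚ, ρ σ = 1) ∧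
          ∀ σ : GQ, A.IsFrobeniusAt σ p →
            ((ρ σ : GL (Fin 2) ℂ) : Matrix (Fin 2) (Fin 2) ℂ).trace = ModularFormClass.qCoeff f p ∧
            ((ρ σ : GL (Fin 2) ℂ) : Matrix (Fin 2) (Fin 2) ℂ).det = ε (p : ZMod N) :=
  conclusion_of_inputs hCheb hW2 hEis hSpan hfd N ε f ⟨hf₁, hT⟩

end Fermat.Agent.S48lib.DS
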