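/-
S48 (Deligne–Serre), block DS, file Top2: **the frozen statement S48 from the THREE inputs which are
still open** — `AlgStmt` (helper1's `Conj.algStmt`, unconditional), the finite-dimensionality of
`S₂(Γ₁(M))` (helper7's `X1.Forms.finiteDimensional_cuspForm_Gamma1`) and the reduction
`Eis1Stmt ⇐ EisQStmt` (`DS/EisWrap`) are now plugged in as well. Remaining hypotheses:
* `ChebotarevStmt` (block Cheb),
* `∀ M, Iface.W2Gal M` (the port P1–P8),
* `EisQStmt` (block Eis1: the weight one Eisenstein series of an odd character of prime conductor).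
-/
import Mathlib
import Fermat.Agent.S48lib.DS.Top
import Fermat.Agent.S48lib.DS.EisWrap
import Fermat.Agent.S48lib.Conj.Final
import Fermat.Agent.S48lib.X1.Forms.Final

set_option autoImplicit false

open CongruenceSubgroup
open scoped MatrixGroups

namespace Fermat.Agent.S48lib.DS

theorem conclusion_of_three (hCheb : ChebotarevStmt)
    (hW2 : ∀ (M : ℕ) [NeZero M], Iface.W2Gal M) (hEisQ : EisQStmt)
    (N : ℕ) [NeZero N] (ε : DirichletCharacter ℂ N) (f : CuspForm (Gamma1 N) 1)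
    (hf : IsW1Eigen N ε f) : Conclusion N ε f := by
  obtain ⟨P⟩ := Conj.algStmt N ε f hf
  exact mainStmt Rankin.rankinStmt hCheb Grp.boundedImage Lift.liftStmt_redData N ε f hf P
    (Dens.densStmt_of_rankin Rankin.rankinStmt N P)
    (modLStmt_of hW2 (eis1Stmt_of_eisQ hEisQ)
      (fun M _ => X1.Forms.finiteDimensional_cuspForm_Gamma1 M) N ε f hf P)

/-- the same with `W2Gal` only at the levels `M ≥ 5` (all that Deligne–Serre uses: `M = N ℓ`,
`ℓ ≥ 5`). -/
theorem conclusion_of_three_ge (hCheb : ChebotarevStmt)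
    (hW2 : ∀ (M : ℕ) [NeZero M], 5 ≤ M → Iface.W2Gal M) (hEisQ : EisQStmt)
    (N : ℕ) [NeZero N] (ε : DirichletCharacter ℂ N) (f : CuspForm (Gamma1 N) 1)
    (hf : IsW1Eigen N ε f) : Conclusion N ε f := by
  obtain ⟨P⟩ := Conj.algStmt N ε f hf
  exact mainStmt Rankin.rankinStmt hCheb Grp.boundedImage Lift.liftStmt_redData N ε f hf P
    (Dens.densStmt_of_rankin Rankin.rankinStmt N P)
    (modLStmt_of_ge hW2 (eis1Stmt_of_eisQ hEisQ)
      (fun M _ => X1.Forms.finiteDimensional_cuspForm_Gamma1 M) N ε f hf P)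

/-- the frozen statement S48, from the three open inputs. -/
theorem s48_of_three (hCheb : ChebotarevStmt)
    (hW2 : ∀ (M : ℕ) [NeZero M], Iface.W2Gal M) (hEisQ : EisQStmt)
    (N : ℕ) [NeZero N] (ε : DirichletCharacter ℂ N) (f : CuspForm (Gamma1 N) 1)
    (hf₁ : ModularFormClass.qCoeff f 1 = 1)
    (hT : ∀ p : ℕ, p.Prime → ¬ p ∣ N → ∀ n : ℕ,
        ModularFormClass.qCoeff f (p * n) +
            ε (p : ZMod N) * (if p ∣ n then ModularFormClass.qCoeff f (n / p) else 0) =
          ModularFormClass.qCoeff f p * ModularFormClass.qCoeff f n) :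
    ∃ ρ : GQ →* GL (Fin 2) ℂ, GaloisFactorsThroughFiniteLevel ρ ∧
      (Deformation.matrixRepresentation ρ).IsIrreducible ∧
      ∀ p : ℕ, p.Prime → ¬ p ∣ N →
        ∀ A : ValuationSubring (AlgebraicClosure ℚ), A.LiesOverPrime p →
          (∀ σ ∈ A.inertiaSubgroupIn ℚ, ρ σ = 1) ∧
          ∀ σ : GQ, A.IsFrobeniusAt σ p →
            ((ρ σ : GL (Fin 2) ℂ) : Matrix (Fin 2) (Fin 2) ℂ).trace = ModularFormClass.qCoeff f p ∧
            ((ρ σ : GL (Fin 2) ℂ) : Matrix (Fin 2) (Fin 2) ℂ).det = ε (p : ZMod N) :=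
  conclusion_of_three hCheb hW2 hEisQ N ε f ⟨hf₁, hT⟩

end Fermat.Agent.S48lib.DS
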