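/-
S48 (Deligne–Serre), block DS, file Top3: **the frozen statement S48 from the TWO inputs which are
still open** — Chebotarev (`Cheb.chebotarevStmt`, helper8 + helper4) is now plugged in as well.
Remaining hypotheses:
* `∀ M, Iface.W2Gal M` (the port P1–P8),
* `EisQStmt` (block Eis1: the weight one Eisenstein series of an odd character of prime conductor).
-/
import Mathlib
import Fermat.Agent.S48lib.DS.Top2
import Fermat.Agent.S48lib.Cheb.Gal.Final

set_option autoImplicit false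

open CongruenceSubgroup
open scoped MatrixGroups

namespace Fermat.Agent.S48lib.DS

/-- the frozen statement S48, from the two open inputs. -/
theorem s48_of_two
    (hW2 : ∀ (M : ℕ) [NeZero M], Iface.W2Gal M) (hEisQ : EisQStmt)
    (N : ℕ) [NeZero N] (ε : DirichletCharacter ℂ N) (f : CuspForm (Gamma1 N) 1)
    (hf₁ : ModularFormClass.qCoeff f 1 = 1)
    (hT : ∀ p : ℕ, p.Prime → ¬ p ∣ N → ∀ n : ℕ,
        ModularFormClass.qCoeff f (p * n) +
            ε (p : ZMod N) * (if p ∣ n then ModularFormClass.qCoeff f (n / p) else 0) =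
          ModularFormClass.qCoeff f p * ModularFormClass.qCoeff f n) :
    ∃ ρ : GQ →* GL (Fin 2) ℂ, GaloisFactorsThroughFiniteLevel ρ ∧
      (Deformation.matrixRepresentation ρ).IsIrreducible ∧
      ∀ p : ℕ, p.Prime → ¬ p ∣ N →
        ∀ A : ValuationSubring (AlgebraicClosure ℚ), A.LiesOverPrime p →
          (∀ σ ∈ A.inertiaSubgroupIn ℚ, ρ σ = 1) ∧
          ∀ σ : GQ, A.IsFrobeniusAt σ p →
            ((ρ σ : GL (Fin 2) ℂ) : Matrix (Fin 2) (Fin 2) ℂ).trace = ModularFormClass.qCoeff f p ∧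
            ((ρ σ : GL (Fin 2) ℂ) : Matrix (Fin 2) (Fin 2) ℂ).det = ε (p : ZMod N) :=
  s48_of_three Cheb.chebotarevStmt hW2 hEisQ N ε f hf₁ hT

/-- the frozen statement S48, from `W2Gal` at the levels `M ≥ 5` only (all that Deligne–Serre uses:
`M = N ℓ` with `ℓ ≥ 5`) and `EisQStmt`. -/
theorem s48_of_two_ge
    (hW2 : ∀ (M : ℕ) [NeZero M], 5 ≤ M → Iface.W2Gal M) (hEisQ : EisQStmt)
    (N : ℕ) [NeZero N] (ε : DirichletCharacter ℂ N) (f : CuspForm (Gamma1 N) 1)
    (hf₁ : ModularFormClass.qCoeff f 1 = 1)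
    (hT : ∀ p : ℕ, p.Prime → ¬ p ∣ N → ∀ n : ℕ,
        ModularFormClass.qCoeff f (p * n) +
            ε (p : ZMod N) * (if p ∣ n then ModularFormClass.qCoeff f (n / p) else 0) =
          ModularFormClass.qCoeff f p * ModularFormClass.qCoeff f n) :
    ∃ ρ : GQ →* GL (Fin 2) ℂ, GaloisFactorsThroughFiniteLevel ρ ∧
      (Deformation.matrixRepresentation ρ).IsIrreducible ∧
      ∀ p : ℕ, p.Prime → ¬ p ∣ N →
        ∀ A : ValuationSubring (AlgebraicClosure ℚ), A.LiesOverPrime p →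
          (∀ σ ∈ A.inertiaSubgroupIn ℚ, ρ σ = 1) ∧
          ∀ σ : GQ, A.IsFrobeniusAt σ p →
            ((ρ σ : GL (Fin 2) ℂ) : Matrix (Fin 2) (Fin 2) ℂ).trace = ModularFormClass.qCoeff f p ∧
            ((ρ σ : GL (Fin 2) ℂ) : Matrix (Fin 2) (Fin 2) ℂ).det = ε (p : ZMod N) :=
  conclusion_of_three_ge Cheb.chebotarevStmt hW2 hEisQ N ε f ⟨hf₁, hT⟩

end Fermat.Agent.S48lib.DS
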