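/-
S48 (Deligne–Serre), block DS, file Top4: **the frozen statement S48 from `W2Gal` at the levels
divisible by `4` or by `9` only** (where the geometric port works: base curves `X₁(4)`, `X₁(9)`)
**and `EisQStmt`.**

* `w2Gal_of_nine_four : W2Gal (9 M) → W2Gal (4 M) → W2Gal M` — helper9's `w2Gal_of_three_four`
  (`X1/Gal/Levels`) with `3` replaced by `9`: the representation `ρ⁽¹⁾` from level `9M` is unramified
  with the right Frobenius polynomials outside `3Mℓ`, `ρ⁽²⁾` from level `4M` outside `2Mℓ`; equal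
  characteristic polynomials everywhere (weak Chebotarev), hence `ρ⁽¹⁾` is also good at `3`.
* `s48_of_w2_dvd`.
-/
import Mathlib
import Fermat.Agent.S48lib.DS.Top3
import Fermat.Agent.S48lib.X1.Gal.Levels

set_option autoImplicit false
set_option linter.style.haveILetI false

open CongruenceSubgroup Polynomial
open scoped MatrixGroups

namespace Fermat.Agent.S48lib.DS

open Fermat.Agent.S48lib.Iface Fermat.Agent.S48lib.X1.Gal

/-- **Reduction of `W2Gal M` to the levels `9 M` and `4 M`.** -/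
theorem w2Gal_of_nine_four {M : ℕ} [NeZero M] (h9 : W2Gal (9 * M)) (h4 : W2Gal (4 * M)) :
    W2Gal M := by
  intro χ g b c hg hneb heig hc ℓ hℓ hℓ2 k _ _ _ φ
  have hM : ∀ (d : ℕ) {p : ℕ}, ¬ p ∣ d * M → ¬ p ∣ M := fun d p h hM =>
    h (Dvd.dvd.mul_left hM d)
  obtain ⟨ρ₁, hss₁, hunr₁, hfr₁⟩ := h9 (raiseChar 9 χ) (raiseLevel 9 g) b c
    (raiseLevel_ne_zero 9 hg) (hasNebentypus_raiseLevel 9 χ hneb)
    (isHeckeEigenAway_raiseLevel 9 χ heig)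
    (fun p hp hpd => by rw [raiseChar_natCast 9 χ hp hpd]; exact hc p hp (hM 9 hpd))
    ℓ hℓ hℓ2 k φ
  obtain ⟨ρ₂, hss₂, hunr₂, hfr₂⟩ := h4 (raiseChar 4 χ) (raiseLevel 4 g) b c
    (raiseLevel_ne_zero 4 hg) (hasNebentypus_raiseLevel 4 χ hneb)
    (isHeckeEigenAway_raiseLevel 4 χ heig)
    (fun p hp hpd => by rw [raiseChar_natCast 4 χ hp hpd]; exact hc p hp (hM 4 hpd))
    ℓ hℓ hℓ2 k φ
  -- equal characteristic polynomials everywhere
  have hne : 36 * M * ℓ ≠ 0 :=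
    mul_ne_zero (mul_ne_zero (by norm_num) (NeZero.ne M)) hℓ.ne_zero
  have hcp := charpoly_eq_of_frob ρ₁ ρ₂ (36 * M * ℓ).primeFactors (by
    intro p hp hpS A hA σ hσ
    have hnd : ¬ p ∣ 36 * M * ℓ := fun hd => hpS (Nat.mem_primeFactors.mpr ⟨hp, hd, hne⟩)
    have hnd9 : ¬ p ∣ 9 * M * ℓ := fun hd => hnd (dvd_trans hd ⟨4, by ring⟩)
    have hnd4 : ¬ p ∣ 4 * M * ℓ := fun hd => hnd (dvd_trans hd ⟨9, by ring⟩)
    rw [hfr₁ p hp hnd9 A hA σ hσ, hfr₂ p hp hnd4 A hA σ hσ])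
  have h34 : ¬ 3 ∣ M * ℓ → ¬ 3 ∣ 4 * M * ℓ := by
    intro h hd
    rw [mul_assoc] at hd
    rcases (Nat.Prime.dvd_mul Nat.prime_three).mp hd with h1 | h1
    · omega
    · exact h h1
  have hp3 : ∀ {p : ℕ}, p.Prime → p ≠ 3 → ¬ p ∣ M * ℓ → ¬ p ∣ 9 * M * ℓ := by
    intro p hp hne3 h
    have e : 9 * M * ℓ = 3 * (3 * (M * ℓ)) := by ring
    rw [e]
    exact X1.Gal.not_dvd_mul_of_ne Nat.prime_three hp hne3
      (X1.Gal.not_dvd_mul_of_ne Nat.prime_three hp hne3 h)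
  refine ⟨ρ₁, hss₁, ?_, ?_⟩
  · intro p hp hpd
    by_cases hp3' : p = 3
    · subst hp3'
      intro A hA σ hσ
      have h2 : ρ₂.ρ σ = 1 := hunr₂ 3 hp (h34 hpd) A hA σ hσ
      exact eq_one_of_charpoly_eq ρ₁.finrank_eq ρ₂.finrank_eq ρ₁.ρ ρ₂.ρ hss₁ hcp h2
    · exact hunr₁ p hp (hp3 hp hp3' hpd)
  · intro p hp hpd A hA σ hσ
    by_cases hp3' : p = 3
    · subst hp3'
      rw [hcp σ]
      exact hfr₂ 3 hp (h34 hpd) A hA σ hσ
    · exact hfr₁ p hp (hp3 hp hp3' hpd) A hA σ hσ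

/-- `W2Gal` at every level from `W2Gal` at the levels divisible by `4` or `9`. -/
theorem w2Gal_of_dvd_four_or_nine
    (hW2 : ∀ (M : ℕ) [NeZero M], (4 ∣ M ∨ 9 ∣ M) → W2Gal M) (M : ℕ) [NeZero M] : W2Gal M :=
  haveI : NeZero (9 * M) := ⟨Nat.mul_ne_zero (by norm_num) (NeZero.ne M)⟩
  haveI : NeZero (4 * M) := ⟨Nat.mul_ne_zero (by norm_num) (NeZero.ne M)⟩
  w2Gal_of_nine_four (hW2 (9 * M) (Or.inr ⟨M, rfl⟩)) (hW2 (4 * M) (Or.inl ⟨M, rfl⟩))

/-- **the frozen statement S48, from `W2Gal` at the levels divisible by `4` or `9` and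
`EisQStmt`.** -/
theorem s48_of_w2_dvd
    (hW2 : ∀ (M : ℕ) [NeZero M], (4 ∣ M ∨ 9 ∣ M) → Iface.W2Gal M) (hEisQ : EisQStmt)
    (N : ℕ) [NeZero N] (ε : DirichletCharacter ℂ N) (f : CuspForm (Gamma1 N) 1)
    (hf₁ : ModularFormClass.qCoeff f 1 = 1)
    (hT : ∀ p : ℕ, p.Prime → ¬ p ∣ N → ∀ n : ℕ,
        ModularFormClass.qCoeff f (p * n) +
            ε (p : ZMod N) * (if p ∣ n then ModularFormClass.qCoeff f (n / p) else 0) =
          ModularFormClass.qCoeff f p * ModularFormClass.qCoeff f n) :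
    ∃ ρ : GQ →* GL (Fin 2) ℂ, GaloisFactorsThroughFiniteLevel ρ ∧
      (Deformation.matrixRepresentation ρ).IsIrreducible ∧
      ∀ p : ℕ, p.Prime → ¬ p ∣ N →
        ∀ A : ValuationSubring (AlgebraicClosure ℚ), A.LiesOverPrime p →
          (∀ σ ∈ A.inertiaSubgroupIn ℚ, ρ σ = 1) ∧
          ∀ σ : GQ, A.IsFrobeniusAt σ p →
            ((ρ σ : GL (Fin 2) ℂ) : Matrix (Fin 2) (Fin 2) ℂ).trace = ModularFormClass.qCoeff f p ∧
            ((ρ σ : GL (Fin 2) ℂ) : Matrix (Fin 2) (Fin 2) ℂ).det = ε (p : ZMod N) :=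
  s48_of_two_ge (fun M _ _ => w2Gal_of_dvd_four_or_nine hW2 M) hEisQ N ε f hf₁ hT

end Fermat.Agent.S48lib.DS
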