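/-
S48 (Deligne–Serre), block DS, file ResToMat: from a `ResidualGaloisRep k` (Prelude) to a matrix
representation `G_ℚ →* GL₂(k)`: finite level, unramifiedness, trace and determinant from the
characteristic polynomial, and `Semisimple2` from `Iface.IsSemisimpleRep`.
-/
import Mathlib
import Fermat.Agent.S48lib.DS.Inputs
import Fermat.Agent.S48lib.Iface.W2

set_option autoImplicit false
set_option linter.style.haveILetI false
set_option linter.unusedSectionVars false
set_option linter.deprecated false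

noncomputable section

namespace Fermat.Agent.S48lib.DS

open Polynomial

variable {k : Type} [Field k]

/-- a basis of the space of a residual representation. -/
def resBasis (ρ : ResidualGaloisRep k) : Module.Basis (Fin 2) k ρ.V :=
  Module.finBasisOfFinrankEq k ρ.V ρ.finrank_eq

/-- the matrix form of a residual representation. -/
def resMat (ρ : ResidualGaloisRep k) : GQ →* GL (Fin 2) k :=
  (Units.map ((LinearMap.toMatrixAlgEquiv (resBasis ρ) :
    Module.End k ρ.V ≃ₐ[k] Matrix (Fin 2) (Fin 2) k) :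
      Module.End k ρ.V →* Matrix (Fin 2) (Fin 2) k)).comp ρ.ρ.toHomUnits

theorem coe_resMat (ρ : ResidualGaloisRep k) (σ : GQ) :
    ((resMat ρ σ : GL (Fin 2) k) : Matrix (Fin 2) (Fin 2) k) =
      LinearMap.toMatrix (resBasis ρ) (resBasis ρ) (ρ.ρ σ) := rfl

theorem resMat_eq_one_of (ρ : ResidualGaloisRep k) {σ : GQ} (h : ρ.ρ σ = 1) : resMat ρ σ = 1 := by
  apply Units.ext
  rw [coe_resMat, h]
  exact LinearMap.toMatrix_one _

theorem finiteLevel_resMat (ρ : ResidualGaloisRep k) :
    GaloisFactorsThroughFiniteLevel (resMat ρ) := by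
  obtain ⟨L, hL, h⟩ := ρ.factorsThroughFiniteLevel
  exact ⟨L, hL, fun σ hσ => resMat_eq_one_of ρ (h σ hσ)⟩

theorem unramAt_resMat (ρ : ResidualGaloisRep k) {p : ℕ} (h : ρ.IsUnramifiedAt p) :
    UnramAt (resMat ρ) p :=
  fun A hA σ hσ => resMat_eq_one_of ρ (h A hA σ hσ)

theorem charpoly_resMat (ρ : ResidualGaloisRep k) (σ : GQ) :
    ((resMat ρ σ : GL (Fin 2) k) : Matrix (Fin 2) (Fin 2) k).charpoly =
      LinearMap.charpoly (ρ.ρ σ) := by
  rw [coe_resMat]
  exact LinearMap.charpoly_toMatrix _ _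

theorem trace_det_of_charpoly (M : Matrix (Fin 2) (Fin 2) k) (t d : k)
    (h : M.charpoly = X ^ 2 - C t * X + C d) : M.trace = t ∧ M.det = d := by
  rw [Matrix.charpoly_fin_two] at h
  have h1 := congrArg (fun P : k[X] => P.coeff 1) h
  have h0 := congrArg (fun P : k[X] => P.coeff 0) h
  simp only [coeff_add, coeff_sub, coeff_X_pow, coeff_C_mul, coeff_X_one, coeff_C_zero,
    coeff_X_zero, mul_zero, mul_one] at h1 h0
  simp only [coeff_C] at h1 h0
  norm_num at h1 h0
  exact ⟨h1, h0⟩

theorem trace_det_resMat (ρ : ResidualGaloisRep k) (σ : GQ) (t d : k)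
    (h : LinearMap.charpoly (ρ.ρ σ) = X ^ 2 - C t * X + C d) :
    ((resMat ρ σ : GL (Fin 2) k) : Matrix (Fin 2) (Fin 2) k).trace = t ∧
      ((resMat ρ σ : GL (Fin 2) k) : Matrix (Fin 2) (Fin 2) k).det = d :=
  trace_det_of_charpoly _ t d (by rw [charpoly_resMat, h])

/-- `mulVec` on coordinates is the action on vectors. -/
theorem resMat_mulVec_repr (ρ : ResidualGaloisRep k) (σ : GQ) (x : ρ.V) :
    ((resMat ρ σ : GL (Fin 2) k) : Matrix (Fin 2) (Fin 2) k).mulVec ((resBasis ρ).repr x) =
      (resBasis ρ).repr (ρ.ρ σ x) := by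
  rw [coe_resMat]
  exact LinearMap.toMatrix_mulVec_repr _ _ _ x

theorem semisimple2_resMat (ρ : ResidualGaloisRep k) (hss : Iface.IsSemisimpleRep ρ) :
    Semisimple2 (resMat ρ) := by
  classical
  intro v hv hstab
  set b := resBasis ρ with hb
  set x : ρ.V := b.equivFun.symm v with hx
  have hxv : ⇑(b.repr x) = v := by
    have := b.equivFun.apply_symm_apply v
    exact this
  have hx0 : x ≠ 0 := by
    intro h
    apply hv
    rw [← hxv, h, map_zero]
    rfl
  -- the action on `x`
  have hact : ∀ σ : GQ, ∃ c : k, ρ.ρ σ x = c • x := by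
    intro σ
    obtain ⟨c, hc⟩ := hstab σ
    refine ⟨c, ?_⟩
    apply b.repr.injective
    have h1 := resMat_mulVec_repr ρ σ x
    rw [← hb] at h1
    apply DFunLike.coe_injective
    rw [← h1, hxv, hc, map_smul, ← hxv]
    rfl
  set W : Submodule k ρ.V := Submodule.span k {x} with hW
  have hWstab : ∀ σ : GQ, ∀ y ∈ W, ρ.ρ σ y ∈ W := by
    intro σ y hy
    obtain ⟨a, rfl⟩ := Submodule.mem_span_singleton.mp hy
    obtain ⟨c, hc⟩ := hact σ
    rw [map_smul, hc, smul_smul]
    exact Submodule.mem_span_singleton.mpr ⟨a * c, rfl⟩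
  obtain ⟨W', hW'stab, hcompl⟩ := hss W hWstab
  -- `W'` is a line
  have hW1 : Module.finrank k W = 1 := finrank_span_singleton hx0
  have hsum := Submodule.finrank_add_eq_of_isCompl hcompl
  rw [hW1, ρ.finrank_eq] at hsum
  have hW'1 : Module.finrank k W' = 1 := by omega
  obtain ⟨y, hy0, hyspan⟩ := finrank_eq_one_iff'.mp hW'1
  have hyact : ∀ σ : GQ, ∃ c : k, ρ.ρ σ (y : ρ.V) = c • (y : ρ.V) := by
    intro σ
    obtain ⟨c, hc⟩ := hyspan ⟨ρ.ρ σ y, hW'stab σ y y.2⟩
    exact ⟨c, (congrArg Subtype.val hc).symm⟩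
  have hy0' : (y : ρ.V) ≠ 0 := fun h => hy0 (Subtype.ext h)
  refine ⟨⇑(b.repr (y : ρ.V)), fun σ => ?_, fun a c hac => ?_⟩
  · obtain ⟨c, hc⟩ := hyact σ
    refine ⟨c, ?_⟩
    have h1 := resMat_mulVec_repr ρ σ (y : ρ.V)
    rw [← hb] at h1
    rw [h1, hc, map_smul]
    rfl
  · have h1 : a • x + c • (y : ρ.V) = 0 := by
      apply b.repr.injective
      apply DFunLike.coe_injective
      rw [map_add, map_smul, map_smul, map_zero]
      show a • ⇑(b.repr x) + c • ⇑(b.repr (y : ρ.V)) = 0
      rw [hxv]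
      exact hac
    have h2 : a • x ∈ W ⊓ W' := by
      refine ⟨W.smul_mem a (Submodule.mem_span_singleton_self x), ?_⟩
      have : a • x = -(c • (y : ρ.V)) := eq_neg_of_add_eq_zero_left h1
      rw [this]
      exact W'.neg_mem (W'.smul_mem c y.2)
    rw [hcompl.inf_eq_bot, Submodule.mem_bot] at h2
    have ha : a = 0 := by
      rcases smul_eq_zero.mp h2 with h | h
      · exact h
      · exact absurd h hx0
    rw [ha, zero_smul, zero_add] at h1
    have hc : c = 0 := by
      rcases smul_eq_zero.mp h1 with h | h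
      · exact h
      · exact absurd h hy0'
    exact ⟨ha, hc⟩

end Fermat.Agent.S48lib.DS
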